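/-
GATE-F (S44) / GF-KCOVER-INST-AUX (helper47, co-owner with helper28), file 2: **places of the
residue function field at the auxiliary level `M·4`.**

`q ∥ M`, `q` odd, `A ∣ q`, `𝕜` the residue field of `A`.  Inside `𝕜((Q))`:
`FresBar M A ≤ FresBar (M·2) A ≤ FresBar (M·2·2) A`, each step finite separable of degree `≤ 3`
(CASE A, helper81 `ResDeg`).  For EVERY place `Q` of `FresBar M A`:

* `exists_place_mul_two`  : a place `Q'` of `FresBar (M·2) A` and `0 < e ≤ 3` with
  `ord_{Q'} x = e · ord_Q x` on `FresBar M A` (and `Q'` restricts to `Q`);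
* `exists_place_mul_four` : a place `Q''` of `FresBar (M·2·2) A` and `e` prime to every `m` all of
  whose prime factors are `≥ 5`, with `ord_{Q''} x = e · ord_Q x`.

Together with `OrdRedUp.dvd_ordRed_of_up` this is the descent of the node lemma NL0 of the cover
from the auxiliary level (where every node ring has thickness one) to level `M`; no `e_s`.
-/
import Fermat.Agent.GB.A.Desc.NodeFinal

set_option autoImplicit false
set_option linter.unusedSectionVars false
set_option linter.style.haveILetI false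

noncomputable section

namespace Fermat.Agent.GF.KCover.AuxLevel

open ModularCurve IsLocalRing AlgebraicCurve HahnSeries IntermediateField
open Fermat.Agent.S24 Fermat.Agent.GJ.J1 Fermat.Agent.GJ.J1.Val
open Fermat.Agent.GJ.KumGroup Fermat.Agent.GJ.Kum.KumType
open Fermat.Agent.GK.UqKronecker Fermat.Agent.GK.AL Fermat.Agent.GK.SS
open Fermat.Agent.GB.A.FP
open Fermat.Agent.GB.A.Desc

/-! ### generic: one place above a given place -/

section Gen

variable {k E : Type*} [Field k] [Field E] [Algebra k E] {F F' : IntermediateField k E}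
  (hle : F ≤ F')

/-- **a place of `F'` above a place of `F`** (`F ≤ F'` finite separable), with its ramification
index, in the spelling of `IntermediateField.inclusion`. -/
theorem exists_place_above
    (hfin : @FiniteDimensional F F' _ _ (inclAlgebra hle).toModule)
    (hsep : @Algebra.IsSeparable F F' _ _ (inclAlgebra hle)) (v : Place k F) :
    ∃ (w : Place k F') (e : ℕ), 0 < e ∧
      e ≤ @Module.finrank F F' _ _ (inclAlgebra hle).toModule ∧
      (∀ x : F, w.ord (inclusion hle x) = (e : ℤ) * v.ord x) ∧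
      ∀ x : F, inclusion hle x ∈ w.toValuationSubring ↔ x ∈ v.toValuationSubring := by
  letI := inclAlgebra hle
  have := inclAlgebra_isScalarTower hle
  obtain ⟨w, hw⟩ := PlaceExt.exists_place_restrict_eq (K := k) (F' := F') v
  refine ⟨w, w.ramificationIndex F, w.ramificationIndex_pos (F := F),
    PlaceExt.ramificationIndex_le_finrank w, fun x => ?_, fun x => ?_⟩
  · rw [← hw]
    exact w.ord_restrict x
  · rw [← hw]
    exact (w.mem_restrict_iff (F := F)).symm

end Gen

/-! ### the levels `M ∣ M·2 ∣ M·2·2` -/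

section Modular

variable {M q : ℕ} [NeZero M] {A : ValuationSubring Kb}

local notation "𝕜" => ResidueField A

/-- **one step** `M ∣ M·2`. -/
theorem exists_place_mul_two (h : ExactDvd q M) (hq2 : q ≠ 2) (hA : A.LiesOverPrime q)
    (Q : Place 𝕜 (FresBar M A)) :
    ∃ (Q' : Place 𝕜 (FresBar (M * 2) A)) (e : ℕ), 0 < e ∧ e ≤ 3 ∧
      (∀ x : FresBar M A,
        Q'.ord (inclusion (FresBar_le_level M 2 A) x) = (e : ℤ) * Q.ord x) ∧
      ∀ x : FresBar M A, inclusion (FresBar_le_level M 2 A) x ∈ Q'.toValuationSubring ↔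
        x ∈ Q.toValuationSubring := by
  have hle : FresBar M A ≤ FresBar (M * 2) A := FresBar_le_level M 2 A
  obtain ⟨Q', e, he0, he, hord, hmem⟩ := exists_place_above hle
    (ResDeg.finiteDimensional_FresBar_mul_two A h hA hq2 hle)
    (ResDeg.isSeparable_FresBar_mul_two A h hA hle) Q
  exact ⟨Q', e, he0, he.trans (ResDeg.finrank_FresBar_mul_two_le A h hA hq2 hle), hord, hmem⟩

/-- `FresBar M A ≤ FresBar (M·2·2) A`. -/
theorem FresBar_le_mul_four (M : ℕ) [NeZero M] (A : ValuationSubring Kb) :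
    FresBar M A ≤ FresBar (M * 2 * 2) A :=
  (FresBar_le_level M 2 A).trans (FresBar_le_level (M * 2) 2 A)

/-- **two steps** `M ∣ M·2·2`: a place above `Q` whose ramification index is prime to every `m`
with all prime factors `≥ 5`. -/
theorem exists_place_mul_four (h : ExactDvd q M) (hq2 : q ≠ 2) (hA : A.LiesOverPrime q)
    (Q : Place 𝕜 (FresBar M A)) :
    ∃ (Q'' : Place 𝕜 (FresBar (M * 2 * 2) A)) (e : ℕ), 0 < e ∧
      (∀ m : ℕ, (∀ r : ℕ, r.Prime → r ∣ m → 5 ≤ r) → Nat.Coprime e m) ∧
      (∀ x : FresBar M A,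
        Q''.ord (inclusion (FresBar_le_mul_four M A) x) = (e : ℤ) * Q.ord x) ∧
      ∀ x : FresBar M A, inclusion (FresBar_le_mul_four M A) x ∈ Q''.toValuationSubring ↔
        x ∈ Q.toValuationSubring := by
  obtain ⟨Q', e₁, he₁0, he₁, hord₁, hmem₁⟩ := exists_place_mul_two h hq2 hA Q
  obtain ⟨Q'', e₂, he₂0, he₂, hord₂, hmem₂⟩ :=
    exists_place_mul_two (exactDvd_mul_two h hq2) hq2 hA Q'
  have hincl : ∀ x : FresBar M A, inclusion (FresBar_le_mul_four M A) x =
      inclusion (FresBar_le_level (M * 2) 2 A) (inclusion (FresBar_le_level M 2 A) x) :=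
    fun x => Subtype.ext (by rw [coe_inclusion, coe_inclusion, coe_inclusion])
  refine ⟨Q'', e₂ * e₁, Nat.mul_pos he₂0 he₁0, fun m hm => ?_, fun x => ?_, fun x => ?_⟩
  · exact Nat.Coprime.mul_left (coprime_of_le_three hm he₂0 he₂) (coprime_of_le_three hm he₁0 he₁)
  · rw [hincl, hord₂, hord₁]
    push_cast
    ring
  · rw [hincl, hmem₂, hmem₁]

/-- the `ℤ`-coprimality form used by `OrdRedUp.dvd_ordRed_of_up`. -/
theorem exists_place_mul_four_prime (h : ExactDvd q M) (hq2 : q ≠ 2) (hA : A.LiesOverPrime q)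
    {p : ℕ} (hp : p.Prime) (hp5 : 5 ≤ p) (Q : Place 𝕜 (FresBar M A)) :
    ∃ (Q'' : Place 𝕜 (FresBar (M * 2 * 2) A)) (e : ℤ), IsCoprime (p : ℤ) e ∧
      (∀ x : FresBar M A, x ≠ 0 →
        Q''.ord ((inclusion (FresBar_le_mul_four M A)).toRingHom x) = e * Q.ord x) ∧
      ∀ x : FresBar M A, inclusion (FresBar_le_mul_four M A) x ∈ Q''.toValuationSubring ↔
        x ∈ Q.toValuationSubring := by
  obtain ⟨Q'', e, -, hcop, hord, hmem⟩ := exists_place_mul_four h hq2 hA Q
  refine ⟨Q'', (e : ℤ), ?_, fun x _ => hord x, hmem⟩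
  have h1 : Nat.Coprime e p := hcop p fun r hr hrp => by
    rw [(Nat.prime_dvd_prime_iff_eq hr hp).1 hrp]
    exact hp5
  exact (Nat.isCoprime_iff_coprime.2 h1).symm

end Modular

end Fermat.Agent.GF.KCover.AuxLevel
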