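/-
GATE-F (S44) / GF-KCOVER-INST-AUX (helper47, co-owner with helper28), file 1: **`ordRed` and a
change of level.**

`R : RedData K F k Ft` (a Gauss-type valuation of the cover at level `N`, residue function field
`Ft = FresBar N A`), `R' : RedData K F' k Ft'` the same at the auxiliary level `4N`
(`Ft' = FresBar (4N) A`), `ι : F →ₐ[K] F'`, `j : Ft →+* Ft'` the inclusions, compatible
(`RedUp`: `ι (R.Rw) ⊆ R'.Rw`, `R'.red ∘ ι = j ∘ R.red`).  If `Pl'` is a place of `Ft'` with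
`ord_{Pl'} (j x) = e · ord_{Pl} x`, then

  `ordRed R' Pl' (ι u) = e · ordRed R Pl u`      (`ordRed_up`),

so `m ∣ ordRed R' Pl' (ι u)` descends to `m ∣ ordRed R Pl u` when `e` is prime to `m`
(`dvd_ordRed_of_up`): **NL0 at level `N` from NL0 at level `4N`**, branch by branch, with no
`e_s` bookkeeping.  Instance-free (homs, not `Algebra` instances) so that it applies verbatim to
`IntermediateField.inclusion`.
-/
import Fermat.Agent.GF.Trop.OrdRed

set_option autoImplicit false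
set_option linter.unusedSectionVars false

noncomputable section

open AlgebraicCurve

namespace Fermat.Agent.GF.KCover.AuxLevel

open Fermat.Agent.GJ.J1 Fermat.Agent.GF.Trop

variable {K F F' k Ft Ft' : Type*} [Field K] [Field F] [Field F'] [Algebra K F] [Algebra K F']
  [Field k] [Field Ft] [Field Ft'] [Algebra k Ft] [Algebra k Ft']

/-- **compatibility of two reduction data with a change of level** `ι : F → F'`, `j : Ft → Ft'`. -/
structure RedUp (ι : F →ₐ[K] F') (j : Ft →+* Ft') (R : RedData K F k Ft)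
    (R' : RedData K F' k Ft') : Prop where
  mem : ∀ x : F, x ∈ R.Rw → ι x ∈ R'.Rw
  red_eq : ∀ (x : F) (hx : x ∈ R.Rw) (hx' : ι x ∈ R'.Rw),
    R'.red ⟨ι x, hx'⟩ = j (R.red ⟨x, hx⟩)

variable {ι : F →ₐ[K] F'} {j : Ft →+* Ft'} {R : RedData K F k Ft} {R' : RedData K F' k Ft'}

theorem RedUp.isU (h : RedUp ι j R R') {x : F} (hx : IsU R x) : IsU R' (ι x) := by
  refine ⟨(map_ne_zero_iff _ ι.toRingHom.injective).2 hx.1, h.mem x hx.2.1, ?_⟩
  rw [← map_inv₀]
  exact h.mem _ hx.2.2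

/-- the valuation rings correspond: `ι x ∈ R'.Rw ↔ x ∈ R.Rw`. -/
theorem RedUp.mem_iff (h : RedUp ι j R R') (x : F) : ι x ∈ R'.Rw ↔ x ∈ R.Rw := by
  refine ⟨fun hx' => ?_, h.mem x⟩
  by_contra hx
  -- `x ∉ R.Rw` ⟹ `x⁻¹` is a nonunit of `R.Rw`, so `red x⁻¹ = 0`, so `ι x⁻¹` is a nonunit
  have hx0 : x ≠ 0 := fun h0 => hx (h0 ▸ R.Rw.zero_mem)
  have hxi : x⁻¹ ∈ R.Rw := (R.Rw.mem_or_inv_mem x).resolve_left hx
  have hred : R.red ⟨x⁻¹, hxi⟩ = 0 := by
    by_contra hne
    have hU := isU_of_red_ne_zero hxi hne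
    have h2 := hU.2.2
    rw [inv_inv] at h2
    exact hx h2
  have hxi' : ι x⁻¹ ∈ R'.Rw := h.mem _ hxi
  have hred' : R'.red ⟨ι x⁻¹, hxi'⟩ = 0 := by rw [h.red_eq _ hxi hxi', hred, map_zero]
  have e : (⟨ι x, hx'⟩ : R'.Rw) * ⟨ι x⁻¹, hxi'⟩ = 1 := by
    apply Subtype.ext
    show ι x * ι x⁻¹ = 1
    rw [← map_mul, mul_inv_cancel₀ hx0, map_one]
  have := congrArg R'.red e
  rw [map_mul, hred', mul_zero, map_one] at this
  exact zero_ne_one this

variable (hun : Unram R) (hun' : Unram R')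

/-- **`ordRed` and a change of level.** -/
theorem ordRed_up (h : RedUp ι j R R') {Pl : Place k Ft} {Pl' : Place k Ft'} {e : ℤ}
    (hord : ∀ x : Ft, x ≠ 0 → Pl'.ord (j x) = e * Pl.ord x) (u : F) :
    ordRed R' hun' Pl' (ι u) = e * ordRed R hun Pl u := by
  by_cases hu : u = 0
  · subst hu
    rw [map_zero]
    unfold ordRed
    rw [dif_neg (by simp), dif_neg (by simp), mul_zero]
  · obtain ⟨c, hc0, hm, hmi⟩ := hun u hu
    have hU : IsU R (algebraMap K F c * u) := ⟨mul_ne_zero (by simpa using hc0) hu, hm, hmi⟩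
    have hU' : IsU R' (algebraMap K F' c * ι u) := by
      have := h.isU hU
      rwa [map_mul, AlgHom.commutes] at this
    have hu' : ι u ≠ 0 := (map_ne_zero_iff _ ι.toRingHom.injective).2 hu
    rw [ordRed_eq hun' Pl' hu' hU', ordRed_eq hun Pl hu hU]
    have e1 : (⟨algebraMap K F' c * ι u, hU'.2.1⟩ : R'.Rw) =
        ⟨ι (algebraMap K F c * u), h.mem _ hU.2.1⟩ := by
      apply Subtype.ext
      show algebraMap K F' c * ι u = ι (algebraMap K F c * u)
      rw [map_mul, AlgHom.commutes]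
    rw [e1, h.red_eq _ hU.2.1, hord _ hU.red_ne_zero]

/-- **descent of divisibility**: NL0 at level `N` from NL0 at the auxiliary level. -/
theorem dvd_ordRed_of_up (h : RedUp ι j R R') {Pl : Place k Ft} {Pl' : Place k Ft'} {e : ℤ}
    (hord : ∀ x : Ft, x ≠ 0 → Pl'.ord (j x) = e * Pl.ord x) {m : ℤ} (hcop : IsCoprime m e)
    {u : F} (hdvd : m ∣ ordRed R' hun' Pl' (ι u)) : m ∣ ordRed R hun Pl u := by
  rw [ordRed_up hun hun' h hord u] at hdvd
  exact hcop.dvd_of_dvd_mul_left hdvd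

/-- the unit form: `IsU` goes up and comes down. -/
theorem RedUp.isU_iff (h : RedUp ι j R R') (x : F) : IsU R' (ι x) ↔ IsU R x := by
  refine ⟨fun hx => ⟨fun h0 => hx.1 (by rw [h0, map_zero]), (h.mem_iff x).1 hx.2.1, ?_⟩, h.isU⟩
  have := hx.2.2
  rw [← map_inv₀] at this
  exact (h.mem_iff _).1 this

end Fermat.Agent.GF.KCover.AuxLevel
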