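/-
GATE-F (S44) / GF-KCOVER-INST-AUX (helper47, co-owner with helper28), file 3: **the descent of the
node lemma from the auxiliary level, abstract assembly + the downstairs instances of `RedUp`.**

* `RedUp.comp`  : `RedUp` composes (two `×2` steps);
* `redUp_bar`, `redUp_two` : the two Gauss valuations of `F_M ⊆ F_{M a}` satisfy `RedUp` along
  `alphaB M a` and `FresBar M A ≤ FresBar (M a) A` (CASE A `Desc/Level`);
* `nl_descent`  : NL0 at a place `Pl` of level `M` from NL0 at ONE place `Pl'` above it at the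
  auxiliary level whose ramification index is prime to `m`
  (`FresFour.exists_place_mul_four_prime` provides `Pl'`).
-/
import Fermat.Agent.GF.KCover.AuxLevel.OrdRedUp
import Fermat.Agent.GF.KCover.AuxLevel.FresFour

set_option autoImplicit false
set_option linter.unusedSectionVars false

noncomputable section

open AlgebraicCurve

namespace Fermat.Agent.GF.KCover.AuxLevel

open Fermat.Agent.GJ.J1 Fermat.Agent.GF.Trop

section Abstract

variable {K F F' F'' k Ft Ft' Ft'' : Type*} [Field K] [Field F] [Field F'] [Field F'']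
  [Algebra K F] [Algebra K F'] [Algebra K F''] [Field k] [Field Ft] [Field Ft'] [Field Ft'']
  [Algebra k Ft] [Algebra k Ft'] [Algebra k Ft'']

/-- `RedUp` composes. -/
theorem RedUp.comp {ι : F →ₐ[K] F'} {ι' : F' →ₐ[K] F''} {j : Ft →+* Ft'} {j' : Ft' →+* Ft''}
    {R : RedData K F k Ft} {R' : RedData K F' k Ft'} {R'' : RedData K F'' k Ft''}
    (h : RedUp ι j R R') (h' : RedUp ι' j' R' R'') : RedUp (ι'.comp ι) (j'.comp j) R R'' where
  mem x hx := h'.mem _ (h.mem x hx)
  red_eq x hx hx' := by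
    show R''.red ⟨ι' (ι x), hx'⟩ = j' (j (R.red ⟨x, hx⟩))
    rw [h'.red_eq (ι x) (h.mem x hx) hx', h.red_eq x hx (h.mem x hx)]

variable {ι : F →ₐ[K] F'} {j : Ft →+* Ft'} {R₁ R₂ : RedData K F k Ft}
  {R₁' R₂' : RedData K F' k Ft'}

/-- **NL0 descends from the auxiliary level.**  `Good` = "`K0`-rational, `p ∣` the horizontal
orders through the node"; it only has to go UP. -/
theorem nl_descent (h₁ : RedUp ι j R₁ R₁') (h₂ : RedUp ι j R₂ R₂') (hun₁ : Unram R₁)
    (hun₁' : Unram R₁') {Pl : Place k Ft} {Pl' : Place k Ft'} {e : ℤ}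
    (hord : ∀ x : Ft, x ≠ 0 → Pl'.ord (j x) = e * Pl.ord x) {m : ℤ} (hcop : IsCoprime m e)
    (Good : F → Prop) (Good' : F' → Prop) (hGood : ∀ y, Good y → Good' (ι y))
    (NL' : ∀ y' : F', Good' y' → IsU R₁' y' → IsU R₂' y' → m ∣ ordRed R₁' hun₁' Pl' y') :
    ∀ y : F, Good y → IsU R₁ y → IsU R₂ y → m ∣ ordRed R₁ hun₁ Pl y := fun y hy h1 h2 =>
  dvd_ordRed_of_up hun₁ hun₁' h₁ hord hcop (NL' (ι y) (hGood y hy) (h₁.isU h1) (h₂.isU h2))

end Abstract

/-! ### the downstairs instances -/

section Modular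

open ModularCurve IsLocalRing HahnSeries IntermediateField
open Fermat.Agent.S24 Fermat.Agent.GJ.J1.Val
open Fermat.Agent.GJ.KumGroup Fermat.Agent.GJ.Kum.KumType Fermat.Agent.GJ.HN
open Fermat.Agent.GK.UqKronecker Fermat.Agent.GK.AL Fermat.Agent.GK.SS Fermat.Agent.GK.UTr
open Fermat.Agent.GB.A.FP Fermat.Agent.GB.A.Desc

variable (M a : ℕ) [NeZero M] [NeZero a] (A : ValuationSubring Kb)

/-- the first Gauss valuation and the change of level `M ∣ M a`. -/
theorem redUp_bar :
    RedUp (alphaB M a) (inclusion (FresBar_le_level M a A)).toRingHom (redDataBar M A)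
      (redDataBar (M * a) A) where
  mem x hx := (alphaB_mem_Rw1_iff M a A x).2 hx
  red_eq x hx hx' := by
    apply Subtype.ext
    rw [coe_red1_alphaB M a A x hx hx', AlgHom.toRingHom_eq_coe, RingHom.coe_coe, coe_inclusion]

variable {M a A} {q : ℕ} (h : ExactDvd q M) (h' : ExactDvd q (M * a))

/-- the second Gauss valuation and the change of level `M ∣ M a` (`q ∥ M`, `q ∥ M a`). -/
theorem redUp_two :
    RedUp (alphaB M a) (inclusion (FresBar_le_level M a A)).toRingHom (redData2 M A h)
      (redData2 (M * a) A h') where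
  mem x hx := (alphaB_mem_Rw2_iff A h h' x).2 hx
  red_eq x hx hx' := by
    apply Subtype.ext
    rw [coe_red2_alphaB A h h' x hx hx', AlgHom.toRingHom_eq_coe, RingHom.coe_coe, coe_inclusion]

end Modular

end Fermat.Agent.GF.KCover.AuxLevel
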