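/-
GATE-F (S44) / GF-KCOVER-INST-AUX (helper47), file 4 = (AUX-C): **`RedUp` for the completions and
for the sheets of the cover.**

`RedUp ι j R R'` (`R`, `R'` the Gauss-type reduction data of `F_N ⊆ F_{4N}`), `R'` unramified over
the base.  The value groups of `R.Rw.valuation` and `R'.Rw.valuation` are different TYPES, so
helper85's `MapEmb.mapEmb` (same `Γ₀`) does not apply verbatim; here:

* `Gen.continuous_of_lt`   : a field embedding which preserves `<` of valuations (two value groups)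
  and has cofinal values is continuous;
* `complMap h hun'`        : `LR R →ₐ[K] LR R'` (the completion `L_i^N → L_i^{4N}`),
  `complMap_j : complMap (j x) = j' (ι x)`;
* `redUp_compl`            : `RedUp (complMap h hun') j (redCompl R) (redCompl R')`;
* `RedUp.pullback`, `redUp_sheet` : `RedUp upF j (sheet R e he) (sheet R' e' he')` as soon as
  `e' ∘ upF = complMap ∘ e` (the SAME `p`-th root `γ_i` at both levels).
-/
import Fermat.Agent.GF.KCover.AuxLevel.OrdRedUp
import Fermat.Agent.GF.KCover.Compl.RedCompl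

set_option autoImplicit false
set_option linter.unusedSectionVars false
set_option linter.dupNamespace false

noncomputable section

open Topology Filter UniformSpace AlgebraicCurve

namespace Fermat.Agent.GF.KCover.AuxLevel

open Fermat.Agent.GJ.J1 Fermat.Agent.S24 Fermat.Agent.GF.Trop Fermat.Agent.GF.KCover.Compl
open Fermat.Agent.GF.KCover.Compl.RedCompl Fermat.Agent.GF.KCover.Node.OrdRedExt

/-! ### continuity of an embedding between two valued fields with different value groups -/

namespace Gen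

variable {F F' : Type*} [Field F] [Field F'] {Γ₀ Γ₀' : Type*}
  [LinearOrderedCommGroupWithZero Γ₀] [LinearOrderedCommGroupWithZero Γ₀']
  [hv : Valued F Γ₀] [hv' : Valued F' Γ₀']

/-- an embedding which preserves `<` of valuations and has cofinal values is continuous -/
theorem continuous_of_lt (ι : F →+* F')
    (hlt : ∀ x c : F, hv.v x < hv.v c → hv'.v (ι x) < hv'.v (ι c))
    (hcof : ∀ y' : F', y' ≠ 0 → ∃ c : F, c ≠ 0 ∧ hv'.v (ι c) ≤ hv'.v y') : Continuous ι := by
  refine continuous_of_continuousAt_zero ι ?_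
  rw [ContinuousAt, map_zero]
  rw [(Valued.hasBasis_nhds_zero F Γ₀).tendsto_iff (Valued.hasBasis_nhds_zero F' Γ₀')]
  intro γ' _
  obtain ⟨r, s, hr, hs, hrs⟩ := hv'.v.exists_div_eq_of_unit γ'
  have hr0 : r ≠ 0 := fun h => by rw [h, map_zero] at hr; exact lt_irrefl _ hr
  have hs0 : s ≠ 0 := fun h => by rw [h, map_zero] at hs; exact lt_irrefl _ hs
  obtain ⟨c, hc0, hc⟩ := hcof (r / s) (div_ne_zero hr0 hs0)
  have hc' : hv.v.restrict c ≠ 0 := by
    rw [Ne, Valuation.restrict_eq_zero_iff, Valuation.zero_iff]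
    exact hc0
  refine ⟨Units.mk0 _ hc', trivial, fun x hx => ?_⟩
  rw [Set.mem_ofPred_eq, Units.val_mk0, Valuation.restrict_lt_iff] at hx
  rw [Set.mem_ofPred_eq, ← hrs, ← map_div₀, Valuation.restrict_lt_iff]
  exact lt_of_lt_of_le (hlt x c hx) hc

/-- the induced map on the completions -/
def mapHom₂ (ι : F →+* F')
    (hlt : ∀ x c : F, hv.v x < hv.v c → hv'.v (ι x) < hv'.v (ι c))
    (hcof : ∀ y' : F', y' ≠ 0 → ∃ c : F, c ≠ 0 ∧ hv'.v (ι c) ≤ hv'.v y') :
    Completion F →+* Completion F' :=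
  Completion.mapRingHom ι (continuous_of_lt ι hlt hcof)

theorem mapHom₂_coe (ι : F →+* F')
    (hlt : ∀ x c : F, hv.v x < hv.v c → hv'.v (ι x) < hv'.v (ι c))
    (hcof : ∀ y' : F', y' ≠ 0 → ∃ c : F, c ≠ 0 ∧ hv'.v (ι c) ≤ hv'.v y') (x : F) :
    mapHom₂ ι hlt hcof (x : Completion F) = ((ι x : F') : Completion F') :=
  Completion.mapRingHom_coe (continuous_of_lt ι hlt hcof) x

theorem continuous_mapHom₂ (ι : F →+* F')
    (hlt : ∀ x c : F, hv.v x < hv.v c → hv'.v (ι x) < hv'.v (ι c))
    (hcof : ∀ y' : F', y' ≠ 0 → ∃ c : F, c ≠ 0 ∧ hv'.v (ι c) ≤ hv'.v y') :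
    Continuous (mapHom₂ ι hlt hcof) := by
  show Continuous (Completion.map ι)
  exact Completion.continuous_map

/-- **values are computed on `F`**: every nonzero `z` of the completion has an approximant `b`
with `v z = v b` and `v' (ι̂ z) = v' (ι b)`. -/
theorem exists_val_eq_pair (ι : F →+* F')
    (hlt : ∀ x c : F, hv.v x < hv.v c → hv'.v (ι x) < hv'.v (ι c))
    (hcof : ∀ y' : F', y' ≠ 0 → ∃ c : F, c ≠ 0 ∧ hv'.v (ι c) ≤ hv'.v y')
    {z : Completion F} (hz : z ≠ 0) :
    ∃ b : F, (Valued.v z : Γ₀) = hv.v b ∧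
      (Valued.v (mapHom₂ ι hlt hcof z) : Γ₀') = hv'.v (ι b) := by
  have hιz : mapHom₂ ι hlt hcof z ≠ 0 :=
    (map_ne_zero_iff _ (mapHom₂ ι hlt hcof).injective).2 hz
  have h1 : {y : Completion F | Valued.v y = Valued.v z} ∈ 𝓝 z :=
    Valued.locally_const ((Valuation.ne_zero_iff _).2 hz)
  have h2 : {y : Completion F | Valued.v (mapHom₂ ι hlt hcof y) =
      Valued.v (mapHom₂ ι hlt hcof z)} ∈ 𝓝 z :=
    (continuous_mapHom₂ ι hlt hcof).continuousAt.preimage_mem_nhds
      (Valued.locally_const ((Valuation.ne_zero_iff _).2 hιz))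
  obtain ⟨b, hb⟩ := Fermat.Agent.GF.KCover.Compl.Gen.exists_approx_mem z (Filter.inter_mem h1 h2)
  obtain ⟨hb1, hb2⟩ := hb
  rw [Set.mem_ofPred_eq] at hb1 hb2
  refine ⟨b, ?_, ?_⟩
  · rw [← hb1, Valued.valuedCompletion_apply]
  · rw [← hb2, mapHom₂_coe, Valued.valuedCompletion_apply]

end Gen

/-! ### the completion map of a change of level -/

section Compl

variable {K F F' k Ft Ft' : Type*} [Field K] [Field F] [Field F'] [Algebra K F] [Algebra K F']
  [Field k] [Field Ft] [Field Ft'] [Algebra k Ft] [Algebra k Ft']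
  {ι : F →ₐ[K] F'} {j₀ : Ft →+* Ft'} {R : RedData K F k Ft} {R' : RedData K F' k Ft'}

theorem RedUp.val_lt (h : RedUp ι j₀ R R') (x c : F)
    (hxc : R.Rw.valuation x < R.Rw.valuation c) :
    R'.Rw.valuation (ι x) < R'.Rw.valuation (ι c) := by
  have hc0 : c ≠ 0 := by
    rintro rfl
    rw [map_zero] at hxc
    exact not_lt_zero hxc
  have hvc : R.Rw.valuation c ≠ 0 := (Valuation.ne_zero_iff _).2 hc0
  -- `x / c` is a nonunit of `R.Rw`
  have h1 : R.Rw.valuation (x / c) < 1 := by
    rw [map_div₀]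
    exact (div_lt_one₀ (zero_lt_iff.2 hvc)).2 hxc
  have hmem : x / c ∈ R.Rw := (ValuationSubring.valuation_le_one_iff _ _).1 h1.le
  have hred : R.red ⟨x / c, hmem⟩ = 0 := by
    rw [R.red_eq_zero_iff, ValuationSubring.valuation_lt_one_iff]
    exact h1
  have hmem' : ι (x / c) ∈ R'.Rw := h.mem _ hmem
  have hred' : R'.red ⟨ι (x / c), hmem'⟩ = 0 := by rw [h.red_eq _ hmem hmem', hred, map_zero]
  have h2 : R'.Rw.valuation (ι (x / c)) < 1 := by
    rw [R'.red_eq_zero_iff, ValuationSubring.valuation_lt_one_iff] at hred'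
    exact hred'
  have hιc0 : ι c ≠ 0 := (map_ne_zero_iff _ ι.toRingHom.injective).2 hc0
  have hvιc : R'.Rw.valuation (ι c) ≠ 0 := (Valuation.ne_zero_iff _).2 hιc0
  rw [map_div₀, map_div₀] at h2
  exact (div_lt_one₀ (zero_lt_iff.2 hvιc)).1 h2

theorem RedUp.val_cof (hun' : Unram R') (y' : F') (hy' : y' ≠ 0) :
    ∃ c : F, c ≠ 0 ∧ R'.Rw.valuation (ι c) ≤ R'.Rw.valuation y' := by
  obtain ⟨a, ha0, hm, hmi⟩ := hun' y' hy'
  have haF' : algebraMap K F' a ≠ 0 := by simpa using ha0
  have h1 : R'.Rw.valuation (algebraMap K F' a * y') = 1 := by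
    apply le_antisymm ((ValuationSubring.valuation_le_one_iff _ _).2 hm)
    have h2 : R'.Rw.valuation (algebraMap K F' a * y')⁻¹ ≤ 1 :=
      (ValuationSubring.valuation_le_one_iff _ _).2 hmi
    rw [map_inv₀] at h2
    have hne : R'.Rw.valuation (algebraMap K F' a * y') ≠ 0 :=
      (Valuation.ne_zero_iff _).2 (mul_ne_zero haF' hy')
    exact (inv_le_one₀ (zero_lt_iff.2 hne)).1 h2
  refine ⟨algebraMap K F a⁻¹, by simpa using ha0, ?_⟩
  rw [AlgHom.commutes, map_inv₀]
  rw [map_mul] at h1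
  exact (eq_inv_of_mul_eq_one_right h1).ge

variable (h : RedUp ι j₀ R R') (hun' : Unram R')

/-- **the completion map** `L_i^N → L_i^{4N}`, as a ring hom. -/
def complMapHom : LR R →+* LR R' :=
  letI := Valued.mk' R.Rw.valuation
  letI := Valued.mk' R'.Rw.valuation
  (Gen.mapHom₂ (ι : F →+* F') (fun x c hxc => h.val_lt x c hxc)
    (fun y' hy' => RedUp.val_cof (ι := ι) hun' y' hy') :
    UniformSpace.Completion F →+* UniformSpace.Completion F')

theorem complMapHom_j (x : F) :
    complMapHom h hun' (j R.Rw.valuation x) = j R'.Rw.valuation (ι x) := by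
  let _ := Valued.mk' R.Rw.valuation
  let _ := Valued.mk' R'.Rw.valuation
  exact Gen.mapHom₂_coe (ι : F →+* F') _ _ x

/-- values of the completion map are computed on `F`. -/
theorem exists_val_eq_pair {z : LR R} (hz : z ≠ 0) :
    ∃ b : F, val R.Rw.valuation z = R.Rw.valuation b ∧
      val R'.Rw.valuation (complMapHom h hun' z) = R'.Rw.valuation (ι b) := by
  let _ := Valued.mk' R.Rw.valuation
  let _ := Valued.mk' R'.Rw.valuation
  exact Gen.exists_val_eq_pair (ι : F →+* F') _ _ hz

theorem complMapHom_val_le_one {z : LR R} (hz : val R.Rw.valuation z ≤ 1) :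
    val R'.Rw.valuation (complMapHom h hun' z) ≤ 1 := by
  rcases eq_or_ne z 0 with rfl | hz0
  · rw [map_zero, map_zero]
    exact zero_le_one
  obtain ⟨b, hb1, hb2⟩ := exists_val_eq_pair h hun' hz0
  rw [hb2]
  rw [hb1] at hz
  exact (ValuationSubring.valuation_le_one_iff _ _).2
    (h.mem b ((ValuationSubring.valuation_le_one_iff _ _).1 hz))

theorem complMapHom_val_lt_one {z : LR R} (hz : val R.Rw.valuation z < 1) :
    val R'.Rw.valuation (complMapHom h hun' z) < 1 := by
  rcases eq_or_ne z 0 with rfl | hz0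
  · rw [map_zero, map_zero]
    exact zero_lt_one
  obtain ⟨b, hb1, hb2⟩ := exists_val_eq_pair h hun' hz0
  rw [hb2]
  rw [hb1] at hz
  have := h.val_lt b 1 (by rwa [map_one])
  rwa [map_one, map_one] at this

/-- **the completion map as a `K`-algebra hom.** -/
def complMap : LR R →ₐ[K] LR R' :=
  { complMapHom h hun' with
    commutes' := fun a => by
      show complMapHom h hun' (algebraMap K (LR R) a) = algebraMap K (LR R') a
      rw [algebraMap_K_eq, algebraMap_K_eq, complMapHom_j, AlgHom.commutes] }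

theorem complMap_apply (z : LR R) : complMap h hun' z = complMapHom h hun' z := rfl

theorem complMap_j (x : F) :
    complMap h hun' (j R.Rw.valuation x) = j R'.Rw.valuation (ι x) := complMapHom_j h hun' x

theorem complMap_algebraMap (x : F) :
    complMap h hun' (algebraMap F (LR R) x) = algebraMap F' (LR R') (ι x) := complMapHom_j h hun' x

/-- **`RedUp` for the completions.** -/
theorem redUp_compl : RedUp (complMap h hun') j₀ (redCompl R) (redCompl R') where
  mem z hz := by
    rw [mem_redCompl_Rw] at hz ⊢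
    exact complMapHom_val_le_one h hun' hz
  red_eq z hz hz' := by
    obtain ⟨b, hb⟩ := exists_approx_one R.Rw.valuation z
    have hbm : b ∈ R.Rw := approx_mem R hz hb
    have hb' : val R'.Rw.valuation (complMap h hun' z - j R'.Rw.valuation (ι b)) < 1 := by
      have e : complMap h hun' z - j R'.Rw.valuation (ι b) =
          complMapHom h hun' (z - j R.Rw.valuation b) := by
        rw [map_sub, complMapHom_j]
        rfl
      rw [e]
      exact complMapHom_val_lt_one h hun' hb
    rw [redCompl_red_eq R' _ hz' hb', redCompl_red_eq R z hz hb]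
    exact h.red_eq b hbm _

end Compl

/-! ### sheets -/

section Sheet

variable {K L L' F₁ F₁' k Ft Ft' : Type*} [Field K] [Field L] [Field L'] [Field F₁] [Field F₁']
  [Algebra K L] [Algebra K L'] [Algebra K F₁] [Algebra K F₁']
  [Field k] [Field Ft] [Field Ft'] [Algebra k Ft] [Algebra k Ft']

/-- **`RedUp` pulls back along a commutative square of embeddings.** -/
theorem RedUp.pullback {m : L →ₐ[K] L'} {j₀ : Ft →+* Ft'} {RL : RedData K L k Ft}
    {RL' : RedData K L' k Ft'} (h : RedUp m j₀ RL RL') (e : F₁ →ₐ[K] L) (e' : F₁' →ₐ[K] L')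
    (upF : F₁ →ₐ[K] F₁') (hcomm : ∀ y, e' (upF y) = m (e y)) hsurj hsurj' :
    RedUp upF j₀ (comapRed e RL hsurj) (comapRed e' RL' hsurj') where
  mem y hy := by
    rw [mem_comapRed_Rw] at hy ⊢
    rw [hcomm]
    exact h.mem _ hy
  red_eq y hy hy' := by
    have hy₁ : e y ∈ RL.Rw := mem_comapRed_Rw.1 hy
    have hy₁' : m (e y) ∈ RL'.Rw := h.mem _ hy₁
    have e1 : (comapRed e' RL' hsurj').red ⟨upF y, hy'⟩ = RL'.red ⟨m (e y), hy₁'⟩ := by
      show RL'.red ⟨e' (upF y), _⟩ = _
      congr 1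
      exact Subtype.ext (hcomm y)
    rw [e1, h.red_eq _ hy₁ hy₁']
    rfl

end Sheet

section SheetCompl

variable {K F F' F₁ F₁' k Ft Ft' : Type*} [Field K] [Field F] [Field F'] [Algebra K F]
  [Algebra K F'] [Field F₁] [Field F₁'] [Algebra K F₁] [Algebra K F₁'] [Algebra F F₁]
  [Algebra F' F₁'] [IsScalarTower K F F₁] [IsScalarTower K F' F₁']
  [Field k] [Field Ft] [Field Ft'] [Algebra k Ft] [Algebra k Ft']
  {ι : F →ₐ[K] F'} {j₀ : Ft →+* Ft'} {R : RedData K F k Ft} {R' : RedData K F' k Ft'}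

/-- **`RedUp` for the sheets of the cover at two levels** (`e' ∘ upF = complMap ∘ e`: the same
`p`-th root in the two completions). -/
theorem redUp_sheet (h : RedUp ι j₀ R R') (hun' : Unram R')
    (e : F₁ →ₐ[K] LR R) (he : ∀ x : F, e (algebraMap F F₁ x) = algebraMap F (LR R) x)
    (e' : F₁' →ₐ[K] LR R') (he' : ∀ x : F', e' (algebraMap F' F₁' x) = algebraMap F' (LR R') x)
    (upF : F₁ →ₐ[K] F₁') (hcomm : ∀ y, e' (upF y) = complMap h hun' (e y)) :
    RedUp upF j₀ (sheet R e he) (sheet R' e' he') :=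
  RedUp.pullback (redUp_compl h hun') e e' upF hcomm _ _

end SheetCompl

end Fermat.Agent.GF.KCover.AuxLevel
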