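/-
GATE-F (S44) / GF-KCOVER-INST-AUX (helper47), file 7 = (AUX-G): **`RedUp` between helper19's
`Bridge.sheetK` at the levels `N` and `4N`**, and the choice of the `p`-th root at level `4N`.

Level `N`: `R : RedData K F k Ft`, `E₁ → F` the `K'`-rational functions, `γ : Lc h`,
`γ ^ p = jc h g₀`, cover `F₁ = F(G)`.  Level `4N`: the same with index `₂`.  Change of level:
`ι : F →ₐ[K] F₂`, `upF : F₁ →ₐ[K] F₁₂` over `ι` with `upF G = G₂`, `hR : RedUp ι j₀ R R₂`.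

* `embK_up`      : `embK₂ i (upF y) = complMap hR hun₂ (embK i y)` as soon as the roots agree
  (`hγγ : complMap (beta γ) = beta₂ γ₂`) and `ι (incl ζ) = incl₂ ζ₂`;
* `redUp_sheetK` : `RedUp upF j₀ (sheetK R … i) (sheetK R₂ … i)`;
* `exists_root_up` : from ANY root `γ₀₂` at level `4N` a root `γ₂ = (jc ζ₂)^c γ₀₂` with
  `complMap (beta γ) = beta₂ γ₂`;
* `wv_up_eq_zero_iff` : `wv₂ i y₂ = 0 ↔ wv i y = 0` for `K'`-rational `y`, `y₂` with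
  `incl'₂ y₂ = upF (incl' y)`.
-/
import Fermat.Agent.GF.KCover.AuxLevel.ComplUp
import Fermat.Agent.GF.KCover.Compl.Bridge

set_option autoImplicit false
set_option linter.unusedSectionVars false
set_option linter.unusedVariables false

noncomputable section

open Polynomial AlgebraicCurve

namespace Fermat.Agent.GF.KCover.AuxLevel

open Fermat.Agent.GJ.J1 Fermat.Agent.GF.Trop Fermat.Agent.GF.KCover.Compl
open Fermat.Agent.GF.KCover.Compl.RedCompl Fermat.Agent.GF.KCover.Compl.RedAut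
open Fermat.Agent.GF.KCover.Compl.Bridge Fermat.Agent.GF.KCover.Node.OrdRedExt
open Fermat.Agent.GF.KCover.Field Fermat.Agent.GF.KCover.Field.Disc
  Fermat.Agent.GF.KCover.Field.Pack

section Main

variable {K F F₂ k Ft Ft₂ : Type*} [Field K] [Field F] [Field F₂] [Algebra K F] [Algebra K F₂]
  [Field k] [Field Ft] [Field Ft₂] [Algebra k Ft] [Algebra k Ft₂]
  {R : RedData K F k Ft} {R₂ : RedData K F₂ k Ft₂}
  {ι : F →ₐ[K] F₂} {j₀ : Ft →+* Ft₂} (hR : RedUp ι j₀ R R₂) (hun₂ : Unram R₂)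

-- the covers over `K`
variable {F₁ F₁₂ : Type*} [Field F₁] [Field F₁₂] [Algebra K F₁] [Algebra K F₁₂] [Algebra F F₁]
  [Algebra F₂ F₁₂] [IsScalarTower K F F₁] [IsScalarTower K F₂ F₁₂]

-- level `N`, `K'`-rational side
variable {E₁ : Type*} [Field E₁] {ϖ : E₁} {v : Valuation E₁ (ValuationSubring.ValueGroup R.Rw)}
  (incl : E₁ →+* F) (hincl : ∀ a : E₁, R.Rw.valuation (incl a) = v a) (h : IsDisc v ϖ)
  (harch : ∀ γ : ValuationSubring.ValueGroup R.Rw, γ ≠ 0 → ∃ n : ℕ, v ϖ ^ n < γ)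
  {p : ℕ} [NeZero p] {g₀ : E₁} {ζ : E₁} (hζ : IsPrimitiveRoot ζ p)
  {γ : Lc h} (hγ : γ ^ p = jc h g₀)
  (H : IsAdjoinRoot F₁ (X ^ p - C (incl g₀) : F[X]))

-- level `4N`, `K'`-rational side
variable {E₁₂ : Type*} [Field E₁₂] {ϖ₂ : E₁₂}
  {v₂ : Valuation E₁₂ (ValuationSubring.ValueGroup R₂.Rw)}
  (incl₂ : E₁₂ →+* F₂) (hincl₂ : ∀ a : E₁₂, R₂.Rw.valuation (incl₂ a) = v₂ a) (h₂ : IsDisc v₂ ϖ₂)
  (harch₂ : ∀ γ : ValuationSubring.ValueGroup R₂.Rw, γ ≠ 0 → ∃ n : ℕ, v₂ ϖ₂ ^ n < γ)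
  {g₀₂ : E₁₂} {ζ₂ : E₁₂} (hζ₂ : IsPrimitiveRoot ζ₂ p)
  {γ₂ : Lc h₂} (hγ₂ : γ₂ ^ p = jc h₂ g₀₂)
  (H₂ : IsAdjoinRoot F₁₂ (X ^ p - C (incl₂ g₀₂) : F₂[X]))

-- the change of level on the covers
variable (upF : F₁ →ₐ[K] F₁₂)
  (hup : ∀ x : F, upF (algebraMap F F₁ x) = algebraMap F₂ F₁₂ (ι x))
  (hupG : upF H.root = H₂.root)
  (hζζ : ι (incl ζ) = incl₂ ζ₂)
  (hγγ : complMap hR hun₂ (beta h R.Rw.valuation incl hincl harch γ) =
    beta h₂ R₂.Rw.valuation incl₂ hincl₂ harch₂ γ₂)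

include hup hupG hζζ hγγ in
/-- **the embeddings of the two covers into the two completions commute with the change of
level.** -/
theorem embK_up (i : ZMod p) (y : F₁) :
    embK R₂ incl₂ hincl₂ h₂ harch₂ hζ₂ hγ₂ H₂ i (upF y) =
      complMap hR hun₂ (embK R incl hincl h harch hζ hγ H i y) := by
  have key : ((embK R₂ incl₂ hincl₂ h₂ harch₂ hζ₂ hγ₂ H₂ i : F₁₂ →+* LR R₂)).comp
      (upF : F₁ →+* F₁₂) =
      ((complMap hR hun₂ : LR R →+* LR R₂)).comp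
        (embK R incl hincl h harch hζ hγ H i : F₁ →+* LR R) := by
    refine ringHom_ext H (fun a => ?_) ?_
    · show embK R₂ incl₂ hincl₂ h₂ harch₂ hζ₂ hγ₂ H₂ i (upF (algebraMap F F₁ a)) =
        complMap hR hun₂ (embK R incl hincl h harch hζ hγ H i (algebraMap F F₁ a))
      rw [hup, embK_algebraMap, embK_algebraMap, complMap_algebraMap]
    · show embK R₂ incl₂ hincl₂ h₂ harch₂ hζ₂ hγ₂ H₂ i (upF H.root) =
        complMap hR hun₂ (embK R incl hincl h harch hζ hγ H i H.root)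
      rw [hupG, embK_root, embK_root, map_mul, map_pow, complMap_j, hζζ, hγγ]
  exact congrArg (fun φ : F₁ →+* LR R₂ => φ y) key

include hup hupG hζζ hγγ in
/-- **`RedUp` between the `i`-th sheets at the two levels.** -/
theorem redUp_sheetK (i : ZMod p) :
    RedUp upF j₀ (sheetK R incl hincl h harch hζ hγ H i)
      (sheetK R₂ incl₂ hincl₂ h₂ harch₂ hζ₂ hγ₂ H₂ i) :=
  redUp_sheet hR hun₂ _ _ _ _ upF
    (embK_up hR hun₂ incl hincl h harch hζ hγ H incl₂ hincl₂ h₂ harch₂ hζ₂ hγ₂ H₂ upF hup hupG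
      hζζ hγγ i)

-- the `K'`-rational covers
variable {E' : Type*} [Field E'] [Algebra E₁ E'] (H₁ : IsAdjoinRoot E' (X ^ p - C g₀ : E₁[X]))
  (incl' : E' →+* F₁)
  (hincl' : ∀ a : E₁, incl' (algebraMap E₁ E' a) = algebraMap F F₁ (incl a))
  (hroot : incl' H₁.root = H.root)
  {E'₂ : Type*} [Field E'₂] [Algebra E₁₂ E'₂]
  (H₁₂ : IsAdjoinRoot E'₂ (X ^ p - C g₀₂ : E₁₂[X]))
  (incl'₂ : E'₂ →+* F₁₂)
  (hincl'₂ : ∀ a : E₁₂, incl'₂ (algebraMap E₁₂ E'₂ a) = algebraMap F₂ F₁₂ (incl₂ a))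
  (hroot₂ : incl'₂ H₁₂.root = H₂.root)

include hup hupG hζζ hγγ hincl' hroot hincl'₂ hroot₂ in
/-- **the `W`-data at the two levels vanish together** on `K'`-rational functions. -/
theorem wv_up_eq_zero_iff (i : ZMod p) {y : E'} {y₂ : E'₂} (hy : y ≠ 0)
    (hyy : incl'₂ y₂ = upF (incl' y)) :
    wv h₂ H₁₂ hζ₂ hγ₂ i y₂ = 0 ↔ wv h H₁ hζ hγ i y = 0 := by
  have hy₂ : y₂ ≠ 0 := by
    rintro rfl
    rw [map_zero] at hyy
    have h0 : upF (incl' y) ≠ 0 :=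
      (map_ne_zero_iff _ upF.toRingHom.injective).2 ((map_ne_zero_iff _ incl'.injective).2 hy)
    exact h0 hyy.symm
  rw [← isU_sheetK_iff_wv R₂ incl₂ hincl₂ h₂ harch₂ H₁₂ hζ₂ hγ₂ H₂ incl'₂ hincl'₂ hroot₂ i hy₂,
    ← isU_sheetK_iff_wv R incl hincl h harch H₁ hζ hγ H incl' hincl' hroot i hy, hyy]
  exact (redUp_sheetK hR hun₂ incl hincl h harch hζ hγ H incl₂ hincl₂ h₂ harch₂ hζ₂ hγ₂ H₂ upF hup
    hupG hζζ hγγ i).isU_iff (incl' y)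

end Main

/-! ### the choice of the root at level `4N` -/

section Root

variable {K F F₂ k Ft Ft₂ : Type*} [Field K] [Field F] [Field F₂] [Algebra K F] [Algebra K F₂]
  [Field k] [Field Ft] [Field Ft₂] [Algebra k Ft] [Algebra k Ft₂]
  {R : RedData K F k Ft} {R₂ : RedData K F₂ k Ft₂}
  {ι : F →ₐ[K] F₂} {j₀ : Ft →+* Ft₂} (hR : RedUp ι j₀ R R₂) (hun₂ : Unram R₂)

variable {E₁ : Type*} [Field E₁] {ϖ : E₁} {v : Valuation E₁ (ValuationSubring.ValueGroup R.Rw)}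
  (incl : E₁ →+* F) (hincl : ∀ a : E₁, R.Rw.valuation (incl a) = v a) (h : IsDisc v ϖ)
  (harch : ∀ γ : ValuationSubring.ValueGroup R.Rw, γ ≠ 0 → ∃ n : ℕ, v ϖ ^ n < γ)
  {p : ℕ} [NeZero p] {g₀ : E₁} {γ : Lc h} (hγ : γ ^ p = jc h g₀)

variable {E₁₂ : Type*} [Field E₁₂] {ϖ₂ : E₁₂}
  {v₂ : Valuation E₁₂ (ValuationSubring.ValueGroup R₂.Rw)}
  (incl₂ : E₁₂ →+* F₂) (hincl₂ : ∀ a : E₁₂, R₂.Rw.valuation (incl₂ a) = v₂ a) (h₂ : IsDisc v₂ ϖ₂)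
  (harch₂ : ∀ γ : ValuationSubring.ValueGroup R₂.Rw, γ ≠ 0 → ∃ n : ℕ, v₂ ϖ₂ ^ n < γ)
  {g₀₂ : E₁₂} {ζ₂ : E₁₂} (hζ₂ : IsPrimitiveRoot ζ₂ p)

include hγ hζ₂ in
/-- **the same root at both levels**: any root `γ₀₂` at level `4N` can be moved by a power of `ζ₂`
to the image of the root `γ` of level `N`. -/
theorem exists_root_up (hg : ι (incl g₀) = incl₂ g₀₂) (hg0 : g₀₂ ≠ 0) {γ₀₂ : Lc h₂}
    (hγ₀₂ : γ₀₂ ^ p = jc h₂ g₀₂) :
    ∃ γ₂ : Lc h₂, γ₂ ^ p = jc h₂ g₀₂ ∧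
      complMap hR hun₂ (beta h R.Rw.valuation incl hincl harch γ) =
        beta h₂ R₂.Rw.valuation incl₂ hincl₂ harch₂ γ₂ := by
  set B := beta h₂ R₂.Rw.valuation incl₂ hincl₂ harch₂ with hB
  set c := complMap hR hun₂ (beta h R.Rw.valuation incl hincl harch γ) with hc
  have hγ0 : γ₀₂ ≠ 0 := by
    rintro rfl
    rw [zero_pow (NeZero.ne p)] at hγ₀₂
    exact hg0 ((jc h₂).injective (by rw [← hγ₀₂, map_zero]))
  have hB0 : B γ₀₂ ≠ 0 := (map_ne_zero_iff _ B.injective).2 hγ0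
  have hcp : c ^ p = B γ₀₂ ^ p := by
    rw [hc, ← map_pow, ← map_pow, hγ, beta_jc, complMap_j, hg, ← map_pow, hγ₀₂, hB, beta_jc]
  have h1 : (c / B γ₀₂) ^ p = 1 := by
    rw [div_pow, hcp, div_self (pow_ne_zero _ hB0)]
  have hprim : IsPrimitiveRoot (B (jc h₂ ζ₂)) p :=
    hζ₂.map_of_injective ((B.comp (jc h₂)).injective)
  obtain ⟨i, _, hi'⟩ := hprim.eq_pow_of_pow_eq_one h1
  refine ⟨jc h₂ ζ₂ ^ i * γ₀₂, ?_, ?_⟩
  · rw [mul_pow, ← pow_mul, mul_comm i p, pow_mul, ← map_pow, hζ₂.pow_eq_one, map_one, one_pow,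
      one_mul, hγ₀₂]
  · rw [map_mul, map_pow, hi', div_mul_cancel₀ _ hB0]

end Root

end Fermat.Agent.GF.KCover.AuxLevel
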