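/-
GATE-F (S44) / GF-KCOVER-INST-AUX (helper47), file 8 = (AUX-H): **the modular two-level glue, in
helper3's `WDataOf` vocabulary.**

`T : TameDatum M p A ζ`, `T₂ : TameDatum (M * a) p A ζ`, and a `TameUpData T T₂` =
(`upF : T.Fp →ₐ[ℚ̄] T₂.Fp` over `alphaB M a`, `upF G = G₂`, `Γ`-equivariant) — the output of
helper18's `TameUp`.  Then, with the Gauss reduction data `R = redDataBar M A`,
`R₂ = redDataBar (M a) A` (and `redData2`):

* `alphaB_isIntegral`, `TameUpData.isIntegral`, `TameUpData.g₀_eq`, `TameUpData.jCover`;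
* `TameUpData.mem_Us`        : `UsInst.Us T → UsInst.Us T₂`;
* `TameUpData.redUp_sheetK`  : `RedUp upF incl (sheetK^M k) (sheetK^{M a} k)` for the same root;
* `TameUpData.wOf_eq_zero_iff` : `wOf T₂ … k (up y) = 0 ↔ wOf T … k y = 0`;
* `TameUpData.exists_root`   : the root at level `M a` can be chosen compatible.
-/
import Fermat.Agent.GF.KCover.AuxLevel.SheetKUp
import Fermat.Agent.GF.KCover.AuxLevel.Descent
import Fermat.Agent.GF.KCover.AuxLevel.NLDescent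
import Fermat.Agent.GF.KCover.Field.WDataOf
import Fermat.Agent.GF.F2Asm.UsInst
import Fermat.Agent.GK.UTr.KumAlphaGal

set_option autoImplicit false
set_option linter.unusedSectionVars false
set_option linter.unusedVariables false

noncomputable section

open Polynomial AlgebraicCurve ModularCurve IntermediateField

namespace Fermat.Agent.GF.KCover.AuxLevel

open Fermat.Agent.GJ.J1 Fermat.Agent.GJ.J1.Val Fermat.Agent.S24 Fermat.Agent.GF.Trop
open Fermat.Agent.GJ.KumGroup Fermat.Agent.GJ.Kum.KumType Fermat.Agent.GJ.HN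
open Fermat.Agent.GK.UTr Fermat.Agent.GK.SS
open Fermat.Agent.GF.KCover Fermat.Agent.GF.KCover.Compl
open Fermat.Agent.GF.KCover.Compl.RedCompl Fermat.Agent.GF.KCover.Compl.Bridge
open Fermat.Agent.GF.KCover.Node.OrdRedExt
open Fermat.Agent.GF.KCover.Field Fermat.Agent.GF.KCover.Field.Disc
open Fermat.Agent.GF.KCover.Field.WDataOf
open Fermat.Agent.GF.F2Asm Fermat.Agent.GF.F2Asm.KummerExt Fermat.Agent.GF.F2Asm.Inst

local notation "GQ" => (AlgebraicClosure ℚ ≃ₐ[ℚ] AlgebraicClosure ℚ)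

attribute [local instance] Fermat.Agent.GF.KCover.Field.WDataOf.actFK
attribute [local instance] Fermat.Agent.GF.KCover.Field.WDataOf.algE'

variable {M a : ℕ} [NeZero M] [NeZero a]

/-! ### the change of level downstairs is integral -/

theorem alphaB_isIntegral : (alphaB M a).toRingHom.IsIntegral := by
  letI : Algebra (FK M) (FK (M * a)) := (alphaB M a).toRingHom.toAlgebra
  have h := finrank_adjoin_tower (alphaB M a) (jF M)
  have e2 : Module.finrank Kbar⟮jF (M * a)⟯ (FN (M * a)) = dedekindPsi (M * a) :=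
    (Fermat.Agent.S24_helper62.m9 (M * a)).2.2
  have hpos : 0 < dedekindPsi (M * a) := by
    have := Fermat.Agent.S24.Comb.card_I0 (M * a)
    rw [← this]
    exact Fintype.card_pos
  rw [alphaB_jF, e2] at h
  have hpos2 : 0 < Module.finrank (FK M) (FK (M * a)) := by
    rcases Nat.eq_zero_or_pos (Module.finrank (FK M) (FK (M * a))) with h0 | h0
    · rw [h0, mul_zero] at h
      omega
    · exact h0
  haveI : FiniteDimensional (FK M) (FK (M * a)) := FiniteDimensional.of_finrank_pos hpos2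
  intro y
  exact Algebra.IsIntegral.isIntegral (R := FK M) y

variable {p : ℕ} [hpF : Fact p.Prime] {A : ValuationSubring Kb} {ζ : Kb}

/-- `Γ`-fixed functions go up. -/
theorem alphaB_mem_F₁ {x : FK M} (hx : x ∈ F₁ M A ζ) : alphaB M a x ∈ F₁ (M * a) A ζ := by
  rw [mem_F₁] at hx ⊢
  intro ρ hρ
  rw [← alphaB_arith, hx ρ hρ]

/-- **the change of level on the covers** (the output of `TameUp`). -/
structure TameUpData (T : TameDatum M p A ζ) (T₂ : TameDatum (M * a) p A ζ) where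
  /-- the inclusion of the covers -/
  upF : T.Fp →ₐ[Kb] T₂.Fp
  map_algebraMap : ∀ x : FK M,
    upF (algebraMap (FK M) T.Fp x) = algebraMap (FK (M * a)) T₂.Fp (alphaB M a x)
  map_G : upF T.G = T₂.G
  map_smul : ∀ (ρ : tameGroup A ζ) (y : T.Fp), upF (ρ • y) = ρ • upF y

namespace TameUpData

variable {T : TameDatum M p A ζ} {T₂ : TameDatum (M * a) p A ζ}

theorem g₀_eq (U : TameUpData T T₂) : T₂.g₀ = alphaB M a T.g₀ := by
  apply (algebraMap (FK (M * a)) T₂.Fp).injective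
  rw [← T₂.G_pow, ← U.map_G, ← map_pow, T.G_pow, U.map_algebraMap]

theorem isIntegral (U : TameUpData T T₂) : U.upF.toRingHom.IsIntegral := by
  haveI : NeZero p := ⟨hpF.out.ne_zero⟩
  haveI : FiniteDimensional (FK (M * a)) T₂.Fp :=
    inferInstanceAs (FiniteDimensional (FK (M * a)) (KExt p T₂.g₀))
  have h1 : ((algebraMap (FK (M * a)) T₂.Fp).comp (alphaB M a).toRingHom).IsIntegral := by
    refine RingHom.IsIntegral.trans _ _ alphaB_isIntegral ?_
    intro y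
    exact Algebra.IsIntegral.isIntegral (R := FK (M * a)) y
  have h2 : (algebraMap (FK (M * a)) T₂.Fp).comp (alphaB M a).toRingHom =
      U.upF.toRingHom.comp (algebraMap (FK M) T.Fp) := by
    ext x
    exact (U.map_algebraMap x).symm
  rw [h2] at h1
  exact RingHom.IsIntegral.tower_top _ _ h1

theorem map_jCover (U : TameUpData T T₂) : U.upF (UsInst.jCover T) = UsInst.jCover T₂ := by
  unfold UsInst.jCover
  rw [U.map_algebraMap, alphaB_jF]

/-- **`Us` goes up.** -/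
theorem mem_Us (U : TameUpData T T₂) {y : fixedUnits (tameGroup A ζ) T.Fp}
    (hy : y ∈ UsInst.Us T) :
    fixedUp U.upF U.map_smul y ∈ UsInst.Us T₂ := by
  have h1 : y ∈ Node.UsGroup.Us Kb (tameGroup A ζ) (UsInst.jCover T) p := hy
  have h2 := fixedUp_mem_Us U.upF U.map_smul U.isIntegral h1
  rw [U.map_jCover] at h2
  exact h2

theorem map_root (U : TameUpData T T₂) : U.upF (isAdj T).root = (isAdj T₂).root :=
  (congrArg U.upF (isAdj_root T)).trans (U.map_G.trans (isAdj_root T₂).symm)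

/-! ### the sheets at the two levels (any pair of compatible reduction data) -/

section Sheets

variable {k Ft Ft₂ : Type*} [Field k] [Field Ft] [Field Ft₂] [Algebra k Ft] [Algebra k Ft₂]
  {R : RedData Kb (FK M) k Ft} {R₂ : RedData Kb (FK (M * a)) k Ft₂} {j₀ : Ft →+* Ft₂}
  (hR : RedUp (alphaB M a) j₀ R R₂) (hun₂ : Unram R₂)
  {v : Valuation (F₁ M A ζ) (ValuationSubring.ValueGroup R.Rw)}
  (hv : ∀ x : F₁ M A ζ, R.Rw.valuation ((F₁ M A ζ).subtype x) = v x)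
  {v₂ : Valuation (F₁ (M * a) A ζ) (ValuationSubring.ValueGroup R₂.Rw)}
  (hv₂ : ∀ x : F₁ (M * a) A ζ, R₂.Rw.valuation ((F₁ (M * a) A ζ).subtype x) = v₂ x)
  (hD : IsDisc v (ϖ₁ T)) (hD₂ : IsDisc v₂ (ϖ₁ T₂))
  (harch : ∀ γ : ValuationSubring.ValueGroup R.Rw, γ ≠ 0 → ∃ n : ℕ, v (ϖ₁ T) ^ n < γ)
  (harch₂ : ∀ γ : ValuationSubring.ValueGroup R₂.Rw, γ ≠ 0 → ∃ n : ℕ, v₂ (ϖ₁ T₂) ^ n < γ)
  {γ : Pack.Lc hD} (hγ : γ ^ p = Pack.jc hD (g₁ T))
  {γ₂ : Pack.Lc hD₂} (hγ₂ : γ₂ ^ p = Pack.jc hD₂ (g₁ T₂))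

/-- the `k`-th sheet of the cover `T.Fp` above the reduction datum `R` (helper19's `sheetK` on
helper3's vocabulary). -/
abbrev sheetT (T : TameDatum M p A ζ) (R : RedData Kb (FK M) k Ft)
    {v : Valuation (F₁ M A ζ) (ValuationSubring.ValueGroup R.Rw)}
    (hv : ∀ x : F₁ M A ζ, R.Rw.valuation ((F₁ M A ζ).subtype x) = v x)
    (hD : IsDisc v (ϖ₁ T))
    (harch : ∀ γ : ValuationSubring.ValueGroup R.Rw, γ ≠ 0 → ∃ n : ℕ, v (ϖ₁ T) ^ n < γ)
    {γ : Pack.Lc hD} (hγ : γ ^ p = Pack.jc hD (g₁ T)) (i : ZMod p) :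
    RedData Kb T.Fp k Ft :=
  sheetK R (F₁ M A ζ).subtype hv hD harch (ζ₁_prim T) hγ (isAdj T) i

theorem hζζ_aux (T : TameDatum M p A ζ) (T₂ : TameDatum (M * a) p A ζ) :
    alphaB M a ((F₁ M A ζ).subtype (ζ₁ T)) = (F₁ (M * a) A ζ).subtype (ζ₁ T₂) :=
  (alphaB M a).commutes ζ

theorem hroot_aux (T : TameDatum M p A ζ) : (E' T).subtype (isAdj' T).root = (isAdj T).root := by
  rw [isAdj_root]
  exact coe_isAdj'_root T

/-- **`RedUp` between the modular sheets at the two levels** (same root). -/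
theorem redUp_sheetT (U : TameUpData T T₂)
    (hγγ : complMap hR hun₂ (beta hD R.Rw.valuation (F₁ M A ζ).subtype hv harch γ) =
      beta hD₂ R₂.Rw.valuation (F₁ (M * a) A ζ).subtype hv₂ harch₂ γ₂) (i : ZMod p) :
    RedUp U.upF j₀ (sheetT T R hv hD harch hγ i) (sheetT T₂ R₂ hv₂ hD₂ harch₂ hγ₂ i) :=
  redUp_sheetK hR hun₂ (F₁ M A ζ).subtype hv hD harch (ζ₁_prim T) hγ (isAdj T)
    (F₁ (M * a) A ζ).subtype hv₂ hD₂ harch₂ (ζ₁_prim T₂) hγ₂ (isAdj T₂) U.upF U.map_algebraMap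
    (U.map_root) (hζζ_aux T T₂) hγγ i

/-- **the `W`-data at the two levels vanish together.** -/
theorem wv_eq_zero_iff (U : TameUpData T T₂)
    (hγγ : complMap hR hun₂ (beta hD R.Rw.valuation (F₁ M A ζ).subtype hv harch γ) =
      beta hD₂ R₂.Rw.valuation (F₁ (M * a) A ζ).subtype hv₂ harch₂ γ₂) (i : ZMod p)
    (y : fixedUnits (tameGroup A ζ) T.Fp) :
    Pack.wv hD₂ (isAdj' T₂) (ζ₁_prim T₂) hγ₂ i (toE' T₂ (fixedUp U.upF U.map_smul y)) = 0 ↔
      Pack.wv hD (isAdj' T) (ζ₁_prim T) hγ i (toE' T y) = 0 :=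
  wv_up_eq_zero_iff hR hun₂ (F₁ M A ζ).subtype hv hD harch (ζ₁_prim T) hγ (isAdj T)
    (F₁ (M * a) A ζ).subtype hv₂ hD₂ harch₂ (ζ₁_prim T₂) hγ₂ (isAdj T₂) U.upF U.map_algebraMap
    (U.map_root) (hζζ_aux T T₂) hγγ
    (isAdj' T) (E' T).subtype (fun _ => rfl) (hroot_aux T)
    (isAdj' T₂) (E' T₂).subtype (fun _ => rfl) (hroot_aux T₂) i (toE'_ne_zero T y) rfl

include hγ in
/-- **the root at the upper level can be chosen compatible.** -/
theorem exists_root_compat (U : TameUpData T T₂) {γ₀₂ : Pack.Lc hD₂}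
    (hγ₀₂ : γ₀₂ ^ p = Pack.jc hD₂ (g₁ T₂)) :
    ∃ γ₂ : Pack.Lc hD₂, γ₂ ^ p = Pack.jc hD₂ (g₁ T₂) ∧
      complMap hR hun₂ (beta hD R.Rw.valuation (F₁ M A ζ).subtype hv harch γ) =
        beta hD₂ R₂.Rw.valuation (F₁ (M * a) A ζ).subtype hv₂ harch₂ γ₂ := by
  refine exists_root_up hR hun₂ (F₁ M A ζ).subtype hv hD harch hγ (F₁ (M * a) A ζ).subtype hv₂ hD₂
    harch₂ (ζ₁_prim T₂) ?_ ?_ hγ₀₂
  · show alphaB M a T.g₀ = T₂.g₀
    exact U.g₀_eq.symm
  · intro h0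
    exact T₂.g₀_ne_zero (congrArg Subtype.val h0)

end Sheets

end TameUpData

/-! ### the descent of `NL` along one change of level, in the `NodeSupply` spelling -/

section NL

open Fermat.Agent.GB.A.Desc Fermat.Agent.GB.A.FP Fermat.Agent.GK.UqKronecker Fermat.Agent.GK.AL

variable {T : TameDatum M p A ζ} {T₂ : TameDatum (M * a) p A ζ} {q : ℕ}

/-- **`NL` on `UsInst.Us T` at a place `Pl` of level `M` from `NL` on `UsInst.Us T₂` at a place
`Pl'` of level `M a` above it with ramification index prime to `p`**; sheets `k` (first Gauss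
valuation) and `k'` (second Gauss valuation), `W`-data = helper3's `wOf`, node order on helper19's
`sheetK` — the NL clause of `F2Plug.NodeSupply` at one `(s, j)`. -/
theorem TameUpData.nl_of_up (U : TameUpData T T₂) (h : ExactDvd q M) (h' : ExactDvd q (M * a))
    (hunB : Unram (redDataBar (M * a) A)) (hunB2 : Unram (redData2 (M * a) A h'))
    -- first Gauss valuation
    (hD₁ : IsDisc (valF₁ T (galVal1 M A)) (ϖ₁ T))
    (hD₁' : IsDisc (valF₁ T₂ (galVal1 (M * a) A)) (ϖ₁ T₂))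
    (harch₁ : ∀ γ : ValuationSubring.ValueGroup (redDataBar M A).Rw, γ ≠ 0 →
      ∃ n : ℕ, valF₁ T (galVal1 M A) (ϖ₁ T) ^ n < γ)
    (harch₁' : ∀ γ : ValuationSubring.ValueGroup (redDataBar (M * a) A).Rw, γ ≠ 0 →
      ∃ n : ℕ, valF₁ T₂ (galVal1 (M * a) A) (ϖ₁ T₂) ^ n < γ)
    {γ₁ : Pack.Lc hD₁} (hγ₁ : γ₁ ^ p = Pack.jc hD₁ (g₁ T))
    {γ₁' : Pack.Lc hD₁'} (hγ₁' : γ₁' ^ p = Pack.jc hD₁' (g₁ T₂))
    (hγγ₁ : complMap (redUp_bar M a A) hunB
        (beta hD₁ (redDataBar M A).Rw.valuation (F₁ M A ζ).subtype (fun _ => rfl) harch₁ γ₁) =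
      beta hD₁' (redDataBar (M * a) A).Rw.valuation (F₁ (M * a) A ζ).subtype (fun _ => rfl)
        harch₁' γ₁')
    -- second Gauss valuation
    (hD₂ : IsDisc (valF₁ T (galVal2 M A h)) (ϖ₁ T))
    (hD₂' : IsDisc (valF₁ T₂ (galVal2 (M * a) A h')) (ϖ₁ T₂))
    (harch₂ : ∀ γ : ValuationSubring.ValueGroup (redData2 M A h).Rw, γ ≠ 0 →
      ∃ n : ℕ, valF₁ T (galVal2 M A h) (ϖ₁ T) ^ n < γ)
    (harch₂' : ∀ γ : ValuationSubring.ValueGroup (redData2 (M * a) A h').Rw, γ ≠ 0 →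
      ∃ n : ℕ, valF₁ T₂ (galVal2 (M * a) A h') (ϖ₁ T₂) ^ n < γ)
    {γ₂ : Pack.Lc hD₂} (hγ₂ : γ₂ ^ p = Pack.jc hD₂ (g₁ T))
    {γ₂' : Pack.Lc hD₂'} (hγ₂' : γ₂' ^ p = Pack.jc hD₂' (g₁ T₂))
    (hγγ₂ : complMap (redUp_two h h') hunB2
        (beta hD₂ (redData2 M A h).Rw.valuation (F₁ M A ζ).subtype (fun _ => rfl) harch₂ γ₂) =
      beta hD₂' (redData2 (M * a) A h').Rw.valuation (F₁ (M * a) A ζ).subtype (fun _ => rfl)
        harch₂' γ₂')
    -- the places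
    {Pl : Place (IsLocalRing.ResidueField A) (FresBar M A)}
    {Pl' : Place (IsLocalRing.ResidueField A) (FresBar (M * a) A)} {e : ℤ}
    (hord : ∀ x : FresBar M A, x ≠ 0 →
      Pl'.ord ((inclusion (FresBar_le_level M a A)).toRingHom x) = e * Pl.ord x)
    (hcop : IsCoprime (p : ℤ) e) (k k' : ZMod p)
    (hun₁ : Unram (TameUpData.sheetT T (redDataBar M A) (fun _ => rfl) hD₁ harch₁ hγ₁ k))
    (hun₁' : Unram
      (TameUpData.sheetT T₂ (redDataBar (M * a) A) (fun _ => rfl) hD₁' harch₁' hγ₁' k))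
    (NL' : ∀ y', y' ∈ UsInst.Us T₂ → wOf T₂ hD₁' hγ₁' k y' = 0 → wOf T₂ hD₂' hγ₂' k' y' = 0 →
      (p : ℤ) ∣ nodeOrd
        (TameUpData.sheetT T₂ (redDataBar (M * a) A) (fun _ => rfl) hD₁' harch₁' hγ₁' k) hun₁' Pl'
        (fixedUnits (tameGroup A ζ) T₂.Fp) y') :
    ∀ y, y ∈ UsInst.Us T → wOf T hD₁ hγ₁ k y = 0 → wOf T hD₂ hγ₂ k' y = 0 →
      (p : ℤ) ∣ nodeOrd
        (TameUpData.sheetT T (redDataBar M A) (fun _ => rfl) hD₁ harch₁ hγ₁ k) hun₁ Pl
        (fixedUnits (tameGroup A ζ) T.Fp) y :=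
  nl_descent_sub U.upF U.map_smul
    (U.redUp_sheetT (redUp_bar M a A) hunB (fun _ => rfl) (fun _ => rfl) hD₁ hD₁' harch₁ harch₁'
      hγ₁ hγ₁' hγγ₁ k)
    hun₁ hun₁' hord hcop (UsInst.Us T) (UsInst.Us T₂) (fun y hy => U.mem_Us hy)
    (wOf T hD₁ hγ₁ k) (wOf T hD₂ hγ₂ k') (wOf T₂ hD₁' hγ₁' k) (wOf T₂ hD₂' hγ₂' k')
    (fun y hy => (U.wv_eq_zero_iff (redUp_bar M a A) hunB (fun _ => rfl) (fun _ => rfl) hD₁ hD₁'
      harch₁ harch₁' hγ₁ hγ₁' hγγ₁ k y).2 hy)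
    (fun y hy => (U.wv_eq_zero_iff (redUp_two h h') hunB2 (fun _ => rfl) (fun _ => rfl) hD₂ hD₂'
      harch₂ harch₂' hγ₂ hγ₂' hγγ₂ k' y).2 hy)
    NL'

end NL

end Fermat.Agent.GF.KCover.AuxLevel
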