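/-
GATE-F (S44) / GF-KCOVER-INST-AUX-A (helper18, named by helper47): **the tame Kummer datum at an
auxiliary level.**

`T : TameDatum M p A ζ` (a `K'`-rational Kummer function `g` on `X₀(M)` which is not a `p`-th
power, `T.Fp = ℚ̄(X₀(M))(g^{1/p})`) and a level `M * a` with `p ∤ [ℚ̄(X₀(Ma)) : ℚ̄(X₀(M))]`.  Then

* `T.up a hdeg : TameDatum (M * a) p A ζ` with `(T.up a hdeg).g₀ = alphaB M a T.g₀`
  (`g₀` stays a non-`p`-th power since `p` does not divide the degree);
* `upF T a hdeg : T.Fp →ₐ[ℚ̄] (T.up a hdeg).Fp`, the map of Kummer covers over `alphaB M a`: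
  `upF (algebraMap x) = algebraMap (alphaB x)`, `upF T.G = (T.up).G`, injective,
  `upF (ρ • y) = ρ • upF y` for `ρ ∈ I' = tameGroup A ζ`, `upF (T.δ y) = (T.up).δ (upF y)`;
* hence constants, `I'`-fixed units and the deck group go up (`upF_mem_C`, `upFixed`).
-/
import Fermat.Agent.GF.F2Asm.Inst
import Fermat.Agent.GK.UTr.KumAlphaGal
import Fermat.Agent.GB.A.Desc.ResDeg

set_option autoImplicit false
set_option linter.unusedSectionVars false
set_option linter.style.haveILetI false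

noncomputable section

namespace Fermat.Agent.GF.KCover.AuxLevel.TameUp

open AlgebraicCurve ModularCurve Polynomial
open Fermat.Agent.GJ Fermat.Agent.GJ.HN Fermat.Agent.GJ.HeckeMer Fermat.Agent.GJ.HInputs
open Fermat.Agent.GJ.KumGroup Fermat.Agent.GJ.Kum.KumType
open Fermat.Agent.GF.F2Asm.KummerExt Fermat.Agent.GF.KCover Fermat.Agent.GF.Peu
open Fermat.Agent.GF.F2Asm.Inst Fermat.Agent.GK.UTr

local notation "GQ" => (AlgebraicClosure ℚ ≃ₐ[ℚ] AlgebraicClosure ℚ)

variable {M : ℕ} [NeZero M] {p : ℕ} [hpF : Fact p.Prime] {A : ValuationSubring Kb} {ζ : Kb}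

/-! ### a non-`p`-th power stays a non-`p`-th power in an extension of degree prime to `p` -/

section Generic

variable {K F F' : Type*} [Field K] [Field F] [Field F'] [Algebra K F] [Algebra K F']

/-- if `X ^ p - g₀` is irreducible over `F` and `p ∤ [F' : F]` then `φ g₀` is not a `p`-th power
in `F'`. -/
theorem not_pow_of_not_dvd_finrankAlong (φ : F →ₐ[K] F') (hfin : FiniteAlong K φ) {g₀ : F}
    (hirr : Irreducible (kpoly p g₀)) (hdeg : ¬ p ∣ finrankAlong K φ) (b : F') :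
    b ^ p ≠ φ g₀ := by
  intro hb
  letI : Algebra F F' := algebraAlong φ
  haveI : FiniteDimensional F F' := hfin
  have hp : p.Prime := hpF.out
  have hroot : aeval b (kpoly p g₀) = 0 := by
    unfold kpoly
    rw [map_sub, map_pow, aeval_X, aeval_C, hb]
    exact sub_self _
  have hmin : kpoly p g₀ = minpoly F b :=
    minpoly.eq_of_irreducible_of_monic hirr hroot (monic_kpoly hp.ne_zero g₀)
  have hnat : (kpoly p g₀).natDegree = p := by
    unfold kpoly
    exact natDegree_X_pow_sub_C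
  have hdvd : (minpoly F b).natDegree ∣ Module.finrank F F' :=
    minpoly.degree_dvd (Algebra.IsIntegral.isIntegral b)
  rw [← hmin, hnat] at hdvd
  exact hdeg hdvd

end Generic

/-! ### the datum at the level `M * a` -/

variable (T : TameDatum M p A ζ) (a : ℕ) [NeZero a]

/-- `alphaB` is finite (from the Hecke inputs at the level `M * a`). -/
theorem finiteAlong_alphaB : FiniteAlong Kb (alphaB M a) := by
  obtain ⟨-, -, -, hfin, -, -⟩ := heckeInputsAlong_bar M a
  exact hfin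

/-- the Kummer function pulled back to the level `M * a`. -/
def upG : pDivUnits Kb (FK (M * a)) p :=
  ⟨alphaUnits M a (T.g : (FK M)ˣ), alphaUnits_mem M a p (T.g : (FK M)ˣ) T.g.2⟩

theorem coe_upG : (((upG T a : pDivUnits Kb (FK (M * a)) p) : (FK (M * a))ˣ) : FK (M * a)) =
    alphaB M a T.g₀ := rfl

theorem upG_fix (ρ : GQ) (hρ : IsTameFix A ζ ρ) :
    arithmeticGalois (modularFunctionFieldFull (M * a)) ρ •
      (((upG T a : pDivUnits Kb (FK (M * a)) p) : (FK (M * a))ˣ) : FK (M * a)) =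
      (((upG T a : pDivUnits Kb (FK (M * a)) p) : (FK (M * a))ˣ) : FK (M * a)) := by
  rw [coe_upG]
  show arithmeticRingAut (modularFunctionFieldFull (M * a)) ρ (alphaB M a T.g₀) = alphaB M a T.g₀
  rw [← alphaB_arith M a ρ T.g₀]
  congr 1
  exact T.fix ρ hρ

end Fermat.Agent.GF.KCover.AuxLevel.TameUp

namespace Fermat.Agent.GF.F2Asm.Inst.TameDatum

open AlgebraicCurve ModularCurve Polynomial
open Fermat.Agent.GJ Fermat.Agent.GJ.HN Fermat.Agent.GJ.HeckeMer Fermat.Agent.GJ.HInputs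
open Fermat.Agent.GJ.KumGroup Fermat.Agent.GJ.Kum.KumType
open Fermat.Agent.GF.F2Asm.KummerExt Fermat.Agent.GF.KCover Fermat.Agent.GF.Peu
open Fermat.Agent.GF.F2Asm.Inst Fermat.Agent.GK.UTr Fermat.Agent.GF.KCover.AuxLevel.TameUp

variable {M : ℕ} [NeZero M] {p : ℕ} [hpF : Fact p.Prime] {A : ValuationSubring Kb} {ζ : Kb}

/-- **the tame datum at the auxiliary level `M * a`**, `p ∤ [F_{Ma} : F_M]`. -/
def up (T : TameDatum M p A ζ) (a : ℕ) [NeZero a] (hdeg : ¬ p ∣ finrankAlong Kb (alphaB M a)) :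
    TameDatum (M * a) p A ζ where
  g := upG T a
  prim := T.prim
  fix := upG_fix T a
  irr := irreducible_kpoly hpF.out
    (not_pow_of_not_dvd_finrankAlong (alphaB M a) (finiteAlong_alphaB a) T.irr hdeg)

end Fermat.Agent.GF.F2Asm.Inst.TameDatum

namespace Fermat.Agent.GF.KCover.AuxLevel.TameUp

open AlgebraicCurve ModularCurve Polynomial
open Fermat.Agent.GJ Fermat.Agent.GJ.HN Fermat.Agent.GJ.HeckeMer Fermat.Agent.GJ.HInputs
open Fermat.Agent.GJ.KumGroup Fermat.Agent.GJ.Kum.KumType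
open Fermat.Agent.GF.F2Asm.KummerExt Fermat.Agent.GF.KCover Fermat.Agent.GF.Peu
open Fermat.Agent.GF.F2Asm.Inst Fermat.Agent.GK.UTr

local notation "GQ" => (AlgebraicClosure ℚ ≃ₐ[ℚ] AlgebraicClosure ℚ)

variable {M : ℕ} [NeZero M] {p : ℕ} [hpF : Fact p.Prime] {A : ValuationSubring Kb} {ζ : Kb}
variable (T : TameDatum M p A ζ) (a : ℕ) [NeZero a] (hdeg : ¬ p ∣ finrankAlong Kb (alphaB M a))

theorem up_g₀ : (T.up a hdeg).g₀ = alphaB M a T.g₀ := coe_upG T a

theorem up_ζF : (T.up a hdeg).ζF = alphaB M a T.ζF := by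
  unfold TameDatum.ζF
  rw [AlgHom.commutes]

/-- the base ring hom `F_M → F_{Ma} → (T.up).Fp`. -/
def upBase : FK M →+* (T.up a hdeg).Fp :=
  (algebraMap (FK (M * a)) (T.up a hdeg).Fp).comp (alphaB M a).toRingHom

theorem upBase_apply (x : FK M) :
    upBase T a hdeg x = algebraMap (FK (M * a)) (T.up a hdeg).Fp (alphaB M a x) := rfl

theorem eval₂_upBase : (kpoly p T.g₀).eval₂ (upBase T a hdeg) (T.up a hdeg).G = 0 := by
  unfold kpoly
  rw [eval₂_sub, eval₂_pow, eval₂_X, eval₂_C, TameDatum.G_pow, upBase_apply, up_g₀]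
  exact sub_self _

/-- the underlying ring hom of `upF`. -/
def upFHom : T.Fp →+* (T.up a hdeg).Fp :=
  AdjoinRoot.lift (upBase T a hdeg) (T.up a hdeg).G (eval₂_upBase T a hdeg)

theorem upFHom_algebraMap (x : FK M) :
    upFHom T a hdeg (algebraMap (FK M) T.Fp x) =
      algebraMap (FK (M * a)) (T.up a hdeg).Fp (alphaB M a x) :=
  AdjoinRoot.lift_of (eval₂_upBase T a hdeg)

theorem upFHom_G : upFHom T a hdeg T.G = (T.up a hdeg).G :=
  AdjoinRoot.lift_root (eval₂_upBase T a hdeg)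

/-- **the map of Kummer covers** `T.Fp → (T.up).Fp` over `alphaB M a`. -/
def upF : T.Fp →ₐ[Kb] (T.up a hdeg).Fp :=
  { upFHom T a hdeg with
    commutes' := fun c => by
      show upFHom T a hdeg (algebraMap Kb T.Fp c) = algebraMap Kb (T.up a hdeg).Fp c
      rw [IsScalarTower.algebraMap_apply Kb (FK M) T.Fp, upFHom_algebraMap, AlgHom.commutes,
        ← IsScalarTower.algebraMap_apply Kb (FK (M * a)) (T.up a hdeg).Fp] }

theorem upF_algebraMap (x : FK M) :
    upF T a hdeg (algebraMap (FK M) T.Fp x) =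
      algebraMap (FK (M * a)) (T.up a hdeg).Fp (alphaB M a x) :=
  upFHom_algebraMap T a hdeg x

theorem upF_G : upF T a hdeg T.G = (T.up a hdeg).G := upFHom_G T a hdeg

theorem upF_const (c : Kb) :
    upF T a hdeg (algebraMap Kb T.Fp c) = algebraMap Kb (T.up a hdeg).Fp c :=
  (upF T a hdeg).commutes c

theorem upF_injective : Function.Injective (upF T a hdeg) :=
  (upF T a hdeg).toRingHom.injective

/-- two ring homs out of `T.Fp` agree if they agree on `F_M` and on `G`. -/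
theorem ringHom_ext_Fp {S : Type*} [Semiring S] {f g : T.Fp →+* S}
    (h1 : ∀ x : FK M, f (algebraMap (FK M) T.Fp x) = g (algebraMap (FK M) T.Fp x))
    (h2 : f T.G = g T.G) : f = g :=
  ringHom_ext' p T.g₀ h1 h2

/-- **equivariance** for the action of `I' = tameGroup A ζ`. -/
theorem upF_smul (ρ : tameGroup A ζ) (y : T.Fp) :
    upF T a hdeg (ρ • y) = ρ • upF T a hdeg y := by
  let f : T.Fp →+* (T.up a hdeg).Fp :=
    ((upF T a hdeg : T.Fp →+* (T.up a hdeg).Fp)).comp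
      (MulSemiringAction.toRingHom (tameGroup A ζ) T.Fp ρ)
  let g : T.Fp →+* (T.up a hdeg).Fp :=
    (MulSemiringAction.toRingHom (tameGroup A ζ) (T.up a hdeg).Fp ρ).comp
      (upF T a hdeg : T.Fp →+* (T.up a hdeg).Fp)
  have hfg : f = g := by
    refine ringHom_ext_Fp T (fun x => ?_) ?_
    · show upF T a hdeg (ρ • algebraMap (FK M) T.Fp x) =
        ρ • upF T a hdeg (algebraMap (FK M) T.Fp x)
      rw [T.smul_algebraMap, upF_algebraMap, upF_algebraMap, (T.up a hdeg).smul_algebraMap]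
      exact congrArg (algebraMap (FK (M * a)) (T.up a hdeg).Fp) (alphaB_arith M a ρ.1 x)
    · show upF T a hdeg (ρ • T.G) = ρ • upF T a hdeg T.G
      rw [T.smul_G, upF_G, (T.up a hdeg).smul_G]
  exact congrArg (fun h : T.Fp →+* (T.up a hdeg).Fp => h y) hfg

/-- **compatibility with the deck transformations.** -/
theorem upF_δ (y : T.Fp) : upF T a hdeg (T.δ y) = (T.up a hdeg).δ (upF T a hdeg y) := by
  let f : T.Fp →+* (T.up a hdeg).Fp :=
    ((upF T a hdeg : T.Fp →+* (T.up a hdeg).Fp)).comp (T.δ : T.Fp →+* T.Fp)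
  let g : T.Fp →+* (T.up a hdeg).Fp :=
    (((T.up a hdeg).δ : (T.up a hdeg).Fp →+* (T.up a hdeg).Fp)).comp
      (upF T a hdeg : T.Fp →+* (T.up a hdeg).Fp)
  have hfg : f = g := by
    refine ringHom_ext_Fp T (fun x => ?_) ?_
    · show upF T a hdeg (T.δ (algebraMap (FK M) T.Fp x)) =
        (T.up a hdeg).δ (upF T a hdeg (algebraMap (FK M) T.Fp x))
      rw [T.δ_algebraMap, upF_algebraMap, (T.up a hdeg).δ_algebraMap]
    · show upF T a hdeg (T.δ T.G) = (T.up a hdeg).δ (upF T a hdeg T.G)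
      rw [T.δ_G, map_mul, upF_const, upF_G, (T.up a hdeg).δ_G]
  exact congrArg (fun h : T.Fp →+* (T.up a hdeg).Fp => h y) hfg

theorem upF_δ_pow (k : ℕ) (y : T.Fp) :
    upF T a hdeg ((T.δ ^ k) y) = ((T.up a hdeg).δ ^ k) (upF T a hdeg y) := by
  induction k generalizing y with
  | zero => rfl
  | succ k ih =>
    rw [pow_succ, pow_succ]
    show upF T a hdeg ((T.δ ^ k) (T.δ y)) = ((T.up a hdeg).δ ^ k) ((T.up a hdeg).δ (upF T a hdeg y))
    rw [ih, upF_δ]

/-- constants go up. -/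
theorem upF_mem_C {y : T.Fp} (hy : y ∈ T.C) : upF T a hdeg y ∈ (T.up a hdeg).C := by
  obtain ⟨c, rfl⟩ := T.mem_C.1 hy
  exact (T.up a hdeg).mem_C.2 ⟨c, upF_const T a hdeg c⟩

/-- constants come down (`upF` is injective and `ℚ̄`-linear). -/
theorem mem_C_of_upF_mem_C {y : T.Fp} (hy : upF T a hdeg y ∈ (T.up a hdeg).C) : y ∈ T.C := by
  obtain ⟨c, hc⟩ := (T.up a hdeg).mem_C.1 hy
  refine T.mem_C.2 ⟨c, upF_injective T a hdeg ?_⟩
  rw [hc, upF_const]

/-- `upF` on units. -/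
def upUnits : T.Fpˣ →* (T.up a hdeg).Fpˣ := Units.map (upF T a hdeg : T.Fp →* (T.up a hdeg).Fp)

@[simp] theorem coe_upUnits (y : T.Fpˣ) :
    ((upUnits T a hdeg y : (T.up a hdeg).Fpˣ) : (T.up a hdeg).Fp) = upF T a hdeg (y : T.Fp) := rfl

theorem upUnits_mem_fixedUnits {y : T.Fpˣ} (hy : y ∈ fixedUnits (tameGroup A ζ) T.Fp) :
    upUnits T a hdeg y ∈ fixedUnits (tameGroup A ζ) (T.up a hdeg).Fp := by
  intro ρ
  rw [coe_upUnits, ← upF_smul, hy ρ]

/-- **the `I'`-fixed units go up.** -/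
def upFixed : fixedUnits (tameGroup A ζ) T.Fp →* fixedUnits (tameGroup A ζ) (T.up a hdeg).Fp where
  toFun y := ⟨upUnits T a hdeg (y : T.Fpˣ), upUnits_mem_fixedUnits T a hdeg y.2⟩
  map_one' := Subtype.ext (map_one (upUnits T a hdeg))
  map_mul' y z := Subtype.ext (map_mul (upUnits T a hdeg) (y : T.Fpˣ) (z : T.Fpˣ))

@[simp] theorem coe_upFixed (y : fixedUnits (tameGroup A ζ) T.Fp) :
    (((upFixed T a hdeg y : fixedUnits (tameGroup A ζ) (T.up a hdeg).Fp) :
      (T.up a hdeg).Fpˣ) : (T.up a hdeg).Fp) = upF T a hdeg ((y : T.Fpˣ) : T.Fp) := rfl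

theorem upFixed_injective : Function.Injective (upFixed T a hdeg) := by
  intro y z h
  apply Subtype.ext
  apply Units.ext
  apply upF_injective T a hdeg
  have := congrArg (fun w : fixedUnits (tameGroup A ζ) (T.up a hdeg).Fp =>
    (((w : (T.up a hdeg).Fpˣ)) : (T.up a hdeg).Fp)) h
  simpa using this

/-! ### the degrees: `a = 2`, `5 ≤ p` -/

section Degree

open Fermat.Agent.S24 IntermediateField

/-- `ψ(M) · [F_{Ma} : F_M] = ψ(M a)`. -/
theorem psi_mul_finrankAlong_alphaB (M a : ℕ) [NeZero M] [NeZero a] :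
    dedekindPsi M * finrankAlong Kb (alphaB M a) = dedekindPsi (M * a) := by
  have h := finrank_adjoin_tower (alphaB M a) (jF M)
  have e1 : Module.finrank Kbar⟮jF M⟯ (FN M) = dedekindPsi M :=
    (Fermat.Agent.S24_helper62.m9 M).2.2
  have e2 : Module.finrank Kbar⟮jF (M * a)⟯ (FN (M * a)) = dedekindPsi (M * a) :=
    (Fermat.Agent.S24_helper62.m9 (M * a)).2.2
  rw [alphaB_jF, e1, e2] at h
  exact h.symm

theorem dedekindPsi_pos_aux (M : ℕ) [NeZero M] : 0 < dedekindPsi M := by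
  have := Fermat.Agent.S24.Comb.card_I0 M
  rw [← this]
  exact Fintype.card_pos

/-- `[F_{2M} : F_M] ∈ {1, 2, 3}`. -/
theorem finrankAlong_alphaB_two_le (M : ℕ) [NeZero M] :
    0 < finrankAlong Kb (alphaB M 2) ∧ finrankAlong Kb (alphaB M 2) ≤ 3 := by
  have h := psi_mul_finrankAlong_alphaB M 2
  have hpos := dedekindPsi_pos_aux M
  have hpos2 := dedekindPsi_pos_aux (M * 2)
  have hle := Fermat.Agent.GB.A.Desc.ResDeg.dedekindPsi_mul_two_le M (NeZero.ne M)
  constructor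
  · rcases Nat.eq_zero_or_pos (finrankAlong Kb (alphaB M 2)) with h0 | h0
    · rw [h0, mul_zero] at h
      omega
    · exact h0
  · by_contra hgt
    rw [not_le] at hgt
    have : dedekindPsi M * 4 ≤ dedekindPsi M * finrankAlong Kb (alphaB M 2) :=
      Nat.mul_le_mul_left _ hgt
    omega

/-- **`p ∤ [F_{2M} : F_M]` for `5 ≤ p`.** -/
theorem not_dvd_finrankAlong_two (M : ℕ) [NeZero M] (hp5 : 5 ≤ p) :
    ¬ p ∣ finrankAlong Kb (alphaB M 2) := by
  obtain ⟨h0, h3⟩ := finrankAlong_alphaB_two_le M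
  intro hd
  have := Nat.le_of_dvd h0 hd
  omega

end Degree

/-! ### the level `M * 2 * 2` -/

section Four

variable (hp5 : 5 ≤ p)

/-- the datum at the level `M * 2`. -/
def upTwo : TameDatum (M * 2) p A ζ := T.up 2 (not_dvd_finrankAlong_two M hp5)

theorem upTwo_g₀ : (upTwo T hp5).g₀ = alphaB M 2 T.g₀ := up_g₀ T 2 _

/-- the map of Kummer covers `T.Fp → (upTwo T).Fp`. -/
def upF2 : T.Fp →ₐ[Kb] (upTwo T hp5).Fp := upF T 2 (not_dvd_finrankAlong_two M hp5)

theorem upF2_algebraMap (x : FK M) :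
    upF2 T hp5 (algebraMap (FK M) T.Fp x) =
      algebraMap (FK (M * 2)) (upTwo T hp5).Fp (alphaB M 2 x) := upF_algebraMap T 2 _ x

theorem upF2_G : upF2 T hp5 T.G = (upTwo T hp5).G := upF_G T 2 _

theorem upF2_smul (ρ : tameGroup A ζ) (y : T.Fp) :
    upF2 T hp5 (ρ • y) = ρ • upF2 T hp5 y := upF_smul T 2 _ ρ y

theorem upF2_δ (y : T.Fp) : upF2 T hp5 (T.δ y) = (upTwo T hp5).δ (upF2 T hp5 y) :=
  upF_δ T 2 _ y

theorem upF2_mem_C {y : T.Fp} (hy : y ∈ T.C) : upF2 T hp5 y ∈ (upTwo T hp5).C :=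
  upF_mem_C T 2 _ hy

/-- the `I'`-fixed units go up to the level `M * 2`. -/
def upFixed2 : fixedUnits (tameGroup A ζ) T.Fp →* fixedUnits (tameGroup A ζ) (upTwo T hp5).Fp :=
  upFixed T 2 (not_dvd_finrankAlong_two M hp5)

theorem coe_upFixed2 (y : fixedUnits (tameGroup A ζ) T.Fp) :
    (((upFixed2 T hp5 y : fixedUnits (tameGroup A ζ) (upTwo T hp5).Fp) :
      (upTwo T hp5).Fpˣ) : (upTwo T hp5).Fp) = upF2 T hp5 ((y : T.Fpˣ) : T.Fp) := rfl

/-- **the datum at the level `M * 2 * 2`.** -/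
def upFour : TameDatum (M * 2 * 2) p A ζ := upTwo (upTwo T hp5) hp5

theorem upFour_g₀ : (upFour T hp5).g₀ = alphaB (M * 2) 2 (alphaB M 2 T.g₀) := by
  unfold upFour
  rw [upTwo_g₀, upTwo_g₀]

/-- **the map of Kummer covers** `T.Fp → (upFour T).Fp`. -/
def upF4 : T.Fp →ₐ[Kb] (upFour T hp5).Fp :=
  (upF2 (upTwo T hp5) hp5).comp (upF2 T hp5)

theorem upF4_apply (y : T.Fp) : upF4 T hp5 y = upF2 (upTwo T hp5) hp5 (upF2 T hp5 y) := rfl

theorem upF4_algebraMap (x : FK M) :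
    upF4 T hp5 (algebraMap (FK M) T.Fp x) =
      algebraMap (FK (M * 2 * 2)) (upFour T hp5).Fp (alphaB (M * 2) 2 (alphaB M 2 x)) := by
  rw [upF4_apply, upF2_algebraMap, upF2_algebraMap]
  rfl

theorem upF4_G : upF4 T hp5 T.G = (upFour T hp5).G := by
  rw [upF4_apply, upF2_G, upF2_G]
  rfl

theorem upF4_injective : Function.Injective (upF4 T hp5) :=
  (upF4 T hp5).toRingHom.injective

theorem upF4_smul (ρ : tameGroup A ζ) (y : T.Fp) :
    upF4 T hp5 (ρ • y) = ρ • upF4 T hp5 y := by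
  rw [upF4_apply, upF2_smul, upF2_smul]
  rfl

theorem upF4_δ (y : T.Fp) : upF4 T hp5 (T.δ y) = (upFour T hp5).δ (upF4 T hp5 y) := by
  rw [upF4_apply, upF2_δ, upF2_δ]
  rfl

theorem upF4_mem_C {y : T.Fp} (hy : y ∈ T.C) : upF4 T hp5 y ∈ (upFour T hp5).C :=
  upF2_mem_C (upTwo T hp5) hp5 (upF2_mem_C T hp5 hy)

/-- **the `I'`-fixed units go up to the level `M * 2 * 2`.** -/
def upFixed4 : fixedUnits (tameGroup A ζ) T.Fp →* fixedUnits (tameGroup A ζ) (upFour T hp5).Fp :=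
  (upFixed2 (upTwo T hp5) hp5).comp (upFixed2 T hp5)

theorem coe_upFixed4 (y : fixedUnits (tameGroup A ζ) T.Fp) :
    (((upFixed4 T hp5 y : fixedUnits (tameGroup A ζ) (upFour T hp5).Fp) :
      (upFour T hp5).Fpˣ) : (upFour T hp5).Fp) = upF4 T hp5 ((y : T.Fpˣ) : T.Fp) := rfl

end Four

end Fermat.Agent.GF.KCover.AuxLevel.TameUp

end
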