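/-
GATE-F (S44) / GF-KCOVER-INST-AUX (helper47), file 9 = (AUX-TOP): **the node lemma at ALL finite
places of level `M` from the node lemma at all finite places of level `M·2·2`** (where
`nuTwo = nuThree = 0`, i.e. every node ring has thickness one).

* `harch₁`, `harch₂`  : the archimedean binder of `Bridge.sheetK` for the two Gauss valuations, at
  ANY level (`(1 − ζ)^{p−1} ∼ p`, helper19 `Harch`);
* `upData`, `upData2` : helper18's `TameUp` as a `TameUpData`;
* `deepRep_up`        : a deep representative of `T.g₀` goes up along `alphaB`;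
* `NLAll T h`         : "for all roots `γ₁ γ₂`, at every finite place `Pl` of `FresBar L A` there are
  shifts `a b` with NL at `(Pl, j + a, j + b)` for all `j`" — the NL part of the `∃`-block of
  helper31's `F2Plug.NodeSupply`;
* `nlAll_of_up`       : `NLAll (upTwo T) → NLAll T` ; `nlAll_of_four : NLAll (upFour T) → NLAll T`.
-/
import Fermat.Agent.GF.KCover.AuxLevel.ModUp
import Fermat.Agent.GF.KCover.AuxLevel.TameUp
import Fermat.Agent.GF.KCover.AuxLevel.FresFour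
import Fermat.Agent.GF.KCover.Int.TameLift
import Fermat.Agent.GF.KCover.Compl.Harch
import Fermat.Agent.GF.KCover.Field.WDataFinal

set_option autoImplicit false
set_option linter.unusedSectionVars false
set_option linter.unusedVariables false

noncomputable section

open Polynomial AlgebraicCurve ModularCurve IntermediateField

namespace Fermat.Agent.GF.KCover.AuxLevel

open Fermat.Agent.GJ.J1 Fermat.Agent.GJ.J1.Val Fermat.Agent.S24 Fermat.Agent.GF.Trop
open Fermat.Agent.GJ.KumGroup Fermat.Agent.GJ.Kum.KumType Fermat.Agent.GJ.HN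
open Fermat.Agent.GK.UTr Fermat.Agent.GK.SS Fermat.Agent.GK.UqKronecker Fermat.Agent.GK.AL
open Fermat.Agent.GB.A.Desc Fermat.Agent.GB.A.FP
open Fermat.Agent.GF.KCover Fermat.Agent.GF.KCover.Compl
open Fermat.Agent.GF.KCover.Compl.RedCompl Fermat.Agent.GF.KCover.Compl.Bridge
open Fermat.Agent.GF.KCover.Node.OrdRedExt
open Fermat.Agent.GF.KCover.Field Fermat.Agent.GF.KCover.Field.Disc
open Fermat.Agent.GF.KCover.Field.WDataOf Fermat.Agent.GF.KCover.Field.WDataFinal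
open Fermat.Agent.GF.F2Asm Fermat.Agent.GF.F2Asm.KummerExt Fermat.Agent.GF.F2Asm.Inst
open Fermat.Agent.GF.KCover.AuxLevel.TameUp

local notation "GQ" => (AlgebraicClosure ℚ ≃ₐ[ℚ] AlgebraicClosure ℚ)

attribute [local instance] Fermat.Agent.GF.KCover.Field.WDataOf.actFK
attribute [local instance] Fermat.Agent.GF.KCover.Field.WDataOf.algE'

variable {L : ℕ} [NeZero L] {p : ℕ} [hpF : Fact p.Prime] {A : ValuationSubring Kb} {ζ : Kb}

/-! ### the archimedean binder at any level -/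

section Arch

variable (T : TameDatum L p A ζ) (hζ : IsPrimitiveRoot ζ p) (hA : (p : Kb) ∈ A.nonunits)

include hζ in
theorem one_sub_zeta_pow_mul_inv_mem : (1 - ζ) ^ (p - 1) * ((p : Kb))⁻¹ ∈ A := by
  have h1 := Fermat.Agent.GL.Local.InertiaField.valuation_one_sub_zeta_pow A hpF.out hζ
  have hp0 : A.valuation (p : Kb) ≠ 0 :=
    (Valuation.ne_zero_iff _).2 (Nat.cast_ne_zero.2 hpF.out.ne_zero)
  rw [← A.valuation_le_one_iff, map_mul, map_pow, map_inv₀, h1, mul_inv_cancel₀ hp0]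

include hζ hA in
/-- the generic form: any reduction datum whose valuation ring is that of a `GalVal`. -/
theorem harch_of_galVal (V : GalVal L A) {k Ft : Type*} [Field k] [Field Ft] [Algebra k Ft]
    (R : RedData Kb (FK L) k Ft) (hRV : R.Rw = V.W) (hun : Unram R)
    (γ : ValuationSubring.ValueGroup R.Rw) (hγ : γ ≠ 0) :
    ∃ n : ℕ, R.Rw.valuation (algebraMap Kb (FK L) (1 - ζ)) ^ n < γ := by
  have hRA : ∀ c : Kb, c ∈ R.A ↔ c ∈ A := fun c => by
    rw [R.mem_A_iff, hRV, V.mem_const]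
  have hnu : (1 - ζ : Kb) ∈ A.nonunits :=
    Fermat.Agent.GL.Local.InertiaField.one_sub_zeta_mem_nonunits A hpF.out hA hζ
  have h0 : (1 - ζ : Kb) ≠ 0 :=
    Fermat.Agent.GL.Local.InertiaField.one_sub_zeta_ne_zero hpF.out hζ
  refine Harch.harch_of_unram R hun ((hRA _).2 (A.nonunits_le hnu)) (fun hinv => ?_)
    (fun c hc => ?_) γ hγ
  · have h1 := (hRA _).1 hinv
    have h2 : A.valuation (1 - ζ : Kb) < 1 := (A.mem_nonunits_iff).1 hnu
    have h3 : A.valuation ((1 - ζ : Kb))⁻¹ ≤ 1 := (A.valuation_le_one_iff _).2 h1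
    rw [map_inv₀] at h3
    have h4 : A.valuation (1 - ζ : Kb) ≠ 0 := (Valuation.ne_zero_iff _).2 h0
    have h5 : 1 ≤ A.valuation (1 - ζ : Kb) := (inv_le_one₀ (zero_lt_iff.2 h4)).1 h3
    exact absurd h2 (not_lt.2 h5)
  · obtain ⟨n, hn⟩ := Harch.exists_unif_pow_mul_inv_mem_Qbar A hpF.out hA
      (one_sub_zeta_pow_mul_inv_mem hζ) hc
    exact ⟨n, (hRA _).2 hn⟩

include hA in
/-- **`harch` at the first Gauss valuation.** -/
theorem harch₁ (γ : ValuationSubring.ValueGroup (redDataBar L A).Rw) (hγ : γ ≠ 0) :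
    ∃ n : ℕ, valF₁ T (galVal1 L A) (ϖ₁ T) ^ n < γ :=
  harch_of_galVal T.prim hA (galVal1 L A) (redDataBar L A) rfl (galVal1 L A).unram γ hγ

include hA in
/-- **`harch` at the second Gauss valuation.** -/
theorem harch₂ {q : ℕ} (h : ExactDvd q L)
    (γ : ValuationSubring.ValueGroup (redData2 L A h).Rw) (hγ : γ ≠ 0) :
    ∃ n : ℕ, valF₁ T (galVal2 L A h) (ϖ₁ T) ^ n < γ :=
  harch_of_galVal T.prim hA (galVal2 L A h) (redData2 L A h) rfl (galVal2 L A h).unram γ hγ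

end Arch

/-! ### helper18's `TameUp` as a `TameUpData` -/

section Up

variable {M : ℕ} [NeZero M]

/-- helper18's `upF` as a `TameUpData`. -/
def upData (T : TameDatum M p A ζ) (a : ℕ) [NeZero a]
    (hdeg : ¬ p ∣ finrankAlong Kb (alphaB M a)) : TameUpData T (T.up a hdeg) where
  upF := upF T a hdeg
  map_algebraMap := upF_algebraMap T a hdeg
  map_G := upF_G T a hdeg
  map_smul := upF_smul T a hdeg

/-- the step `M → M·2`. -/
def upData2 (T : TameDatum M p A ζ) (hp5 : 5 ≤ p) : TameUpData T (upTwo T hp5) :=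
  upData T 2 (not_dvd_finrankAlong_two M hp5)

/-- `j~` at the two levels. -/
theorem inclusion_jt (a : ℕ) [NeZero a] :
    inclusion (FresBar_le_level M a A) (Fermat.Agent.GK.QS.jt M A) =
      Fermat.Agent.GK.QS.jt (M * a) A :=
  Subtype.ext (by
    rw [coe_inclusion, Fermat.Agent.GK.QS.coe_jt, Fermat.Agent.GK.QS.coe_jt])

/-- **a deep representative goes up.** -/
theorem deepRep_up {a : ℕ} [NeZero a] {T : TameDatum M p A ζ} {T₂ : TameDatum (M * a) p A ζ}
    (U : TameUpData T T₂) {V : GalVal M A} {V₂ : GalVal (M * a) A}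
    (hV : ∀ x : FK M, x ∈ V.W → alphaB M a x ∈ V₂.W) (hd : DeepRep T V) : DeepRep T₂ V₂ := by
  obtain ⟨d, z, hd, hz, hg, hdeep⟩ := hd
  refine ⟨alphaB M a d, alphaB M a z, alphaB_mem_F₁ hd, alphaB_mem_F₁ hz, ?_, ?_⟩
  · rw [U.g₀_eq, hg, map_mul, map_pow]
  · have hp0 : (algebraMap Kb (FK M) (p : Kb)) ≠ 0 := by
      rw [Ne, map_eq_zero]
      exact Nat.cast_ne_zero.2 hpF.out.ne_zero
    have hp0' : (algebraMap Kb (FK (M * a)) (p : Kb)) ≠ 0 := by
      rw [Ne, map_eq_zero]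
      exact Nat.cast_ne_zero.2 hpF.out.ne_zero
    have hv0 : 0 < V.W.valuation (algebraMap Kb (FK M) (p : Kb)) ^ 3 :=
      pow_pos (zero_lt_iff.2 ((Valuation.ne_zero_iff _).2 hp0)) 3
    have hv0' : 0 < V₂.W.valuation (algebraMap Kb (FK (M * a)) (p : Kb)) ^ 3 :=
      pow_pos (zero_lt_iff.2 ((Valuation.ne_zero_iff _).2 hp0')) 3
    have h1 : (z - 1) * ((algebraMap Kb (FK M) (p : Kb)) ^ 3)⁻¹ ∈ V.W := by
      rw [← V.W.valuation_le_one_iff, map_mul, map_inv₀, map_pow]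
      exact (mul_inv_le_iff₀ hv0).2 (by rwa [one_mul])
    have h2 := hV _ h1
    rw [map_mul, map_inv₀, map_pow, map_sub, map_one, AlgHom.commutes,
      ← V₂.W.valuation_le_one_iff, map_mul, map_inv₀, map_pow] at h2
    have h3 := (mul_inv_le_iff₀ hv0').1 h2
    rwa [one_mul] at h3

end Up

/-! ### the node lemma at all finite places -/

section All

local notation "𝕜" => IsLocalRing.ResidueField A

/-- **the node lemma at ALL finite places of level `L`** for the datum `T`: for every choice of the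
roots `γ₁ γ₂`, at every place `Pl` of `FresBar L A` with `j~` regular there are shifts `a b` such
that `NL` holds at `(Pl, j + a, j + b)` for all `j` (= the NL part of the `∃`-block of helper31's
`F2Plug.NodeSupply`, with `as s := a (P s)`, `bs s := b (P s)`). -/
def NLAll (T : TameDatum L p A ζ) {q : ℕ} (h : ExactDvd q L) : Prop :=
  ∀ (hD₁ : IsDisc (valF₁ T (galVal1 L A)) (ϖ₁ T))
    (hD₂ : IsDisc (valF₁ T (galVal2 L A h)) (ϖ₁ T))
    (harch : ∀ γ : ValuationSubring.ValueGroup (redDataBar L A).Rw, γ ≠ 0 →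
      ∃ n : ℕ, valF₁ T (galVal1 L A) (ϖ₁ T) ^ n < γ)
    (γ₁ : Pack.Lc hD₁) (hγ₁ : γ₁ ^ p = Pack.jc hD₁ (g₁ T))
    (γ₂ : Pack.Lc hD₂) (hγ₂ : γ₂ ^ p = Pack.jc hD₂ (g₁ T))
    (Pl : Place 𝕜 (FresBar L A)), Fermat.Agent.GK.QS.jt L A ∈ Pl.toValuationSubring →
    ∃ a b : ZMod p, ∀ (j : ZMod p)
      (hun : Unram (TameUpData.sheetT T (redDataBar L A) (fun _ => rfl) hD₁ harch hγ₁ (j + a))),
      ∀ y, y ∈ UsInst.Us T → wOf T hD₁ hγ₁ (j + a) y = 0 → wOf T hD₂ hγ₂ (j + b) y = 0 →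
        (p : ℤ) ∣ nodeOrd
          (TameUpData.sheetT T (redDataBar L A) (fun _ => rfl) hD₁ harch hγ₁ (j + a)) hun Pl
          (fixedUnits (tameGroup A ζ) T.Fp) y

/-- the roots exist (from `DeepRep`, see `hasRoots_of_deepRep`). -/
def HasRoots (T : TameDatum L p A ζ) {q : ℕ} (h : ExactDvd q L) : Prop :=
  (∀ hD₁ : IsDisc (valF₁ T (galVal1 L A)) (ϖ₁ T), ∃ γ : Pack.Lc hD₁, γ ^ p = Pack.jc hD₁ (g₁ T)) ∧
  ∀ hD₂ : IsDisc (valF₁ T (galVal2 L A h)) (ϖ₁ T), ∃ γ : Pack.Lc hD₂, γ ^ p = Pack.jc hD₂ (g₁ T)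

theorem hasRoots_of_deepRep (T : TameDatum L p A ζ) {q : ℕ} (h : ExactDvd q L)
    (hA : (p : Kb) ∈ A.nonunits) (h1 : DeepRep T (galVal1 L A)) (h2 : DeepRep T (galVal2 L A h)) :
    HasRoots T h := by
  refine ⟨fun hD₁ => ?_, fun hD₂ => ?_⟩
  · obtain ⟨d, z, hd, hz, hg, hdeep⟩ := h1
    exact WDataOf.exists_root T hA hD₁ hd hz hg hdeep
  · obtain ⟨d, z, hd, hz, hg, hdeep⟩ := h2
    exact WDataOf.exists_root T hA hD₂ hd hz hg hdeep

variable {M : ℕ} [NeZero M]

/-- **one step of the descent**: `NLAll` at level `M·2` gives `NLAll` at level `M`. -/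
theorem nlAll_of_up (T : TameDatum M p A ζ) (hp5 : 5 ≤ p) (h : ExactDvd p M)
    (hA : (p : Kb) ∈ A.nonunits) (hA' : A.LiesOverPrime p)
    (hroots : HasRoots (upTwo T hp5) (exactDvd_mul_two h (by omega : p ≠ 2)))
    (H : NLAll (upTwo T hp5) (exactDvd_mul_two h (by omega : p ≠ 2))) : NLAll T h := by
  have hp2 : p ≠ 2 := by omega
  intro hD₁ hD₂ harch γ₁ hγ₁ γ₂ hγ₂ Pl hPl
  obtain ⟨Pl', e, he0, he3, hord, hmem⟩ := exists_place_mul_two h hp2 hA' Pl
  have hcop : IsCoprime (p : ℤ) (e : ℤ) := by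
    have h1 : Nat.Coprime e p := coprime_of_le_three (fun r hr hrp => by
      rw [(Nat.prime_dvd_prime_iff_eq hr hpF.out).1 hrp]
      exact hp5) he0 he3
    exact (Nat.isCoprime_iff_coprime.2 h1).symm
  have h' : ExactDvd p (M * 2) := exactDvd_mul_two h hp2
  have hunB : Unram (redDataBar (M * 2) A) := (galVal1 (M * 2) A).unram
  have hunB2 : Unram (redData2 (M * 2) A h') := (galVal2 (M * 2) A h').unram
  have hD₁' := Fermat.Agent.GF.KCover.Int.TameLift.isDisc₁ (upTwo T hp5) hA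
  have hD₂' := Fermat.Agent.GF.KCover.Int.TameLift.isDisc₂ (upTwo T hp5) h' hA
  have harch' := harch₁ (upTwo T hp5) hA
  have harch2 := harch₂ T hA h
  have harch2' := harch₂ (upTwo T hp5) hA h'
  obtain ⟨γ₀₁, hγ₀₁⟩ := hroots.1 hD₁'
  obtain ⟨γ₀₂, hγ₀₂⟩ := hroots.2 hD₂'
  obtain ⟨γ₁', hγ₁', hγγ₁⟩ := (upData2 T hp5).exists_root_compat (redUp_bar M 2 A) hunB
    (fun _ => rfl) (fun _ => rfl) hD₁ hD₁' harch harch' hγ₁ hγ₀₁
  obtain ⟨γ₂', hγ₂', hγγ₂⟩ := (upData2 T hp5).exists_root_compat (redUp_two h h') hunB2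
    (fun _ => rfl) (fun _ => rfl) hD₂ hD₂' harch2 harch2' hγ₂ hγ₀₂
  have hPl' : Fermat.Agent.GK.QS.jt (M * 2) A ∈ Pl'.toValuationSubring := by
    rw [← inclusion_jt 2]
    exact (hmem _).2 hPl
  obtain ⟨a, b, Hab⟩ := H hD₁' hD₂' harch' γ₁' hγ₁' γ₂' hγ₂' Pl' hPl'
  refine ⟨a, b, fun j hun y hy h1 h2 => ?_⟩
  have hun' : Unram (TameUpData.sheetT (upTwo T hp5) (redDataBar (M * 2) A) (fun _ => rfl) hD₁'
      harch' hγ₁' (j + a)) := unram_sheetK _ _ _ _ _ _ _ _ hunB _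
  exact (upData2 T hp5).nl_of_up h h' hunB hunB2 hD₁ hD₁' harch harch' hγ₁ hγ₁' hγγ₁ hD₂ hD₂'
    harch2 harch2' hγ₂ hγ₂' hγγ₂ (fun x _ => hord x) hcop (j + a) (j + b) hun hun'
    (Hab j hun') y hy h1 h2

/-- **the descent from the level `M·2·2`** (where `nuTwo = nuThree = 0`). -/
theorem nlAll_of_four (T : TameDatum M p A ζ) (hp5 : 5 ≤ p) (h : ExactDvd p M)
    (hA : (p : Kb) ∈ A.nonunits) (hA' : A.LiesOverPrime p)
    (hroots2 : HasRoots (upTwo T hp5) (exactDvd_mul_two h (by omega : p ≠ 2)))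
    (hroots4 : HasRoots (upFour T hp5)
      (exactDvd_mul_two (exactDvd_mul_two h (by omega : p ≠ 2)) (by omega : p ≠ 2)))
    (H : NLAll (upFour T hp5)
      (exactDvd_mul_two (exactDvd_mul_two h (by omega : p ≠ 2)) (by omega : p ≠ 2))) :
    NLAll T h :=
  nlAll_of_up T hp5 h hA hA' hroots2
    (nlAll_of_up (upTwo T hp5) hp5 (exactDvd_mul_two h (by omega : p ≠ 2)) hA hA' hroots4 H)

/-- deep representatives at level `M` give deep representatives at level `M·2`. -/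
theorem deepRep_upTwo (T : TameDatum M p A ζ) (hp5 : 5 ≤ p) (h : ExactDvd p M)
    (h1 : DeepRep T (galVal1 M A)) (h2 : DeepRep T (galVal2 M A h)) :
    DeepRep (upTwo T hp5) (galVal1 (M * 2) A) ∧
      DeepRep (upTwo T hp5) (galVal2 (M * 2) A (exactDvd_mul_two h (by omega : p ≠ 2))) :=
  ⟨deepRep_up (upData2 T hp5) (fun x hx => (redUp_bar M 2 A).mem x hx) h1,
    deepRep_up (upData2 T hp5)
      (fun x hx => (redUp_two h (exactDvd_mul_two h (by omega : p ≠ 2))).mem x hx) h2⟩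

/-- **the descent from the level `M·2·2`, from deep representatives at level `M`.** -/
theorem nlAll_of_four_of_deepRep (T : TameDatum M p A ζ) (hp5 : 5 ≤ p) (h : ExactDvd p M)
    (hA : (p : Kb) ∈ A.nonunits) (hA' : A.LiesOverPrime p)
    (h1 : DeepRep T (galVal1 M A)) (h2 : DeepRep T (galVal2 M A h))
    (H : NLAll (upFour T hp5)
      (exactDvd_mul_two (exactDvd_mul_two h (by omega : p ≠ 2)) (by omega : p ≠ 2))) :
    NLAll T h := by
  have hp2 : p ≠ 2 := by omega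
  obtain ⟨h1', h2'⟩ := deepRep_upTwo T hp5 h h1 h2
  obtain ⟨h1'', h2''⟩ := deepRep_upTwo (upTwo T hp5) hp5 (exactDvd_mul_two h hp2) h1' h2'
  exact nlAll_of_four T hp5 h hA hA'
    (hasRoots_of_deepRep (upTwo T hp5) (exactDvd_mul_two h hp2) hA h1' h2')
    (hasRoots_of_deepRep (upFour T hp5) (exactDvd_mul_two (exactDvd_mul_two h hp2) hp2) hA
      h1'' h2'') H

end All

end Fermat.Agent.GF.KCover.AuxLevel
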