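/-
GATE-F (S44) / RULING-9 (3) on the def of record (helper61): helper62's
`NodeMod.ASKDef.ASK T h c₀` (χ := `T.prim.autToPow ℚ`) IS `AuxLevel.ASKDef.ASK T h χ c₀` at that `χ`
(`Iff.rfl`), hence goes up along the change of level: `askN_up`, `askN_upTwo`, `askN_upFour`,
**`askN_upFour_all : (∀ c₀, ASK T h c₀) → ∀ c₀, ASK (upFour T hp5) h'' c₀`** = the `hASK` input of
`NlAllOfHyps.nlAll_of_hyps` at `upFour T hp5`.
-/
import Fermat.Agent.GF.KCover.AuxLevel.ASK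
import Fermat.Agent.GF.KCover.NodeMod.ASKDef

set_option autoImplicit false
set_option linter.unusedSectionVars false
set_option linter.unusedVariables false

noncomputable section

open Polynomial AlgebraicCurve ModularCurve IntermediateField

namespace Fermat.Agent.GF.KCover.AuxLevel.ASKBridge

open Fermat.Agent.GJ.KumGroup Fermat.Agent.GJ.Kum.KumType Fermat.Agent.GJ.HN
open Fermat.Agent.GK.UTr Fermat.Agent.GK.AL
open Fermat.Agent.GF.F2Asm.Inst
open Fermat.Agent.GF.KCover.AuxLevel Fermat.Agent.GF.KCover.AuxLevel.TameUp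

variable {M : ℕ} [NeZero M] {p : ℕ} [hpF : Fact p.Prime] {A : ValuationSubring Kb} {ζ : Kb}
  {q : ℕ} {c₀ : IsLocalRing.ResidueField A}

/-- the two `ASK`s agree at `χ := T.prim.autToPow ℚ`. -/
theorem askN_iff (T : TameDatum M p A ζ) (h : ExactDvd q M) (c₀ : IsLocalRing.ResidueField A) :
    Fermat.Agent.GF.KCover.NodeMod.ASKDef.ASK T h c₀ ↔
      Fermat.Agent.GF.KCover.AuxLevel.ASKDef.ASK T h (T.prim.autToPow ℚ) c₀ :=
  Iff.rfl

/-- **helper62's `ASK` goes up along `alphaB M a`.** -/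
theorem askN_up {T : TameDatum M p A ζ} {h : ExactDvd q M} (a : ℕ) [NeZero a]
    (hdeg : ¬ p ∣ finrankAlong Kb (alphaB M a)) (h' : ExactDvd q (M * a))
    (H : Fermat.Agent.GF.KCover.NodeMod.ASKDef.ASK T h c₀) :
    Fermat.Agent.GF.KCover.NodeMod.ASKDef.ASK (T.up a hdeg) h' c₀ :=
  Fermat.Agent.GF.KCover.AuxLevel.ASKDef.ASK.up a hdeg h' ((askN_iff T h c₀).1 H)

theorem askN_upTwo {T : TameDatum M p A ζ} {h : ExactDvd q M} (hp5 : 5 ≤ p)
    (h' : ExactDvd q (M * 2)) (H : Fermat.Agent.GF.KCover.NodeMod.ASKDef.ASK T h c₀) :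
    Fermat.Agent.GF.KCover.NodeMod.ASKDef.ASK (upTwo T hp5) h' c₀ :=
  askN_up 2 (not_dvd_finrankAlong_two M hp5) h' H

theorem askN_upFour {T : TameDatum M p A ζ} {h : ExactDvd q M} (hp5 : 5 ≤ p)
    (h' : ExactDvd q (M * 2)) (h'' : ExactDvd q (M * 2 * 2))
    (H : Fermat.Agent.GF.KCover.NodeMod.ASKDef.ASK T h c₀) :
    Fermat.Agent.GF.KCover.NodeMod.ASKDef.ASK (upFour T hp5) h'' c₀ :=
  askN_upTwo (T := upTwo T hp5) (h := h') hp5 h'' (askN_upTwo hp5 h' H)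

/-- **the `hASK` input of `nlAll_of_hyps` at `upFour T hp5`.** -/
theorem askN_upFour_all {T : TameDatum M p A ζ} {h : ExactDvd q M} (hp5 : 5 ≤ p)
    (h' : ExactDvd q (M * 2)) (h'' : ExactDvd q (M * 2 * 2))
    (H : ∀ c₀ : IsLocalRing.ResidueField A, Fermat.Agent.GF.KCover.NodeMod.ASKDef.ASK T h c₀) :
    ∀ c₀ : IsLocalRing.ResidueField A,
      Fermat.Agent.GF.KCover.NodeMod.ASKDef.ASK (upFour T hp5) h'' c₀ :=
  fun c₀ => askN_upFour hp5 h' h'' (H c₀)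

end Fermat.Agent.GF.KCover.AuxLevel.ASKBridge
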