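/-
GATE-F (S44) / GF-KCOVER-INST-AUX-I (helper18): **the hypotheses on the tame Kummer datum go UP
along the change of level.**

`F2Plug.NodeSupply` gives its facts about `T : TameDatum M p A ζ` (deep representatives, the
`I_A`-lift relation, `lc_q g₀ = 1`) at the level `M = M' p` of the frame only; the node lemma is
proved at the auxiliary level `M * 2 * 2` for `upFour T hp5` (helper13 6879, helper47 `ModUp`).
Here every such fact is transported along `alphaB`:

* `exactDvd_mul`, `exactDvd_two`, `exactDvd_four` : `q ∥ M ⟹ q ∥ M a` (`q ∤ a`);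
* `tameUpData T a hdeg : TameUpData T (T.up a hdeg)` — helper47's `ModUp` record filled with
  `TameUp.upF`; `tameUpData₂`, and the two steps of `upFour`;
* `val_le_pow_iff` : comparison of two valuations with DIFFERENT value groups along a field map
  matching the valuation rings;
* **`deepRep_up`, `deepRep_up₁`, `deepRep_up₂`** : `WDataFinal.DeepRep T V_i ⟹ DeepRep (T.up) V_i'`
  (hence SOME `p`-th root of `g₀` in the completions at the upper level, `exists_root₁_up`, …);
* **`sigmaRel_up`** : helper56's `SigmaRel T ⟹ SigmaRel (T.up a hdeg)`;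
* `lc_up` : `lc_q g₀ = 1` goes up;
* `isDisc₁_up`, `isDisc₂_up` : the `IsDisc` records at the upper level (level-generic, recorded);
* the same for `upTwo T hp5` and `upFour T hp5`.
-/
import Fermat.Agent.GF.KCover.AuxLevel.TameUp
import Fermat.Agent.GF.KCover.AuxLevel.ModUp
import Fermat.Agent.GF.KCover.Field.WDataFinal
import Fermat.Agent.GF.KCover.Int.TameLift
import Fermat.Agent.GF.F2Asm.InstPlace

set_option autoImplicit false
set_option linter.unusedSectionVars false
set_option linter.unusedVariables false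

noncomputable section

namespace Fermat.Agent.GF.KCover.AuxLevel.HypUp

open AlgebraicCurve ModularCurve Polynomial
open Fermat.Agent.GJ Fermat.Agent.GJ.HN Fermat.Agent.GJ.HeckeMer Fermat.Agent.GJ.HInputs
open Fermat.Agent.GJ.KumGroup Fermat.Agent.GJ.Kum.KumType
open Fermat.Agent.GK.UTr Fermat.Agent.GK.SS Fermat.Agent.GK.AL
open Fermat.Agent.GF.F2Asm.KummerExt Fermat.Agent.GF.KCover Fermat.Agent.GF.Peu
open Fermat.Agent.GF.F2Asm.Inst
open Fermat.Agent.GF.KCover.Field Fermat.Agent.GF.KCover.Field.Disc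
open Fermat.Agent.GF.KCover.Field.WDataOf Fermat.Agent.GF.KCover.Field.WDataFinal
open Fermat.Agent.GF.KCover.Int Fermat.Agent.GF.KCover.Int.TameLift
open Fermat.Agent.GF.KCover.AuxLevel Fermat.Agent.GF.KCover.AuxLevel.TameUp

local notation "GQ" => (AlgebraicClosure ℚ ≃ₐ[ℚ] AlgebraicClosure ℚ)

attribute [local instance] Fermat.Agent.GF.KCover.Field.WDataOf.actFK
attribute [local instance] Fermat.Agent.GF.KCover.Field.WDataOf.algE'

/-! ### exact divisibility goes up -/

theorem exactDvd_mul {q M a : ℕ} (h : ExactDvd q M) (ha : ¬ q ∣ a) : ExactDvd q (M * a) where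
  prime := h.prime
  dvd := Dvd.dvd.mul_right h.dvd a
  not_sq := by
    intro h2
    apply h.not_sq
    have hc : Nat.Coprime (q ^ 2) a :=
      Nat.Coprime.pow_left 2 ((Nat.Prime.coprime_iff_not_dvd h.prime).2 ha)
    exact hc.dvd_of_dvd_mul_right h2

theorem not_dvd_two {p : ℕ} (hp5 : 5 ≤ p) : ¬ p ∣ 2 := by
  intro h
  have := Nat.le_of_dvd (by norm_num) h
  omega

theorem exactDvd_two {p M : ℕ} (h : ExactDvd p M) (hp5 : 5 ≤ p) : ExactDvd p (M * 2) :=
  exactDvd_mul h (not_dvd_two hp5)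

theorem exactDvd_four {p M : ℕ} (h : ExactDvd p M) (hp5 : 5 ≤ p) : ExactDvd p (M * 2 * 2) :=
  exactDvd_two (exactDvd_two h hp5) hp5

/-! ### comparison of valuations along a map matching the valuation rings -/

section Val

variable {F F' : Type*} [Field F] [Field F']

theorem val_le_iff_div_mem (W : ValuationSubring F) (x y : F) (hy : y ≠ 0) :
    W.valuation x ≤ W.valuation y ↔ x / y ∈ W := by
  have hy0 : W.valuation y ≠ 0 := (Valuation.ne_zero_iff _).2 hy
  rw [← W.valuation_le_one_iff, map_div₀, div_le_one₀ (zero_lt_iff.2 hy0)]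

/-- two valuations (with different value groups) compare the same way along a field map `φ` with
`φ x ∈ W' ↔ x ∈ W`. -/
theorem val_le_pow_iff (W : ValuationSubring F) (W' : ValuationSubring F') (φ : F →+* F')
    (hφ : ∀ x : F, φ x ∈ W' ↔ x ∈ W) (x y : F) (hy : y ≠ 0) (n : ℕ) :
    W'.valuation (φ x) ≤ W'.valuation (φ y) ^ n ↔ W.valuation x ≤ W.valuation y ^ n := by
  have hyn : y ^ n ≠ 0 := pow_ne_zero n hy
  have hyn' : φ (y ^ n) ≠ 0 := (map_ne_zero φ).2 hyn
  rw [← map_pow, ← map_pow, ← map_pow, val_le_iff_div_mem W' _ _ hyn',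
    val_le_iff_div_mem W _ _ hyn, ← map_div₀, hφ]

end Val

variable {M : ℕ} [NeZero M] {p : ℕ} [hpF : Fact p.Prime] {A : ValuationSubring Kb} {ζ : Kb}
variable (T : TameDatum M p A ζ) (a : ℕ) [NeZero a] (hdeg : ¬ p ∣ finrankAlong Kb (alphaB M a))

/-! ### helper47's `TameUpData` filled with `TameUp.upF` -/

/-- **the change of level on the covers** (`ModUp.TameUpData`) from `TameUp`. -/
def tameUpData : TameUpData T (T.up a hdeg) where
  upF := upF T a hdeg
  map_algebraMap := upF_algebraMap T a hdeg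
  map_G := upF_G T a hdeg
  map_smul := upF_smul T a hdeg

theorem tameUpData_upF : (tameUpData T a hdeg).upF = upF T a hdeg := rfl

/-! ### the deep representatives go up -/

/-- **a deep `K'`-rational representative goes up**, for any pair of Gauss valuations whose
valuation rings correspond along `alphaB`. -/
theorem deepRep_up (V : GalVal M A) (V' : GalVal (M * a) A)
    (hV : ∀ x : FK M, alphaB M a x ∈ V'.W ↔ x ∈ V.W) (h : DeepRep T V) :
    DeepRep (T.up a hdeg) V' := by
  obtain ⟨d, z, hd, hz, hg, hv⟩ := h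
  refine ⟨alphaB M a d, alphaB M a z, alphaB_mem_F₁ hd, alphaB_mem_F₁ hz, ?_, ?_⟩
  · rw [up_g₀, hg, map_mul, map_pow]
  · have hp0 : algebraMap Kb (FK M) (p : Kb) ≠ 0 := by
      rw [Ne, map_eq_zero]
      exact_mod_cast hpF.out.ne_zero
    have h1 : alphaB M a z - 1 = (alphaB M a : FK M →+* FK (M * a)) (z - 1) := by
      rw [map_sub, map_one]
      rfl
    have h2 : algebraMap Kb (FK (M * a)) (p : Kb) =
        (alphaB M a : FK M →+* FK (M * a)) (algebraMap Kb (FK M) (p : Kb)) :=
      ((alphaB M a).commutes (p : Kb)).symm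
    rw [h1, h2]
    exact (val_le_pow_iff V.W V'.W (alphaB M a : FK M →+* FK (M * a)) hV (z - 1) _ hp0 3).2 hv

/-- the first Gauss valuation. -/
theorem deepRep_up₁ (h : DeepRep T (galVal1 M A)) :
    DeepRep (T.up a hdeg) (galVal1 (M * a) A) :=
  deepRep_up T a hdeg (galVal1 M A) (galVal1 (M * a) A)
    (fun x => (redUp_bar M a A).mem_iff x) h

/-- the second Gauss valuation. -/
theorem deepRep_up₂ {q : ℕ} (h : ExactDvd q M) (h' : ExactDvd q (M * a))
    (hd : DeepRep T (galVal2 M A h)) : DeepRep (T.up a hdeg) (galVal2 (M * a) A h') :=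
  deepRep_up T a hdeg (galVal2 M A h) (galVal2 (M * a) A h')
    (fun x => (redUp_two h h').mem_iff x) hd

/-! ### the `I_A`-lift relation goes up -/

/-- **helper56's `SigmaRel` goes up.** -/
theorem sigmaRel_up (hσ : SigmaRel T) : SigmaRel (T.up a hdeg) := by
  intro σ hσI
  obtain ⟨h, h0, hfix, hrel⟩ := hσ σ hσI
  refine ⟨alphaB M a h, (_root_.map_ne_zero _).2 h0, fun τ hτ hc => ?_, ?_⟩
  · rw [← alphaB_arith, hfix τ hτ hc]
  · rw [up_g₀, ← alphaB_arith, hrel, map_mul, map_pow, map_pow]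

/-! ### the leading coefficient goes up -/

theorem qEmb_alphaB (x : FK M) : qEmb (M * a) (alphaB M a x) = qEmb M x := by
  rw [qEmb_apply, qEmb_apply]
  exact coe_heckeAlphaBar M a x

/-- **`lc_q g₀ = 1` goes up.** -/
theorem lc_up (hlc : (qEmb M T.g₀).leadingCoeff = 1) :
    (qEmb (M * a) (T.up a hdeg).g₀).leadingCoeff = 1 := by
  rw [up_g₀, qEmb_alphaB]
  exact hlc

/-! ### the `IsDisc` records and SOME root at the upper level -/

section Roots

variable (hA : (p : Kb) ∈ A.nonunits) {q : ℕ} (h : ExactDvd q M) (h' : ExactDvd q (M * a))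

include hA in
/-- SOME `p`-th root of `g₀` in the completion at the first Gauss valuation of the upper level. -/
theorem exists_root₁_up (h₁ : DeepRep T (galVal1 M A)) :
    ∃ γ : Pack.Lc (WDataFinal.isDisc₁ (T.up a hdeg) hA),
      γ ^ p = Pack.jc (WDataFinal.isDisc₁ (T.up a hdeg) hA) (g₁ (T.up a hdeg)) :=
  exists_root₁ (T.up a hdeg) hA (deepRep_up₁ T a hdeg h₁)

include hA in
/-- SOME `p`-th root of `g₀` in the completion at the second Gauss valuation of the upper level. -/
theorem exists_root₂_up (h₂ : DeepRep T (galVal2 M A h)) :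
    ∃ γ : Pack.Lc (WDataFinal.isDisc₂ (T.up a hdeg) hA h'),
      γ ^ p = Pack.jc (WDataFinal.isDisc₂ (T.up a hdeg) hA h') (g₁ (T.up a hdeg)) :=
  exists_root₂ (T.up a hdeg) hA h' (deepRep_up₂ T a hdeg h h' h₂)

end Roots

/-! ### the levels `M * 2` and `M * 2 * 2` -/

section Four

variable (hp5 : 5 ≤ p)

/-- `ModUp.TameUpData` for the step `M → M * 2`. -/
def tameUpData₂ : TameUpData T (upTwo T hp5) :=
  tameUpData T 2 (not_dvd_finrankAlong_two M hp5)

/-- `ModUp.TameUpData` for the step `M * 2 → M * 2 * 2`. -/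
def tameUpData₄ : TameUpData (upTwo T hp5) (upFour T hp5) :=
  tameUpData₂ (upTwo T hp5) hp5

theorem tameUpData₂_upF : (tameUpData₂ T hp5).upF = upF2 T hp5 := rfl

theorem tameUpData₄_upF : (tameUpData₄ T hp5).upF = upF2 (upTwo T hp5) hp5 := rfl

theorem upF4_eq_comp (y : T.Fp) :
    upF4 T hp5 y = (tameUpData₄ T hp5).upF ((tameUpData₂ T hp5).upF y) := rfl

theorem deepRepTwo₁ (h : DeepRep T (galVal1 M A)) :
    DeepRep (upTwo T hp5) (galVal1 (M * 2) A) :=
  deepRep_up₁ T 2 _ h

theorem deepRepTwo₂ {q : ℕ} (h : ExactDvd q M) (h' : ExactDvd q (M * 2))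
    (hd : DeepRep T (galVal2 M A h)) : DeepRep (upTwo T hp5) (galVal2 (M * 2) A h') :=
  deepRep_up₂ T 2 _ h h' hd

/-- **the deep representative at the first Gauss valuation of the level `M * 2 * 2`.** -/
theorem deepRepFour₁ (h : DeepRep T (galVal1 M A)) :
    DeepRep (upFour T hp5) (galVal1 (M * 2 * 2) A) :=
  deepRepTwo₁ (upTwo T hp5) hp5 (deepRepTwo₁ T hp5 h)

/-- **the deep representative at the second Gauss valuation of the level `M * 2 * 2`.** -/
theorem deepRepFour₂ {q : ℕ} (h : ExactDvd q M) (h' : ExactDvd q (M * 2))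
    (h'' : ExactDvd q (M * 2 * 2)) (hd : DeepRep T (galVal2 M A h)) :
    DeepRep (upFour T hp5) (galVal2 (M * 2 * 2) A h'') :=
  deepRepTwo₂ (upTwo T hp5) hp5 h' h'' (deepRepTwo₂ T hp5 h h' hd)

/-- the same for `q = p` (the only case used), with the exact divisibilities discharged. -/
theorem deepRepFour₂' (h : ExactDvd p M)
    (hd : DeepRep T (galVal2 M A h)) :
    DeepRep (upFour T hp5) (galVal2 (M * 2 * 2) A (exactDvd_four h hp5)) :=
  deepRepFour₂ T hp5 h (exactDvd_two h hp5) (exactDvd_four h hp5) hd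

theorem sigmaRelTwo (hσ : SigmaRel T) : SigmaRel (upTwo T hp5) :=
  sigmaRel_up T 2 _ hσ

/-- **`SigmaRel` at the level `M * 2 * 2`.** -/
theorem sigmaRelFour (hσ : SigmaRel T) : SigmaRel (upFour T hp5) :=
  sigmaRelTwo (upTwo T hp5) hp5 (sigmaRelTwo T hp5 hσ)

theorem lcTwo (hlc : (qEmb M T.g₀).leadingCoeff = 1) :
    (qEmb (M * 2) (upTwo T hp5).g₀).leadingCoeff = 1 :=
  lc_up T 2 _ hlc

/-- **`lc_q g₀ = 1` at the level `M * 2 * 2`.** -/
theorem lcFour (hlc : (qEmb M T.g₀).leadingCoeff = 1) :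
    (qEmb (M * 2 * 2) (upFour T hp5).g₀).leadingCoeff = 1 :=
  lcTwo (upTwo T hp5) hp5 (lcTwo T hp5 hlc)

end Four

end Fermat.Agent.GF.KCover.AuxLevel.HypUp
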