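/-
GATE-F (S44) / GF-KCOVER-INST-AUX-ASUP (helper48; helper13 RULING-8 item 4).
**The Artin–Schreier normal form of the Kummer function of a tame datum, level-generic, and its
transport along a change of level.**

At the auxiliary level `4N` the nodal frame `(C, D, FF, NH)` and the charts of level `N` do not
exist, so the Artin–Schreier data of `T.g₀` consumed by the node lemmas (`SheetData`, `ResLift`,
`hres_sheetK`, the rescaled Kummer frame of (U17)) must be a HYPOTHESIS at a general level, supplied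
at level `N` from the chart representative and transported along `alphaB`.

* `ASData T h` : `T.g₀ = u ^ p * (1 + (ζ - 1) ^ p g1)` with `u`, `g1` fixed by `I' = tameGroup A ζ`,
  `u ≠ 0`, `g1` in both Gauss valuation rings (`redDataBar L A`, `redData2 L A h`);
* `ASData.Z'` : the Artin–Schreier generator `Z' = (u⁻¹ G - 1) / (ζ - 1)` of the cover `T.Fp`;
  `root_eq : u⁻¹ G = 1 + (ζ - 1) Z'`, `hAS : (1 + (ζ - 1) Z') ^ p = 1 + (ζ - 1) ^ p g1`,
  `smul_Z'` (`Z'` is `I'`-fixed), `δ_Z'` (`δ Z' = ζ Z' + 1`);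
* `ASData.up` : along a `TameUpData T T₂` (helper47 `ModUp`, = helper18 `TameUp`), with
  `up_Z' : upF Z' = Z'₂`;
* `ASData.upOf`, `ASData.upFour` : the instances for `T.up a hdeg` and `upFour T hp5` (level `4N`).
-/
import Fermat.Agent.GF.KCover.AuxLevel.ModUp
import Fermat.Agent.GF.KCover.AuxLevel.TameUp

set_option autoImplicit false
set_option linter.unusedSectionVars false
set_option linter.unusedVariables false
set_option linter.style.haveILetI false

noncomputable section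

namespace Fermat.Agent.GF.KCover.AuxLevel.ASUp

open AlgebraicCurve ModularCurve Polynomial
open Fermat.Agent.GJ.J1 Fermat.Agent.GJ.J1.Val Fermat.Agent.S24
open Fermat.Agent.GJ.KumGroup Fermat.Agent.GJ.Kum.KumType Fermat.Agent.GJ.HN
open Fermat.Agent.GK.UTr Fermat.Agent.GK.SS Fermat.Agent.GK.AL
open Fermat.Agent.GB.A.Desc Fermat.Agent.GB.A.FP Fermat.Agent.GK.UqKronecker
open Fermat.Agent.GF.KCover Fermat.Agent.GF.KCover.AuxLevel
open Fermat.Agent.GF.KCover.Field Fermat.Agent.GF.KCover.Field.WDataOf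
open Fermat.Agent.GF.F2Asm Fermat.Agent.GF.F2Asm.KummerExt Fermat.Agent.GF.F2Asm.Inst
open Fermat.Agent.GF.KCover.AuxLevel.TameUp

local notation "GQ" => (AlgebraicClosure ℚ ≃ₐ[ℚ] AlgebraicClosure ℚ)
local notation "Qb" => AlgebraicClosure ℚ

attribute [local instance] Fermat.Agent.GF.KCover.Field.WDataOf.actFK

/-! ### the datum -/

section Datum

variable {L : ℕ} [NeZero L] {p : ℕ} [hpF : Fact p.Prime] {A : ValuationSubring Qb} {ζ : Qb}

/-- **the Artin–Schreier normal form of `T.g₀`** at a general level `L`, `q ∥ L`: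
`T.g₀ = u ^ p * (1 + (ζ - 1) ^ p * g1)`, `u g1` fixed by `I'`, `g1` Gauss-integral on both
components. -/
structure ASData (T : TameDatum L p A ζ) {q : ℕ} (h : ExactDvd q L) where
  /-- the rescaling function (`= α · h` of the chart representative) -/
  u : FK L
  /-- the Artin–Schreier function -/
  g1 : FK L
  hu0 : u ≠ 0
  hu : u ∈ F₁ L A ζ
  hg1 : g1 ∈ F₁ L A ζ
  hg1a : g1 ∈ (redDataBar L A).Rw
  hg1b : g1 ∈ (redData2 L A h).Rw
  hg₀ : T.g₀ = u ^ p * (1 + algebraMap Qb (FK L) ((ζ - 1) ^ p) * g1)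

namespace ASData

variable {T : TameDatum L p A ζ} {q : ℕ} {h : ExactDvd q L} (D : ASData T h)

theorem zeta_sub_one_ne_zero (T : TameDatum L p A ζ) : ζ - 1 ≠ 0 := by
  intro h0
  have h1 : ζ = 1 := sub_eq_zero.mp h0
  exact T.prim.ne_one hpF.out.one_lt h1

/-- `ζ - 1` as a constant of the cover. -/
def cF (T : TameDatum L p A ζ) : T.Fp := algebraMap Qb T.Fp (ζ - 1)

theorem cF_ne_zero (T : TameDatum L p A ζ) : cF T ≠ 0 := by
  unfold cF
  rw [Ne, map_eq_zero]
  exact zeta_sub_one_ne_zero T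

/-- the rescaling function in the cover. -/
def uF : T.Fp := algebraMap (FK L) T.Fp D.u

theorem uF_ne_zero : D.uF ≠ 0 := by
  unfold uF
  rw [Ne, map_eq_zero]
  exact D.hu0

/-- **the Artin–Schreier generator** `Z' = (u⁻¹ G - 1) / (ζ - 1)`. -/
def Z' : T.Fp := (D.uF⁻¹ * T.G - 1) / cF T

/-- **`u⁻¹ G = 1 + (ζ - 1) Z'`** — the root of the rescaled Kummer frame. -/
theorem root_eq : D.uF⁻¹ * T.G = 1 + cF T * D.Z' := by
  unfold Z'
  have hc := cF_ne_zero T
  field_simp
  ring

theorem G_eq : T.G = D.uF * (1 + cF T * D.Z') := by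
  rw [← D.root_eq, ← mul_assoc, mul_inv_cancel₀ D.uF_ne_zero, one_mul]

/-- **the Artin–Schreier equation** `(1 + (ζ - 1) Z') ^ p = 1 + (ζ - 1) ^ p g1`. -/
theorem hAS : (1 + cF T * D.Z') ^ p = 1 + cF T ^ p * algebraMap (FK L) T.Fp D.g1 := by
  have hne : algebraMap (FK L) T.Fp D.u ≠ 0 := D.uF_ne_zero
  rw [← D.root_eq, mul_pow, T.G_pow, D.hg₀, inv_pow]
  unfold uF cF
  rw [map_mul, map_pow, map_add, map_one, map_mul, ← IsScalarTower.algebraMap_apply, map_pow,
    ← mul_assoc, inv_mul_cancel₀ (pow_ne_zero _ hne), one_mul]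

/-- `Z'` is fixed by `I'`. -/
theorem smul_Z' (ρ : tameGroup A ζ) : ρ • D.Z' = D.Z' := by
  have hu : ρ • D.uF = D.uF := by
    unfold uF
    rw [T.smul_algebraMap]
    congr 1
    exact D.hu ρ
  have hc : ρ • cF T = cF T := by
    unfold cF
    rw [T.smul_const, map_sub, map_one, ρ.2.2]
  unfold Z'
  rw [smul_div₀', smul_sub, smul_mul', smul_inv'', hu, T.smul_G, smul_one, hc]

theorem Z'_mem_E' : D.Z' ∈ E' T := fun ρ => D.smul_Z' ρ

/-- the deck transformation on `Z'` : `δ (1 + (ζ - 1) Z') = ζ (1 + (ζ - 1) Z')`. -/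
theorem δ_root : T.δ (1 + cF T * D.Z') = algebraMap Qb T.Fp ζ * (1 + cF T * D.Z') := by
  rw [← D.root_eq, map_mul, map_inv₀, T.δ_G]
  have : T.δ D.uF = D.uF := T.δ_algebraMap D.u
  rw [this]
  ring

end ASData

end Datum

/-! ### the change of level -/

section Up

variable {M a : ℕ} [NeZero M] [NeZero a] {p : ℕ} [hpF : Fact p.Prime]
  {A : ValuationSubring Qb} {ζ : Qb}
  {T : TameDatum M p A ζ} {T₂ : TameDatum (M * a) p A ζ}

namespace ASData

/-- **the Artin–Schreier normal form goes up along a change of level.** -/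
def up {q : ℕ} {h : ExactDvd q M} (D : ASData T h) (U : TameUpData T T₂)
    (h' : ExactDvd q (M * a)) : ASData T₂ h' where
  u := alphaB M a D.u
  g1 := alphaB M a D.g1
  hu0 := by
    rw [Ne, map_eq_zero]
    exact D.hu0
  hu := alphaB_mem_F₁ D.hu
  hg1 := alphaB_mem_F₁ D.hg1
  hg1a := (redUp_bar M a A).mem _ D.hg1a
  hg1b := (redUp_two h h').mem _ D.hg1b
  hg₀ := by
    rw [U.g₀_eq, D.hg₀, map_mul, map_pow, map_add, map_one, map_mul, AlgHom.commutes]

variable {q : ℕ} {h : ExactDvd q M} (D : ASData T h) (U : TameUpData T T₂)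
  (h' : ExactDvd q (M * a))

@[simp] theorem up_u : (D.up U h').u = alphaB M a D.u := rfl

@[simp] theorem up_g1 : (D.up U h').g1 = alphaB M a D.g1 := rfl

theorem upF_cF : U.upF (cF T) = cF T₂ := by
  unfold cF
  exact U.upF.commutes _

theorem upF_uF : U.upF D.uF = (D.up U h').uF := by
  unfold uF
  rw [U.map_algebraMap]
  rfl

/-- **the Artin–Schreier generators correspond.** -/
theorem up_Z' : U.upF D.Z' = (D.up U h').Z' := by
  unfold Z'
  rw [map_div₀, map_sub, map_mul, map_inv₀, map_one, U.map_G, upF_cF, upF_uF D U h']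

end ASData

end Up

/-! ### the instances of helper18's `TameUp` -/

section Inst

variable {M : ℕ} [NeZero M] {p : ℕ} [hpF : Fact p.Prime] {A : ValuationSubring Qb} {ζ : Qb}
  (T : TameDatum M p A ζ)

/-- helper18's `upF` as a `TameUpData` (helper47's `ModUp` abstraction). -/
def upData (a : ℕ) [NeZero a] (hdeg : ¬ p ∣ finrankAlong Qb (alphaB M a)) :
    TameUpData T (T.up a hdeg) where
  upF := upF T a hdeg
  map_algebraMap := upF_algebraMap T a hdeg
  map_G := upF_G T a hdeg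
  map_smul := upF_smul T a hdeg

variable {T}

/-- the normal form at the level `M * a`, `p ∤ [F_{Ma} : F_M]`. -/
def ASData.upOf {q : ℕ} {h : ExactDvd q M} (D : ASData T h) (a : ℕ) [NeZero a]
    (hdeg : ¬ p ∣ finrankAlong Qb (alphaB M a)) (h' : ExactDvd q (M * a)) :
    ASData (T.up a hdeg) h' :=
  D.up (upData T a hdeg) h'

/-- **the normal form at the level `4 M`** (`p ≥ 5`). -/
def ASData.upFour {q : ℕ} {h : ExactDvd q M} (D : ASData T h) (hp5 : 5 ≤ p)
    (h2 : ExactDvd q (M * 2)) (h4 : ExactDvd q (M * 2 * 2)) :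
    ASData (upFour T hp5) h4 :=
  (D.upOf 2 (not_dvd_finrankAlong_two M hp5) h2).upOf 2 (not_dvd_finrankAlong_two (M * 2) hp5) h4

theorem ASData.upFour_Z' {q : ℕ} {h : ExactDvd q M} (D : ASData T h) (hp5 : 5 ≤ p)
    (h2 : ExactDvd q (M * 2)) (h4 : ExactDvd q (M * 2 * 2)) :
    upF4 T hp5 D.Z' = (D.upFour hp5 h2 h4).Z' := by
  rw [upF4_apply]
  have e1 : upF2 T hp5 D.Z' = (D.upOf 2 (not_dvd_finrankAlong_two M hp5) h2).Z' :=
    D.up_Z' (upData T 2 (not_dvd_finrankAlong_two M hp5)) h2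
  rw [e1]
  exact (D.upOf 2 (not_dvd_finrankAlong_two M hp5) h2).up_Z'
    (upData (upTwo T hp5) 2 (not_dvd_finrankAlong_two (M * 2) hp5)) h4

end Inst

end Fermat.Agent.GF.KCover.AuxLevel.ASUp

end
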