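/-
GATE-F (S44) / GF-KCOVER-INST-AUX-ASUP, file 2 (helper48).
**The Artin–Schreier datum `ASData T` at the level `N = M' p` of the nodal frame**, from the chart
representative: helper48 `ASRep.exists_rat_rep` on an `I_A`-fixed chart, helper40
`ASFormChart.exists_asForm_chart` (`nrm g = α ^ p (1 + (ζ - 1) ^ p g1)`), helper31
`RepUnique.rep_unique` (`nrm g = T.g₀ · h ^ p`); `u := α · h⁻¹`.

* `asData_of_nrm`      : the normal form of `nrm g` moves to `T.g₀`;
* `asData_of_mem`      : `[T.g] ∈ M⁰`, `aLow = bLow = 0`, `lc_q T.g₀ = 1` ⟹ `Nonempty (ASData T h)`;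
* `asData_of_lineData` : the same in the binder context of `TropZeroT` / `NodeSupplyK`
  (binders of helper62 `DeepRepPlug.deepRep_of_lineData` VERBATIM).
-/
import Fermat.Agent.GF.KCover.AuxLevel.ASUp
import Fermat.Agent.GF.KCover.ASFormChart
import Fermat.Agent.GF.KCover.ASRep.DeepRepPlug

set_option autoImplicit false
set_option linter.unusedSectionVars false
set_option linter.unusedVariables false
set_option linter.style.haveILetI false

noncomputable section

namespace Fermat.Agent.GF.KCover.AuxLevel.ASDataChart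

open AlgebraicCurve ModularCurve IsLocalRing
open Fermat.Agent.S24 Fermat.Agent.S24_helper62 Fermat.Agent.RRh45 Fermat.Agent.RR
open Fermat.Agent.GJ.J1 Fermat.Agent.GJ.J1.Val Fermat.Agent.GJ.J1.InstGen
open Fermat.Agent.GK.UQ Fermat.Agent.GK.UTr Fermat.Agent.GK.UqKronecker
open Fermat.Agent.GJ.KumGroup Fermat.Agent.GJ.Kum Fermat.Agent.GJ.Kum.KumType
open Fermat.Agent.GK.AL Fermat.Agent.GK.MultiVal Fermat.Agent.GK.SS Fermat.Agent.GK.BallTwo
open Fermat.Agent.GS.Nodal.LSR2 Fermat.Agent.GS.Nodal.Inst Fermat.Agent.GS.Nodal.SupplyPin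
open Fermat.Agent.GS.Frame Fermat.Agent.GS.Loc2.Ker Fermat.Agent.GS.Gal.FixChart
open Fermat.Agent.GF.Shape.Plug Fermat.Agent.GF.NormDepth.Inst
open Fermat.Agent.GF.Peu Fermat.Agent.GF.KumDesc
open Fermat.Agent.GF.F2Asm.Inst Fermat.Agent.GF.F2Asm.TameSigma
open Fermat.Agent.GF.KCover.ASFormDeep Fermat.Agent.GF.KCover.ASFormNrm
open Fermat.Agent.GF.KCover.ASFormChart
open Fermat.Agent.GF.KCover.ASRep Fermat.Agent.GF.KCover.ASRep.DeepRepPlug
open Fermat.Agent.GF.KCover.Field.WDataOf Fermat.Agent.GF.KCover.Field.WDataFinal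
open Fermat.Agent.GF.KCover.AuxLevel.ASUp

local notation "GQ" => (AlgebraicClosure ℚ ≃ₐ[ℚ] AlgebraicClosure ℚ)
local notation "Qb" => AlgebraicClosure ℚ

open scoped Classical

attribute [local instance] finiteResidues_FN hasPrincipalDivisors_FN nonempty_place_FN
  isAlgClosed_res finiteResidues_Fres hasPrincipalDivisors_Fres nonempty_place_Fres

/-! ### from the normalised representative to `T.g₀` -/

section Move

variable {N : ℕ} [NeZero N] {p : ℕ} [hpF : Fact p.Prime] {A : ValuationSubring Qb} {ζ : Qb}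

/-- **the Artin–Schreier normal form of `g / lc_q g` is one of `T.g₀`**, for any `I'`-fixed `g` in
the Kummer class of `T.g` (`lc_q T.g₀ = 1`). -/
theorem asData_of_nrm (T : TameDatum N p A ζ) (hlc : (qEmb N T.g₀).leadingCoeff = 1)
    (g : pDivUnits Qb (FK N) p)
    (hcl : (Additive.ofMul (Kum.mk g) : Additive (Kum Qb (FK N) p)) =
      Additive.ofMul (Kum.mk T.g))
    (hfix : (g : (FK N)ˣ) ∈ ratUnits N (tameSet A ζ))
    {q : ℕ} (h : ExactDvd q N)
    (hrep : ∃ α : Qb, α ≠ 0 ∧ (∀ ρ : GQ, IsTameFix A ζ ρ → ρ α = α) ∧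
      ∃ g1 : FK N, g1 ∈ (redDataBar N A).Rw ∧ g1 ∈ (redData2 N A h).Rw ∧
        (∀ ρ : GQ, IsTameFix A ζ ρ →
          arithmeticRingAut (modularFunctionFieldFull N) ρ g1 = g1) ∧
        nrm N (((g : (FK N)ˣ) : FK N)) =
          algebraMap Qb (FK N) α ^ p * (1 + algebraMap Qb (FK N) ((ζ - 1) ^ p) * g1)) :
    Nonempty (ASData T h) := by
  have hp : p.Prime := hpF.out
  obtain ⟨α, hα0, hαfix, g1, hg1a, hg1b, hg1fix, hnrm⟩ := hrep
  have hfix' : ∀ ρ : GQ, IsTameFix A ζ ρ →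
      arithmeticGalois (modularFunctionFieldFull N) ρ •
        ((((nrmU g : pDivUnits Qb (FK N) p) : (FK N)ˣ) : FK N)) =
        (((nrmU g : pDivUnits Qb (FK N) p) : (FK N)ˣ) : FK N) := by
    intro ρ hρ
    have h1 := nrmU_mem_ratUnits hfix ρ hρ
    have h2 := congrArg (fun u : (FK N)ˣ => (u : FK N)) h1
    exact h2
  obtain ⟨w, hw0, hwfix, hrel⟩ := Fermat.Agent.GF.F2Asm.RepUnique.rep_unique T hlc (nrmU g)
    (by rw [mk_nrmU hp.ne_zero]; exact hcl) hfix'
    (by rw [← Laurent.lcHom_apply]; exact lc_nrmU g)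
  rw [coe_coe_nrmU] at hrel
  have hαF : algebraMap Qb (FK N) α ≠ 0 := by
    rw [Ne, map_eq_zero]
    exact hα0
  refine ⟨⟨algebraMap Qb (FK N) α * w⁻¹, g1, mul_ne_zero hαF (inv_ne_zero hw0), ?_,
    mem_F₁.mpr hg1fix, hg1a, hg1b, ?_⟩⟩
  · refine mem_F₁.mpr fun ρ hρ => ?_
    rw [map_mul, map_inv₀]
    congr 1
    · show arithmeticGalois (modularFunctionFieldFull N) ρ • algebraMap Qb (FK N) α = _
      rw [SemilinearAut.smul_algebraMap]
      congr 1
      exact hαfix ρ hρ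
    · congr 1
      exact hwfix ρ hρ
  · have hwp : w ^ p ≠ 0 := pow_ne_zero _ hw0
    have h3 : T.g₀ * w ^ p =
        algebraMap Qb (FK N) α ^ p * (1 + algebraMap Qb (FK N) ((ζ - 1) ^ p) * g1) :=
      hrel.symm.trans hnrm
    rw [mul_pow, inv_pow]
    field_simp
    linear_combination h3

end Move

/-! ### the chart representative -/

section Main

variable {N' p : ℕ} [NeZero N'] [Fact p.Prime] (h : ExactDvd p (N' * p))
  {A : ValuationSubring Qb} (hA : A.LiesOverPrime p) (hp2 : p ≠ 2) {ζ : Qb}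

set_option maxHeartbeats 1600000 in
include hA hp2 in
/-- **the Artin–Schreier datum of a tame datum whose class lies in `M⁰ ∩ Knew`**, normalised by
`lc_q T.g₀ = 1`. -/
theorem asData_of_mem
    {ι : Type} [Fintype ι] {P Q : ι → Place (ResidueField A) (FresBar (N' * p) A)} {c : ℤ} {n₀ : ℕ}
    (FF : FrameFacts (N' * p) A h P Q)
    (NH : NodalHyp (redCompatFN (N' * p) A h) P Q (CS (N' * p) h) (Dτ (N' * p) A p)
      (Dτ (N' * p) A p) (genusRR Qb (FN (N' * p))) c n₀)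
    (T : TameDatum (N' * p) p A ζ) (hlc : (qEmb (N' * p) T.g₀).leadingCoeff = 1)
    (hM : haveI : NeZero p := ⟨(Fact.out : p.Prime).ne_zero⟩
      (Additive.ofMul (Kum.mk T.g) : Additive (Kum Qb (FK (N' * p)) p)) ∈ M0Kum (N' * p) A h p)
    (h1 : aLow N' p p (Additive.ofMul (Kum.mk T.g)) = 0)
    (h2 : bLow h p (Additive.ofMul (Kum.mk T.g)) = 0) :
    Nonempty (ASData T h) := by
  have hp : p.Prime := Fact.out
  haveI : NeZero p := ⟨hp.ne_zero⟩
  haveI : Nonempty ι := nonempty_of_frameFacts (N' * p) A h hA FF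
  haveI : Infinite (ResidueField A) := IsAlgClosed.instInfinite
  obtain ⟨n, hn, 𝔠₀, -, hfixc⟩ := exists_fixed_chart_off h hA FF NH ∅
  obtain ⟨g, X, hcl, hrat, hc1, hc2, hL, -, -, -⟩ :=
    exists_rat_rep h hA FF NH hn 𝔠₀ hfixc hM (tameSet A ζ) tameSet_subset (gal_mk_tame T)
  obtain ⟨α, hα0, hαfix, g1, hg1a, hg1b, hg1fix, hnrm, -, -⟩ :=
    exists_asForm_chart h hA hp2 T.prim NH 𝔠₀ g hrat
      (by rw [hcl]; exact h1) (by rw [hcl]; exact h2) hc1 hc2 hL
  exact asData_of_nrm T hlc g hcl hrat h ⟨α, hα0, hαfix, g1, hg1a, hg1b, hg1fix, hnrm⟩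

end Main

/-! ### the `TropZeroT` / `NodeSupplyK` binder context -/

section Line

open Fermat.Agent.GF.Setup.Plane Fermat.Agent.GF.Setup.S0 Fermat.Agent.GF.Shape.Sub
open Fermat.Agent.GB.A.A6.EigQ

variable (W : WeierstrassCurve ℤ) {M' p : ℕ} [NeZero M'] [Fact p.Prime] (hpM' : ¬ p ∣ M')
  {A : ValuationSubring Qb} (hA : A.LiesOverPrime p) (hp2 : p ≠ 2) {ζ : Qb}

include hA hp2 in
/-- **`ASData T` in the binder context of `TropZeroT` / `NodeSupplyK`** (binders of helper62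
`DeepRepPlug.deepRep_of_lineData` verbatim). -/
theorem asData_of_lineData
    (hnot : ¬ W.IsResiduallyModularOfLevel p M')
    (C : Copy W p (M' * p))
    (hC : C.Y0 ≤ eigQ (M' * p) p (Sset W (M' * p) p) (hMS W (M' * p) p) (aW W))
    {ι : Type} [Fintype ι] {P Q : ι → Place (ResidueField A) (FresBar (M' * p) A)} {c : ℤ} {n₀ : ℕ}
    (FF : FrameFacts (M' * p) A (exactDvd hpM') P Q)
    (NH : NodalHyp (redCompatFN (M' * p) A (exactDvd hpM')) P Q (CS (M' * p) (exactDvd hpM'))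
      (Dτ (M' * p) A p) (Dτ (M' * p) A p) (genusRR Qb (FN (M' * p))) c n₀)
    (T : TameDatum (M' * p) p A ζ) (hlc : (qEmb (M' * p) T.g₀).leadingCoeff = 1)
    {M₀ : AddSubgroup (Additive (Kum Qb (FK (M' * p)) p))}
    (hM₀ : haveI : NeZero p := ⟨(Fact.out : p.Prime).ne_zero⟩
      M₀ ≤ M0Kum (M' * p) A (exactDvd hpM') p)
    {χ : GQ → ZMod p}
    (D : LineData (KumType.gal (M' * p) p) (A.inertiaSubgroupIn ℚ) C.Y0 M₀ χ)
    (a : ZMod p)
    (hg : (Additive.ofMul (Kum.mk T.g) : Additive (Kum Qb (FK (M' * p)) p)) = a • D.w₀) :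
    Nonempty (ASData T (exactDvd hpM')) := by
  have hp : p.Prime := Fact.out
  haveI : NeZero p := ⟨hp.ne_zero⟩
  have hY : (Additive.ofMul (Kum.mk T.g) : Additive (Kum Qb (FK (M' * p)) p)) ∈ C.Y0 := by
    rw [hg]
    exact C.Y0.smul_mem a D.mem_Y
  have hM : (Additive.ofMul (Kum.mk T.g) : Additive (Kum Qb (FK (M' * p)) p)) ∈
      M0Kum (M' * p) A (exactDvd hpM') p := by
    rw [hg, ← ZMod.natCast_zmod_val a, Nat.cast_smul_eq_nsmul]
    exact AddSubgroup.nsmul_mem _ (hM₀ D.mem_M) _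
  obtain ⟨h1, h2⟩ := knew W hpM' hnot (hC hY)
  exact asData_of_mem (exactDvd hpM') hA hp2 FF NH T hlc hM h1 h2

end Line

end Fermat.Agent.GF.KCover.AuxLevel.ASDataChart

end
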