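/-
GATE-F (S44) / RULING-9 (1)+(3) (helper61): **the `c₀`-parametric Artin–Schreier + Krull input
`ASK T h χ c₀` of the modular per-place theorem**, level-generic, and its transport along the
change of level (`T ↦ T.up a hdeg`, `upTwo`, `upFour`).

* `ASK T h χ c₀` : `∃ u g1 : FK L, u ≠ 0 ∧ u ∈ F₁ ∧ g1 ∈ F₁ ∧
    T.g₀ = u ^ p * (1 + (ζ − 1) ^ p * g1) ∧ KrullData A L h χ c₀ g1`
  — the raw AS datum of helper3's `Field/RescaleRaw` (`hu0 hu hg1 hg0` VERBATIM) together with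
  helper60's `KrullUp.KrullData` at the residue value `c₀ : k_A`;
* `ASK.up`       : `ASK T h χ c₀ → ASK (T.up a hdeg) h' χ c₀`;
* `ask_upTwo`, `ask_upFour` : the same along `upTwo`, `upFour` (the levels `M·2`, `M·2·2`).
-/
import Fermat.Agent.GF.KCover.AuxLevel.AuxTop
import Fermat.Agent.GF.KCover.ASNode.KrullUp

set_option autoImplicit false
set_option linter.unusedSectionVars false
set_option linter.unusedVariables false

noncomputable section

open Polynomial AlgebraicCurve ModularCurve IntermediateField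

namespace Fermat.Agent.GF.KCover.AuxLevel.ASKDef

open Fermat.Agent.GJ.J1 Fermat.Agent.GJ.J1.Val Fermat.Agent.S24 Fermat.Agent.GF.Trop
open Fermat.Agent.GJ.KumGroup Fermat.Agent.GJ.Kum.KumType Fermat.Agent.GJ.HN
open Fermat.Agent.GK.UTr Fermat.Agent.GK.SS Fermat.Agent.GK.UqKronecker Fermat.Agent.GK.AL
open Fermat.Agent.GB.A.Desc Fermat.Agent.GB.A.FP
open Fermat.Agent.GF.KCover Fermat.Agent.GF.KCover.Compl
open Fermat.Agent.GF.KCover.Field Fermat.Agent.GF.KCover.Field.Disc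
open Fermat.Agent.GF.KCover.Field.WDataOf Fermat.Agent.GF.KCover.Field.WDataFinal
open Fermat.Agent.GF.F2Asm Fermat.Agent.GF.F2Asm.KummerExt Fermat.Agent.GF.F2Asm.Inst
open Fermat.Agent.GF.KCover.AuxLevel Fermat.Agent.GF.KCover.AuxLevel.TameUp
open Fermat.Agent.GF.KCover.ASNode.KrullUp

local notation "GQ" => (AlgebraicClosure ℚ ≃ₐ[ℚ] AlgebraicClosure ℚ)

variable {L : ℕ} [NeZero L] {p : ℕ} [hpF : Fact p.Prime] {A : ValuationSubring Kb} {ζ : Kb}

/-- **the `c₀`-parametric AS + Krull input of the per-place theorem** (RULING-9 (1)). -/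
def ASK (T : TameDatum L p A ζ) {q : ℕ} (h : ExactDvd q L) {Mg : Type*} [Group Mg]
    (χ : GQ →* Mg) (c₀ : IsLocalRing.ResidueField A) : Prop :=
  ∃ u g1 : FK L, u ≠ 0 ∧ u ∈ F₁ L A ζ ∧ g1 ∈ F₁ L A ζ ∧
    T.g₀ = u ^ p * (1 + algebraMap Kb (FK L) ((ζ - 1) ^ p) * g1) ∧
    KrullData A L h χ c₀ g1

section Up

variable {M : ℕ} [NeZero M] {q : ℕ} {Mg : Type*} [Group Mg] {χ : GQ →* Mg}
  {c₀ : IsLocalRing.ResidueField A}

/-- **`ASK` goes up along `alphaB M a`.** -/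
theorem ASK.up {T : TameDatum M p A ζ} {h : ExactDvd q M} (a : ℕ) [NeZero a]
    (hdeg : ¬ p ∣ finrankAlong Kb (alphaB M a)) (h' : ExactDvd q (M * a))
    (H : ASK T h χ c₀) : ASK (T.up a hdeg) h' χ c₀ := by
  obtain ⟨u, g1, hu0, hu, hg1, hg0, hK⟩ := H
  refine ⟨alphaB M a u, alphaB M a g1, ?_, alphaB_mem_F₁ hu, alphaB_mem_F₁ hg1, ?_, hK.up⟩
  · rw [Ne, map_eq_zero]
    exact hu0
  · rw [up_g₀, hg0, map_mul, map_pow, map_add, map_one, map_mul, AlgHom.commutes]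

/-- `ASK` at the level `M · 2`. -/
theorem ask_upTwo {T : TameDatum M p A ζ} {h : ExactDvd q M} (hp5 : 5 ≤ p)
    (h' : ExactDvd q (M * 2)) (H : ASK T h χ c₀) : ASK (upTwo T hp5) h' χ c₀ :=
  ASK.up 2 (not_dvd_finrankAlong_two M hp5) h' H

/-- **`ASK` at the level `M · 2 · 2`.** -/
theorem ask_upFour {T : TameDatum M p A ζ} {h : ExactDvd q M} (hp5 : 5 ≤ p)
    (h' : ExactDvd q (M * 2)) (h'' : ExactDvd q (M * 2 * 2)) (H : ASK T h χ c₀) :
    ASK (upFour T hp5) h'' χ c₀ :=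
  ask_upTwo (T := upTwo T hp5) (h := h') hp5 h'' (ask_upTwo hp5 h' H)

/-- the `∀ c₀` form consumed by the per-place theorem. -/
theorem ask_upFour_all {T : TameDatum M p A ζ} {h : ExactDvd q M} (hp5 : 5 ≤ p)
    (h' : ExactDvd q (M * 2)) (h'' : ExactDvd q (M * 2 * 2))
    (H : ∀ c₀ : IsLocalRing.ResidueField A, ASK T h χ c₀) :
    ∀ c₀ : IsLocalRing.ResidueField A, ASK (upFour T hp5) h'' χ c₀ :=
  fun c₀ => ask_upFour hp5 h' h'' (H c₀)

end Up

end Fermat.Agent.GF.KCover.AuxLevel.ASKDef
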