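/-
GATE-F (S44) / GF-KCOVER-INST-AUX (helper47), file 10 = (AUX-SUPPLY): **the `∃`-block of helper31's
`F2Plug.NodeSupply` from `NLAll`.**

* `supply_of_nlAll` : `NLAll T h` + the nodes `P s` are finite places (`0 ≤ ord_{P s} τ`,
  `FrameFacts.offP` via `GF/Eis/Final.hoff_of_frameFacts`) ⟹ the block
  `∃ as bs R1 hun1 hext, ∀ s j, ∀ y ∈ Us T, w₁ (j + as s) y = 0 → w₂ (j + bs s) y = 0 →
     p ∣ nodeOrd (R1 (j + as s)) _ (P s) _ y` for GIVEN roots `γ₁ γ₂`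
  (`R1 k` = helper19's `sheetK` on the first Gauss valuation);
* `nodeSupply_block` : the whole `∃`-block (`γ₁ γ₂` included) from deep representatives at level
  `N` (N1) and `NLAll` at the level `N·2·2` (N4 at the level where every node has thickness one).
-/
import Fermat.Agent.GF.KCover.AuxLevel.AuxTop
import Fermat.Agent.GK.CuspSep.Witness

set_option autoImplicit false
set_option linter.unusedSectionVars false
set_option linter.unusedVariables false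

noncomputable section

open Polynomial AlgebraicCurve ModularCurve IntermediateField

namespace Fermat.Agent.GF.KCover.AuxLevel

open Fermat.Agent.GJ.J1 Fermat.Agent.GJ.J1.Val Fermat.Agent.S24 Fermat.Agent.GF.Trop
open Fermat.Agent.GJ.KumGroup Fermat.Agent.GJ.Kum.KumType Fermat.Agent.GJ.HN
open Fermat.Agent.GK.UTr Fermat.Agent.GK.SS Fermat.Agent.GK.UqKronecker Fermat.Agent.GK.AL
open Fermat.Agent.GK.CuspSep
open Fermat.Agent.GB.A.Desc Fermat.Agent.GB.A.FP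
open Fermat.Agent.GF.KCover Fermat.Agent.GF.KCover.Compl
open Fermat.Agent.GF.KCover.Compl.RedCompl Fermat.Agent.GF.KCover.Compl.Bridge
open Fermat.Agent.GF.KCover.Node.OrdRedExt
open Fermat.Agent.GF.KCover.Field Fermat.Agent.GF.KCover.Field.Disc
open Fermat.Agent.GF.KCover.Field.WDataOf Fermat.Agent.GF.KCover.Field.WDataFinal
open Fermat.Agent.GF.F2Asm Fermat.Agent.GF.F2Asm.KummerExt Fermat.Agent.GF.F2Asm.Inst
open Fermat.Agent.GF.KCover.AuxLevel.TameUp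

attribute [local instance] Fermat.Agent.GF.KCover.Field.WDataOf.actFK
attribute [local instance] Fermat.Agent.GF.KCover.Field.WDataOf.algE'

variable {N : ℕ} [NeZero N] {p : ℕ} [hpF : Fact p.Prime] {A : ValuationSubring Kb} {ζ : Kb}

local notation "𝕜" => IsLocalRing.ResidueField A

/-- `τ = j~`. -/
theorem tauF_eq_jt : tauF N A = Fermat.Agent.GK.QS.jt N A := rfl

/-- **the NL part of the `∃`-block of `NodeSupply` from `NLAll`**, for given roots. -/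
theorem supply_of_nlAll (T : TameDatum N p A ζ) (h : ExactDvd p N) (hA : (p : Kb) ∈ A.nonunits)
    (hD₁ : IsDisc (valF₁ T (galVal1 N A)) (ϖ₁ T))
    (hD₂ : IsDisc (valF₁ T (galVal2 N A h)) (ϖ₁ T))
    {γ₁ : Pack.Lc hD₁} (hγ₁ : γ₁ ^ p = Pack.jc hD₁ (g₁ T))
    {γ₂ : Pack.Lc hD₂} (hγ₂ : γ₂ ^ p = Pack.jc hD₂ (g₁ T))
    (H : NLAll T h) {ι : Type} (P : ι → Place 𝕜 (FresBar N A))
    (hoff : ∀ s, 0 ≤ (P s).ord (tauF N A)) :
    ∃ (as bs : ι → ZMod p) (R1 : ZMod p → RedData Kb T.Fp 𝕜 (FresBar N A))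
      (hun1 : ∀ i, Unram (R1 i)) (_ : ∀ i, RedExt (redDataBar N A) (R1 i)),
      ∀ (s : ι) (j : ZMod p), ∀ y ∈ UsInst.Us T,
        (wData T hA hD₁ hD₂ hγ₁ hγ₂).w₁ (j + as s) y = 0 →
        (wData T hA hD₁ hD₂ hγ₁ hγ₂).w₂ (j + bs s) y = 0 →
        (p : ℤ) ∣ nodeOrd (R1 (j + as s)) (hun1 (j + as s)) (P s)
          (fixedUnits (tameGroup A ζ) T.Fp) y := by
  have hP : ∀ s, Fermat.Agent.GK.QS.jt N A ∈ (P s).toValuationSubring := fun s =>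
    (Fermat.Agent.GJ.J1.PlaceLattice.ord_nonneg_iff_mem (P s) _).1 (hoff s)
  have Hs := fun s => H hD₁ hD₂ (harch₁ T hA) γ₁ hγ₁ γ₂ hγ₂ (P s) (hP s)
  choose as bs hab using Hs
  refine ⟨as, bs,
    fun i => TameUpData.sheetT T (redDataBar N A) (fun _ => rfl) hD₁ (harch₁ T hA) hγ₁ i,
    fun i => unram_sheetK _ _ _ _ _ _ _ _ (galVal1 N A).unram i,
    fun i => redExt_sheetK _ _ _ _ _ _ _ _ i, ?_⟩
  intro s j y hy h1 h2
  exact hab s j _ y hy h1 h2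

/-- **the whole `∃`-block of `NodeSupply`** from deep representatives at level `N` and `NLAll` at
the level `N·2·2`. -/
theorem nodeSupply_block (T : TameDatum N p A ζ) (hp5 : 5 ≤ p) (h : ExactDvd p N)
    (hA : (p : Kb) ∈ A.nonunits)
    (hdeep₁ : DeepRep T (galVal1 N A)) (hdeep₂ : DeepRep T (galVal2 N A h))
    (H4 : NLAll (upFour T hp5)
      (exactDvd_mul_two (exactDvd_mul_two h (by omega : p ≠ 2)) (by omega : p ≠ 2)))
    (hD₁ : IsDisc (valF₁ T (galVal1 N A)) (ϖ₁ T))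
    (hD₂ : IsDisc (valF₁ T (galVal2 N A h)) (ϖ₁ T))
    {ι : Type} (P : ι → Place 𝕜 (FresBar N A)) (hoff : ∀ s, 0 ≤ (P s).ord (tauF N A)) :
    ∃ (γ₁ : Pack.Lc hD₁) (γ₂ : Pack.Lc hD₂) (hγ₁ : γ₁ ^ p = Pack.jc hD₁ (g₁ T))
      (hγ₂ : γ₂ ^ p = Pack.jc hD₂ (g₁ T)) (as bs : ι → ZMod p)
      (R1 : ZMod p → RedData Kb T.Fp 𝕜 (FresBar N A))
      (hun1 : ∀ i, Unram (R1 i)) (_ : ∀ i, RedExt (redDataBar N A) (R1 i)),
      ∀ (s : ι) (j : ZMod p), ∀ y ∈ UsInst.Us T,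
        (wData T hA hD₁ hD₂ hγ₁ hγ₂).w₁ (j + as s) y = 0 →
        (wData T hA hD₁ hD₂ hγ₁ hγ₂).w₂ (j + bs s) y = 0 →
        (p : ℤ) ∣ nodeOrd (R1 (j + as s)) (hun1 (j + as s)) (P s)
          (fixedUnits (tameGroup A ζ) T.Fp) y := by
  obtain ⟨hr1, hr2⟩ := hasRoots_of_deepRep T h hA hdeep₁ hdeep₂
  obtain ⟨γ₁, hγ₁⟩ := hr1 hD₁
  obtain ⟨γ₂, hγ₂⟩ := hr2 hD₂
  have H := nlAll_of_four_of_deepRep T hp5 h hA hA hdeep₁ hdeep₂ H4
  obtain ⟨as, bs, R1, hun1, hext, hNL⟩ := supply_of_nlAll T h hA hD₁ hD₂ hγ₁ hγ₂ H P hoff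
  exact ⟨γ₁, γ₂, hγ₁, hγ₂, as, bs, R1, hun1, hext, hNL⟩

end Fermat.Agent.GF.KCover.AuxLevel
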