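/-
GATE-F (S44) / GF-KCOVER-INST-AUX (helper47), file 11 = (AUX-PLUG): **helper31's
`F2Plug.NodeSupply Dcl` from TWO named statements** in the `NodeSupply` context:

* `DeepSupply Dcl`  (N1): the tame datum `T` of the context has deep `K'`-rational representatives
  at the two Gauss valuations (`WDataFinal.DeepRep`);
* `NL4Supply Dcl`   (N4): `NLAll` for the datum `upFour T hp5` at the level `M'·p·2·2` (where
  `nuTwo = nuThree = 0`: every node ring has thickness one) — the output of `nl_node` stage 2 +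
  `SheetMeet` at that level.

`nodeSupply_of_aux : DeepSupply Dcl → NL4Supply Dcl → NodeSupply Dcl`.
-/
import Fermat.Agent.GF.KCover.AuxLevel.AuxSupply
import Fermat.Agent.GF.F2Asm.F2Plug
import Fermat.Agent.GF.Eis.Final

set_option autoImplicit false
set_option linter.unusedSectionVars false
set_option linter.unusedVariables false

noncomputable section

namespace Fermat.Agent.GF.KCover.AuxLevel

open AlgebraicCurve IntermediateField Module IsLocalRing ModularCurve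
open Fermat.Agent.Common_helper32
open Fermat.Agent.S24 Fermat.Agent.S24_helper62 Fermat.Agent.RRh45 Fermat.Agent.RR
open Fermat.Agent.GJ.J1 Fermat.Agent.GJ.J1.Val Fermat.Agent.GJ.J1.InstGen
open Fermat.Agent.GK.MultiVal Fermat.Agent.GK.BallTwo Fermat.Agent.GK.NodalGraded
open Fermat.Agent.GS.Nodal.LSR2 Fermat.Agent.GS.Nodal.Inst Fermat.Agent.GS.Nodal.ROfSurj2
open Fermat.Agent.GJ Fermat.Agent.GJ.KumGroup Fermat.Agent.GJ.Kum.KumType
open Fermat.Agent.GJ.CycChar Fermat.Agent.GB.A.A6.ECDet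
open Fermat.Agent.GK.UQ Fermat.Agent.GK.New Fermat.Agent.GK.AL Fermat.Agent.GK.UqKronecker
open Fermat.Agent.GK.SS
open Fermat.Agent.GL.Eta Fermat.Agent.GK.CuspSep
open Fermat.Agent.GB.A.A6.EigQ
open Fermat.Agent.GF.Setup.Plane Fermat.Agent.GF.Setup.S0 Fermat.Agent.GF.Shape.Sub
open Fermat.Agent.GF.Shape.Plug Fermat.Agent.GF.Trop Fermat.Agent.GF.Peu Fermat.Agent.GF.ETate
open Fermat.Agent.GF.Top.S44TopOrd
open Fermat.Agent.GF.Top.Provider44T Fermat.Agent.GF.Top.Provider44D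
open Fermat.Agent.GF.KCover Fermat.Agent.GF.F2Asm.Inst Fermat.Agent.GF.F2Asm.NRAsm
open Fermat.Agent.GF.F2Asm.OmegaProj
open Fermat.Agent.GF.F2Asm.UsInst Fermat.Agent.GF.F2Asm.EtaUnit Fermat.Agent.GF.F2Asm.EtaUnitW
open Fermat.Agent.GF.KCover.Field Fermat.Agent.GF.KCover.Field.Disc
open Fermat.Agent.GF.KCover.Field.WDataOf Fermat.Agent.GF.KCover.Node.OrdRedExt
open Fermat.Agent.GF.KCover.Field.WDataFinal
open Fermat.Agent.GF.F2Asm.F2Plug Fermat.Agent.GF.KCover.AuxLevel.TameUp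
open Fermat.Agent.GB.A.Desc

attribute [local instance] finiteResidues_FN hasPrincipalDivisors_FN nonempty_place_FN
  isAlgClosed_res finiteResidues_Fres hasPrincipalDivisors_Fres nonempty_place_Fres

/-- the common context of `NodeSupply`, packaged as a predicate on the final data: a statement
`Φ` about `(p, hp5, M', hpM', A, T)` holds for every tame datum arising in `NodeSupply`. -/
def InNodeCtx (Dcl : FrameClause)
    (Φ : ∀ (p : ℕ) [Fact p.Prime] (_ : 5 ≤ p) (M' : ℕ) [NeZero M'] (hpM' : ¬ p ∣ M')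
      (A : ValuationSubring Kbar) (_ : A.LiesOverPrime p) (ζ : Kb)
      (_ : TameDatum (M' * p) p A ζ), Prop) : Prop :=
  ∀ (W : WeierstrassCurve ℤ) (_ : W.Δ ≠ 0) (p : ℕ) [Fact p.Prime] (hp5 : 5 ≤ p)
    (_ : W.IsSemistableModel) (_ : (p : ℤ) ∣ W.Δ)
    (_ : (W.map (Int.castRingHom ℚ)).IsPeuRamifieeAt p p)
    (_ : W.ModRepIsIrreducible p)
    (_ : OrdAt W p)
    (M' : ℕ) [NeZero M'] (hpM' : ¬ p ∣ M')
    (C : Copy W p (M' * p))
    (A : ValuationSubring Kbar) (hA : A.LiesOverPrime p) (_ : A = padicPlace p)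
    (ι : Type) [Fintype ι]
    (P Q : ι → Place (ResidueField A) (FresBar (M' * p) A)) (c : ℤ) (n₀ : ℕ)
    (_ : FrameFacts (M' * p) A (exactDvd hpM') P Q)
    (_ : NodalHyp (redCompatFN (M' * p) A (exactDvd hpM')) P Q (CS (M' * p) (exactDvd hpM'))
      (Dτ (M' * p) A p) (Dτ (M' * p) A p) (genusRR Kbar (FN (M' * p))) c n₀)
    (_ : Dcl p M' hpM' A ι P Q)
    (ζ : Kb) (_ : KummerUnit W p A ζ)
    (D : LineData (gal (M' * p) p) (A.inertiaSubgroupIn ℚ) C.Y0
      (M0Kum (M' * p) A (exactDvd hpM') p) (fun σ => ((cyc p σ : (ZMod p)ˣ) : ZMod p)))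
    (T : TameDatum (M' * p) p A ζ)
    (_ : (Additive.ofMul (Kum.mk T.g) : Additive (Kum Kb (FK (M' * p)) p)) =
      (-1 : ZMod p) • D.w₀)
    (_ : (qEmb (M' * p) T.g₀).leadingCoeff = 1)
    (_ : ∀ σ ∈ A.inertiaSubgroupIn ℚ, ∃ h : FK (M' * p), h ≠ 0 ∧
        (∀ τ ∈ A.inertiaSubgroupIn ℚ, cyc p τ = 1 →
          arithmeticRingAut (modularFunctionFieldFull (M' * p)) τ h = h) ∧
        arithmeticRingAut (modularFunctionFieldFull (M' * p)) σ T.g₀ =
          T.g₀ ^ rep (cyc p σ) * h ^ p),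
    Φ p hp5 M' hpM' A hA ζ T

/-- (N1) the deep representatives of the `T` of the context. -/
def DeepSupply (Dcl : FrameClause) : Prop :=
  InNodeCtx Dcl fun p _ _ M' _ hpM' A _ ζ T =>
    DeepRep T (galVal1 (M' * p) A) ∧ DeepRep T (galVal2 (M' * p) A (exactDvd hpM'))

/-- (N4) the node lemma at all finite places of the level `M'·p·2·2` for `upFour T`. -/
def NL4Supply (Dcl : FrameClause) : Prop :=
  InNodeCtx Dcl fun p _ hp5 M' _ hpM' A _ ζ T =>
    NLAll (upFour T hp5)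
      (exactDvd_mul_two (exactDvd_mul_two (exactDvd hpM') (by omega : p ≠ 2))
        (by omega : p ≠ 2))

/-- **`NodeSupply` from (N1) at level `N` and (N4) at level `N·2·2`.** -/
theorem nodeSupply_of_aux (Dcl : FrameClause) (H1 : DeepSupply Dcl) (H4 : NL4Supply Dcl) :
    NodeSupply Dcl := by
  intro W hΔ p _ hp5 hss hmult hpeu hirr hord M' _ hpM' C A hA hAp ι _ P Q c n₀ FF NH hd ζ hKU D T
    hg hlc hσ hD₁ hD₂
  haveI : NeZero p := ⟨(Fact.out : p.Prime).ne_zero⟩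
  obtain ⟨hdeep₁, hdeep₂⟩ :=
    H1 W hΔ p hp5 hss hmult hpeu hirr hord M' hpM' C A hA hAp ι P Q c n₀ FF NH hd ζ hKU D T hg
      hlc hσ
  have h4 := H4 W hΔ p hp5 hss hmult hpeu hirr hord M' hpM' C A hA hAp ι P Q c n₀ FF NH hd ζ hKU D
    T hg hlc hσ
  exact nodeSupply_block T hp5 (exactDvd hpM') hA hdeep₁ hdeep₂ h4 hD₁ hD₂ P
    (fun s => Fermat.Agent.GF.Eis.Final.hoff_of_frameFacts M' A (exactDvd hpM') FF s)

end Fermat.Agent.GF.KCover.AuxLevel
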