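/-
GATE-F (S44) / GF-KCOVER-INST-AUX-J (helper18): **the two-step descent `M·2·2 → M·2 → M` of the node
lemma, in the spelling of `F2PlugK.NLSupplyK`.**

`T : TameDatum M p A ζ`, `p ∥ M`, `5 ≤ p`, with the data of the `∀`-block of `NLSupplyK` at the level
`M` (the `IsDisc` records `hD₁ hD₂`, the GIVEN roots `γ₁ γ₂`) and one deep representative per Gauss
valuation (`F2PlugK.deepSupplyK`).  `NLAt T hA h hD₁ hD₂ hγ₁ hγ₂ Pl k k'` is the NL clause at the place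
`Pl` for the sheets `(k, k')`, on helper19's `SheetsMod.sheet₁` (`wOf = (wData …).w_i` by `rfl`).

* `nlAt_step` : ONE change of level `M → M a` (`p ∤ [F_{Ma} : F_M]`): the `IsDisc` records and roots
  at the level `M a` (compatible with the given ones: `HypUp.exists_root_i_up` +
  `ModUp.exists_root_compat`) such that `NLAt` at ANY place `Pl'` above `Pl` with ramification index
  prime to `p` implies `NLAt` at `Pl` (`ModUp.nl_of_up`);
* **`exists_four_descent`** : for EVERY place `Pl` of level `M` a place `Pl''` of level `M·2·2` above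
  it, `IsDisc` records and roots for `upFour T hp5`, such that for all sheets `(k, k')`
  `NLAt (upFour T hp5) … Pl'' k k' → NLAt T … Pl k k'`.

So the per-node clause of `NLSupplyK` at the level `M = M' p` follows from the modular `nl_node` at
the level `M·2·2` (where every node ring has thickness one) at the ONE place `Pl''`.
-/
import Fermat.Agent.GF.KCover.AuxLevel.HypUp
import Fermat.Agent.GF.KCover.Compl.SheetsMod

set_option autoImplicit false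
set_option linter.unusedSectionVars false
set_option linter.unusedVariables false

noncomputable section

namespace Fermat.Agent.GF.KCover.AuxLevel.FourDown

open AlgebraicCurve ModularCurve Polynomial IntermediateField
open Fermat.Agent.GJ Fermat.Agent.GJ.HN Fermat.Agent.GJ.J1 Fermat.Agent.GJ.J1.Val
open Fermat.Agent.GJ.KumGroup Fermat.Agent.GJ.Kum.KumType
open Fermat.Agent.GK.UTr Fermat.Agent.GK.SS Fermat.Agent.GK.AL Fermat.Agent.GK.UqKronecker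
open Fermat.Agent.GB.A.Desc Fermat.Agent.GB.A.FP
open Fermat.Agent.GF.Trop
open Fermat.Agent.GF.F2Asm Fermat.Agent.GF.F2Asm.KummerExt Fermat.Agent.GF.F2Asm.Inst
open Fermat.Agent.GF.KCover
open Fermat.Agent.GF.KCover.Field Fermat.Agent.GF.KCover.Field.Disc
open Fermat.Agent.GF.KCover.Field.WDataOf Fermat.Agent.GF.KCover.Field.WDataFinal
open Fermat.Agent.GF.KCover.Node.OrdRedExt
open Fermat.Agent.GF.KCover.Compl.SheetsMod
open Fermat.Agent.GF.KCover.AuxLevel Fermat.Agent.GF.KCover.AuxLevel.TameUp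
open Fermat.Agent.GF.KCover.AuxLevel.HypUp

local notation "GQ" => (AlgebraicClosure ℚ ≃ₐ[ℚ] AlgebraicClosure ℚ)

attribute [local instance] Fermat.Agent.GF.KCover.Field.WDataOf.actFK
attribute [local instance] Fermat.Agent.GF.KCover.Field.WDataOf.algE'

variable {M : ℕ} [NeZero M] {p : ℕ} [hpF : Fact p.Prime] {A : ValuationSubring Kb} {ζ : Kb}

/-- **the NL clause of `F2PlugK.NLSupplyK` at one place `Pl` and one pair of sheets `(k, k')`**, with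
`R1 i := SheetsMod.sheet₁ T hA hD₁ hγ₁ i`. -/
def NLAt (T : TameDatum M p A ζ) (hA : (p : Kb) ∈ A.nonunits) {q : ℕ} (h : ExactDvd q M)
    (hD₁ : IsDisc (valF₁ T (galVal1 M A)) (ϖ₁ T))
    (hD₂ : IsDisc (valF₁ T (galVal2 M A h)) (ϖ₁ T))
    {γ₁ : Pack.Lc hD₁} (hγ₁ : γ₁ ^ p = Pack.jc hD₁ (g₁ T))
    {γ₂ : Pack.Lc hD₂} (hγ₂ : γ₂ ^ p = Pack.jc hD₂ (g₁ T))
    (Pl : Place (IsLocalRing.ResidueField A) (FresBar M A)) (k k' : ZMod p) : Prop :=
  ∀ y ∈ UsInst.Us T, wOf T hD₁ hγ₁ k y = 0 → wOf T hD₂ hγ₂ k' y = 0 →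
    (p : ℤ) ∣ nodeOrd (sheet₁ T hA hD₁ hγ₁ k) (unram_sheet₁ T hA hD₁ hγ₁ k) Pl
      (fixedUnits (tameGroup A ζ) T.Fp) y

/-- `NLAt` in the `wData` spelling of `NLSupplyK` (`rfl`). -/
theorem nlAt_iff_wData (T : TameDatum M p A ζ) (hA : (p : Kb) ∈ A.nonunits) {q : ℕ}
    (h : ExactDvd q M)
    (hD₁ : IsDisc (valF₁ T (galVal1 M A)) (ϖ₁ T))
    (hD₂ : IsDisc (valF₁ T (galVal2 M A h)) (ϖ₁ T))
    {γ₁ : Pack.Lc hD₁} (hγ₁ : γ₁ ^ p = Pack.jc hD₁ (g₁ T))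
    {γ₂ : Pack.Lc hD₂} (hγ₂ : γ₂ ^ p = Pack.jc hD₂ (g₁ T))
    (Pl : Place (IsLocalRing.ResidueField A) (FresBar M A)) (k k' : ZMod p) :
    NLAt T hA h hD₁ hD₂ hγ₁ hγ₂ Pl k k' ↔
      ∀ y ∈ UsInst.Us T, (wData T hA hD₁ hD₂ hγ₁ hγ₂).w₁ k y = 0 →
        (wData T hA hD₁ hD₂ hγ₁ hγ₂).w₂ k' y = 0 →
        (p : ℤ) ∣ nodeOrd (sheet₁ T hA hD₁ hγ₁ k) (unram_sheet₁ T hA hD₁ hγ₁ k) Pl
          (fixedUnits (tameGroup A ζ) T.Fp) y :=
  Iff.rfl

/-! ### one change of level -/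

/-- **one step `M → M a`**: compatible `IsDisc` records and roots at the level `M a` such that `NLAt`
descends from ANY place above `Pl` with ramification index prime to `p`. -/
theorem nlAt_step (T : TameDatum M p A ζ) (a : ℕ) [NeZero a]
    (hdeg : ¬ p ∣ finrankAlong Kb (alphaB M a)) (hA : (p : Kb) ∈ A.nonunits) {q : ℕ}
    (h : ExactDvd q M) (h' : ExactDvd q (M * a))
    (hdeep₁ : DeepRep T (galVal1 M A)) (hdeep₂ : DeepRep T (galVal2 M A h))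
    (hD₁ : IsDisc (valF₁ T (galVal1 M A)) (ϖ₁ T))
    (hD₂ : IsDisc (valF₁ T (galVal2 M A h)) (ϖ₁ T))
    {γ₁ : Pack.Lc hD₁} (hγ₁ : γ₁ ^ p = Pack.jc hD₁ (g₁ T))
    {γ₂ : Pack.Lc hD₂} (hγ₂ : γ₂ ^ p = Pack.jc hD₂ (g₁ T)) :
    ∃ (hD₁' : IsDisc (valF₁ (T.up a hdeg) (galVal1 (M * a) A)) (ϖ₁ (T.up a hdeg)))
      (hD₂' : IsDisc (valF₁ (T.up a hdeg) (galVal2 (M * a) A h')) (ϖ₁ (T.up a hdeg)))
      (γ₁' : Pack.Lc hD₁') (γ₂' : Pack.Lc hD₂')
      (hγ₁' : γ₁' ^ p = Pack.jc hD₁' (g₁ (T.up a hdeg)))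
      (hγ₂' : γ₂' ^ p = Pack.jc hD₂' (g₁ (T.up a hdeg))),
      ∀ (Pl : Place (IsLocalRing.ResidueField A) (FresBar M A))
        (Pl' : Place (IsLocalRing.ResidueField A) (FresBar (M * a) A)) (e : ℤ),
        (∀ x : FresBar M A, x ≠ 0 →
          Pl'.ord ((inclusion (FresBar_le_level M a A)).toRingHom x) = e * Pl.ord x) →
        IsCoprime (p : ℤ) e → ∀ k k' : ZMod p,
        NLAt (T.up a hdeg) hA h' hD₁' hD₂' hγ₁' hγ₂' Pl' k k' →
          NLAt T hA h hD₁ hD₂ hγ₁ hγ₂ Pl k k' := by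
  obtain ⟨γ₀₁, hγ₀₁⟩ := exists_root₁_up T a hdeg hA hdeep₁
  obtain ⟨γ₀₂, hγ₀₂⟩ := exists_root₂_up T a hdeg hA h h' hdeep₂
  obtain ⟨γ₁', hγ₁', hγγ₁⟩ := TameUpData.exists_root_compat (redUp_bar M a A)
    (Fermat.Agent.GS.F.unram_redDataBar (M * a) A) (fun _ => rfl) (fun _ => rfl) hD₁
    (WDataFinal.isDisc₁ (T.up a hdeg) hA) (harch₁ T hA) (harch₁ (T.up a hdeg) hA) hγ₁
    (tameUpData T a hdeg) hγ₀₁
  obtain ⟨γ₂', hγ₂', hγγ₂⟩ := TameUpData.exists_root_compat (redUp_two h h')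
    (Fermat.Agent.GS.F.unram_redData2 (M * a) A h') (fun _ => rfl) (fun _ => rfl) hD₂
    (WDataFinal.isDisc₂ (T.up a hdeg) hA h') (harch₂ T h hA) (harch₂ (T.up a hdeg) h' hA) hγ₂
    (tameUpData T a hdeg) hγ₀₂
  refine ⟨WDataFinal.isDisc₁ (T.up a hdeg) hA, WDataFinal.isDisc₂ (T.up a hdeg) hA h', γ₁', γ₂',
    hγ₁', hγ₂', fun Pl Pl' e hord hcop k k' NL' => ?_⟩
  exact TameUpData.nl_of_up (tameUpData T a hdeg) h h'
    (Fermat.Agent.GS.F.unram_redDataBar (M * a) A) (Fermat.Agent.GS.F.unram_redData2 (M * a) A h')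
    hD₁ (WDataFinal.isDisc₁ (T.up a hdeg) hA) (harch₁ T hA) (harch₁ (T.up a hdeg) hA) hγ₁ hγ₁' hγγ₁
    hD₂ (WDataFinal.isDisc₂ (T.up a hdeg) hA h') (harch₂ T h hA) (harch₂ (T.up a hdeg) h' hA)
    hγ₂ hγ₂' hγγ₂ hord hcop k k' (unram_sheet₁ T hA hD₁ hγ₁ k)
    (unram_sheet₁ (T.up a hdeg) hA (WDataFinal.isDisc₁ (T.up a hdeg) hA) hγ₁' k) NL'

/-! ### the two steps `M → M·2 → M·2·2` -/

theorem isCoprime_of_le_three (hp5 : 5 ≤ p) {e : ℕ} (he0 : 0 < e) (he3 : e ≤ 3) :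
    IsCoprime (p : ℤ) (e : ℤ) := by
  have h1 : Nat.Coprime e p := coprime_of_le_three (m := p) (fun r hr hrp => by
    rw [(Nat.prime_dvd_prime_iff_eq hr hpF.out).1 hrp]
    exact hp5) he0 he3
  exact (Nat.isCoprime_iff_coprime.2 h1).symm

/-- **the two-step descent**: for every place `Pl` of the level `M` there are a place `Pl''` of the
level `M·2·2` above it and `IsDisc` records / roots for `upFour T hp5` such that the NL clause at
`Pl''` (any pair of sheets) implies the NL clause at `Pl` for the GIVEN roots `γ₁ γ₂`. -/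
theorem exists_four_descent (T : TameDatum M p A ζ) (hp5 : 5 ≤ p) (hA : A.LiesOverPrime p)
    (h : ExactDvd p M)
    (hdeep₁ : DeepRep T (galVal1 M A)) (hdeep₂ : DeepRep T (galVal2 M A h))
    (hD₁ : IsDisc (valF₁ T (galVal1 M A)) (ϖ₁ T))
    (hD₂ : IsDisc (valF₁ T (galVal2 M A h)) (ϖ₁ T))
    {γ₁ : Pack.Lc hD₁} (hγ₁ : γ₁ ^ p = Pack.jc hD₁ (g₁ T))
    {γ₂ : Pack.Lc hD₂} (hγ₂ : γ₂ ^ p = Pack.jc hD₂ (g₁ T))
    (Pl : Place (IsLocalRing.ResidueField A) (FresBar M A)) :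
    ∃ (Pl'' : Place (IsLocalRing.ResidueField A) (FresBar (M * 2 * 2) A))
      (hD₁'' : IsDisc (valF₁ (upFour T hp5) (galVal1 (M * 2 * 2) A)) (ϖ₁ (upFour T hp5)))
      (hD₂'' : IsDisc (valF₁ (upFour T hp5) (galVal2 (M * 2 * 2) A (exactDvd_four h hp5)))
        (ϖ₁ (upFour T hp5)))
      (γ₁'' : Pack.Lc hD₁'') (γ₂'' : Pack.Lc hD₂'')
      (hγ₁'' : γ₁'' ^ p = Pack.jc hD₁'' (g₁ (upFour T hp5)))
      (hγ₂'' : γ₂'' ^ p = Pack.jc hD₂'' (g₁ (upFour T hp5))),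
      (∀ x : FresBar M A, inclusion (FresBar_le_mul_four M A) x ∈ Pl''.toValuationSubring ↔
        x ∈ Pl.toValuationSubring) ∧
      ∀ k k' : ZMod p,
        NLAt (upFour T hp5) hA (exactDvd_four h hp5) hD₁'' hD₂'' hγ₁'' hγ₂'' Pl'' k k' →
          NLAt T hA h hD₁ hD₂ hγ₁ hγ₂ Pl k k' := by
  have hp2 : p ≠ 2 := by omega
  have h2 : ExactDvd p (M * 2) := exactDvd_two h hp5
  obtain ⟨Pl', e₁, he₁0, he₁3, hord₁, hmem₁⟩ := exists_place_mul_two h hp2 hA Pl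
  obtain ⟨Pl'', e₂, he₂0, he₂3, hord₂, hmem₂⟩ := exists_place_mul_two h2 hp2 hA Pl'
  obtain ⟨hD₁', hD₂', γ₁', γ₂', hγ₁', hγ₂', step₁⟩ :=
    nlAt_step T 2 (not_dvd_finrankAlong_two M hp5) hA h h2 hdeep₁ hdeep₂ hD₁ hD₂ hγ₁ hγ₂
  obtain ⟨hD₁'', hD₂'', γ₁'', γ₂'', hγ₁'', hγ₂'', step₂⟩ :=
    nlAt_step (upTwo T hp5) 2 (not_dvd_finrankAlong_two (M * 2) hp5) hA h2
      (exactDvd_four h hp5) (deepRepTwo₁ T hp5 hdeep₁) (deepRepTwo₂ T hp5 h h2 hdeep₂)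
      hD₁' hD₂' hγ₁' hγ₂'
  have hincl : ∀ x : FresBar M A, inclusion (FresBar_le_mul_four M A) x =
      inclusion (FresBar_le_level (M * 2) 2 A) (inclusion (FresBar_le_level M 2 A) x) :=
    fun x => Subtype.ext (by rw [coe_inclusion, coe_inclusion, coe_inclusion])
  refine ⟨Pl'', hD₁'', hD₂'', γ₁'', γ₂'', hγ₁'', hγ₂'', fun x => ?_, fun k k' NL'' => ?_⟩
  · rw [hincl, hmem₂, hmem₁]
  · exact step₁ Pl Pl' (e₁ : ℤ) (fun x _ => hord₁ x) (isCoprime_of_le_three hp5 he₁0 he₁3) k k'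
      (step₂ Pl' Pl'' (e₂ : ℤ) (fun x _ => hord₂ x) (isCoprime_of_le_three hp5 he₂0 he₂3) k k'
        NL'')

end Fermat.Agent.GF.KCover.AuxLevel.FourDown
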