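/-
GATE-F (S44) / GF-KCOVER-INST-AUX (helper47), file 5 = (AUX-E): **the horizontal condition goes up.**

`upF : F₁ →ₐ[Kb] F₁'` the inclusion of the cover at level `N` into the cover at level `4N`
(integral).  Then

* `map_mem_regDiv`     : `y ∈ regDiv Kb J p ⟹ upF y ∈ regDiv Kb (upF J) p`
  (`ord_{P'} (upF y) = e(P' | P) · ord_P y`);
* `map_mem_fixedUnits` : `Γ`-fixed units go to `Γ`-fixed units when `upF` is `Γ`-equivariant;
* `usUp`               : the induced map `Us Kb Γ J p → Us Kb Γ (upF J) p`, a group hom, with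
  `coe_usUp`.
-/
import Fermat.Agent.GF.KCover.Node.UsGroup
import Fermat.Prelude.Def_AlgebraicCurve_DivisorPushPull

set_option autoImplicit false
set_option linter.unusedSectionVars false
set_option linter.style.haveILetI false

noncomputable section

open AlgebraicCurve

namespace Fermat.Agent.GF.KCover.AuxLevel

open Fermat.Agent.GF.KCover Fermat.Agent.GF.KCover.Node.UsGroup

variable {Kb F₁ F₁' : Type*} [Field Kb] [Field F₁] [Field F₁'] [Algebra Kb F₁] [Algebra Kb F₁']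

/-- **`regDiv` goes up along an integral extension.** -/
theorem map_mem_regDiv (upF : F₁ →ₐ[Kb] F₁')
    (hint : upF.toRingHom.IsIntegral)
    {J : F₁} {p : ℕ} {y : F₁ˣ} (hy : y ∈ regDiv Kb J p) :
    Units.map (upF : F₁ →* F₁') y ∈ regDiv Kb (upF J) p := by
  letI : Algebra F₁ F₁' := upF.toRingHom.toAlgebra
  have : IsScalarTower Kb F₁ F₁' := IsScalarTower.of_algebraMap_eq fun a => (upF.commutes a).symm
  have : Algebra.IsIntegral F₁ F₁' := ⟨fun y' => hint y'⟩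
  intro P' hP'
  have hJ : J ∈ (P'.restrict F₁).toValuationSubring := (P'.mem_restrict_iff (F := F₁)).2 hP'
  have h1 := hy (P'.restrict F₁) hJ
  show (p : ℤ) ∣ P'.ord (upF (y : F₁))
  have h2 := P'.ord_restrict (F := F₁) (y : F₁)
  have h3 : algebraMap F₁ F₁' (y : F₁) = upF (y : F₁) := rfl
  rw [h3] at h2
  rw [h2]
  exact Dvd.dvd.mul_left h1 _

variable {Γ : Type*} [Group Γ] [MulSemiringAction Γ F₁] [MulSemiringAction Γ F₁']

/-- `Γ`-fixed units go up along a `Γ`-equivariant hom. -/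
theorem map_mem_fixedUnits (upF : F₁ →ₐ[Kb] F₁') (hΓ : ∀ (ρ : Γ) (y : F₁), upF (ρ • y) = ρ • upF y)
    {y : F₁ˣ} (hy : y ∈ fixedUnits Γ F₁) :
    Units.map (upF : F₁ →* F₁') y ∈ fixedUnits Γ F₁' := by
  intro ρ
  show ρ • upF (y : F₁) = upF (y : F₁)
  rw [← hΓ, hy ρ]

/-- the map on `Γ`-fixed units. -/
def fixedUp (upF : F₁ →ₐ[Kb] F₁') (hΓ : ∀ (ρ : Γ) (y : F₁), upF (ρ • y) = ρ • upF y) :
    fixedUnits Γ F₁ →* fixedUnits Γ F₁' where
  toFun y := ⟨Units.map (upF : F₁ →* F₁') (y : F₁ˣ), map_mem_fixedUnits upF hΓ y.2⟩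
  map_one' := Subtype.ext (map_one _)
  map_mul' _ _ := Subtype.ext (map_mul _ _ _)

@[simp] theorem coe_fixedUp (upF : F₁ →ₐ[Kb] F₁')
    (hΓ : ∀ (ρ : Γ) (y : F₁), upF (ρ • y) = ρ • upF y) (y : fixedUnits Γ F₁) :
    (((fixedUp upF hΓ y : fixedUnits Γ F₁') : F₁'ˣ) : F₁') = upF ((y : F₁ˣ) : F₁) := rfl

/-- **`Us` goes up.** -/
theorem fixedUp_mem_Us (upF : F₁ →ₐ[Kb] F₁')
    (hΓ : ∀ (ρ : Γ) (y : F₁), upF (ρ • y) = ρ • upF y)
    (hint : upF.toRingHom.IsIntegral)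
    {J : F₁} {p : ℕ} {y : fixedUnits Γ F₁} (hy : y ∈ Us Kb Γ J p) :
    fixedUp upF hΓ y ∈ Us Kb Γ (upF J) p :=
  Subgroup.mem_subgroupOf.mpr (map_mem_regDiv upF hint (Subgroup.mem_subgroupOf.mp hy))

end Fermat.Agent.GF.KCover.AuxLevel
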