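/-
GATE-F (S44) / GF-KCOVER-INST-AUX (helper47), file 6 = (AUX-F): **the node lemma `NL` on the
subgroup `Us` at level `N` from the node lemma on `Us'` at the auxiliary level `4N`.**

The descent is done on the FINAL statement `NL` (the conclusion of `NL0Plug.nl_on_subgroup`, the
binder `NL` of `NodeRelSub.nodeRel_one_sub` and of helper31's `F2Plug.NodeSupply`), not on the
`K₀`-rational statement `NL0`: no `K₀`-model has to be transported ((AUX-D) disappears).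

* `nl_descent_sub`     : `upF : F₁ →ₐ[K] F₁'` `Γ`-equivariant, `Us → Us'`, `w_i y = 0 → w_i' (up y) = 0`,
  `RedUp upF j R₁ R₁'`, `ord_{Pl'} ∘ j = e · ord_{Pl}`, `(p, e) = 1`, `NL'` at `Pl'` ⟹ `NL` at `Pl`;
* `nl_descent_sub_isU` : the same with `w_i = 0 ↔ IsU R_i` at both levels (helper19's
  `Bridge.isU_sheetK_iff_wv`) and `RedUp` for both branches;
* `nl_descent_Us`      : the same for the modular `Us Kb Γ J p` of `Node/UsGroup` (via `fixedUp_mem_Us`).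
-/
import Fermat.Agent.GF.KCover.AuxLevel.OrdRedUp
import Fermat.Agent.GF.KCover.AuxLevel.UsUp
import Fermat.Agent.GF.KCover.Node.OrdRedExt

set_option autoImplicit false
set_option linter.unusedSectionVars false

noncomputable section

open AlgebraicCurve

namespace Fermat.Agent.GF.KCover.AuxLevel

open Fermat.Agent.GJ.J1 Fermat.Agent.GF.Trop Fermat.Agent.GF.KCover
open Fermat.Agent.GF.KCover.Node.OrdRedExt Fermat.Agent.GF.KCover.Node.UsGroup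

variable {K F₁ F₁' k Ft Ft' Ft₂ Ft₂' : Type*} [Field K] [Field F₁] [Field F₁'] [Algebra K F₁]
  [Algebra K F₁'] [Field k] [Field Ft] [Field Ft'] [Algebra k Ft] [Algebra k Ft']
  [Field Ft₂] [Field Ft₂'] [Algebra k Ft₂] [Algebra k Ft₂']
  {Γ : Type*} [Group Γ] [MulSemiringAction Γ F₁] [MulSemiringAction Γ F₁']

/-- **`NL` on `Us` descends from the auxiliary level** (raw form). -/
theorem nl_descent_sub (upF : F₁ →ₐ[K] F₁')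
    (hΓ : ∀ (ρ : Γ) (y : F₁), upF (ρ • y) = ρ • upF y) {j : Ft →+* Ft'}
    {R₁ : RedData K F₁ k Ft} {R₁' : RedData K F₁' k Ft'} (h₁ : RedUp upF j R₁ R₁')
    (hun₁ : Unram R₁) (hun₁' : Unram R₁') {Pl : Place k Ft} {Pl' : Place k Ft'} {e : ℤ}
    (hord : ∀ x : Ft, x ≠ 0 → Pl'.ord (j x) = e * Pl.ord x) {p : ℕ}
    (hcop : IsCoprime (p : ℤ) e)
    (Us : Subgroup (fixedUnits Γ F₁)) (Us' : Subgroup (fixedUnits Γ F₁'))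
    (hUs : ∀ y, y ∈ Us → fixedUp upF hΓ y ∈ Us')
    (w1 w2 : fixedUnits Γ F₁ → ℤ) (w1' w2' : fixedUnits Γ F₁' → ℤ)
    (hw1 : ∀ y, w1 y = 0 → w1' (fixedUp upF hΓ y) = 0)
    (hw2 : ∀ y, w2 y = 0 → w2' (fixedUp upF hΓ y) = 0)
    (NL' : ∀ y', y' ∈ Us' → w1' y' = 0 → w2' y' = 0 →
      (p : ℤ) ∣ nodeOrd R₁' hun₁' Pl' (fixedUnits Γ F₁') y') :
    ∀ y, y ∈ Us → w1 y = 0 → w2 y = 0 → (p : ℤ) ∣ nodeOrd R₁ hun₁ Pl (fixedUnits Γ F₁) y := by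
  intro y hy h1 h2
  have h := NL' (fixedUp upF hΓ y) (hUs y hy) (hw1 y h1) (hw2 y h2)
  unfold nodeOrd at h ⊢
  rw [coe_fixedUp] at h
  exact dvd_ordRed_of_up hun₁ hun₁' h₁ hord hcop h

/-- **`NL` on `Us` descends from the auxiliary level**, `w_i = 0 ↔ IsU R_i` form: the only
cover-specific inputs are `RedUp` for the two sheets. -/
theorem nl_descent_sub_isU (upF : F₁ →ₐ[K] F₁')
    (hΓ : ∀ (ρ : Γ) (y : F₁), upF (ρ • y) = ρ • upF y) {j : Ft →+* Ft'} {j₂ : Ft₂ →+* Ft₂'}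
    {R₁ : RedData K F₁ k Ft} {R₁' : RedData K F₁' k Ft'} (h₁ : RedUp upF j R₁ R₁')
    {R₂ : RedData K F₁ k Ft₂} {R₂' : RedData K F₁' k Ft₂'} (h₂ : RedUp upF j₂ R₂ R₂')
    (hun₁ : Unram R₁) (hun₁' : Unram R₁') {Pl : Place k Ft} {Pl' : Place k Ft'} {e : ℤ}
    (hord : ∀ x : Ft, x ≠ 0 → Pl'.ord (j x) = e * Pl.ord x) {p : ℕ}
    (hcop : IsCoprime (p : ℤ) e)
    (Us : Subgroup (fixedUnits Γ F₁)) (Us' : Subgroup (fixedUnits Γ F₁'))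
    (hUs : ∀ y, y ∈ Us → fixedUp upF hΓ y ∈ Us')
    (w1 w2 : fixedUnits Γ F₁ → ℤ) (w1' w2' : fixedUnits Γ F₁' → ℤ)
    (hw1 : ∀ y : fixedUnits Γ F₁, w1 y = 0 ↔ IsU R₁ (((y : F₁ˣ) : F₁)))
    (hw2 : ∀ y : fixedUnits Γ F₁, w2 y = 0 ↔ IsU R₂ (((y : F₁ˣ) : F₁)))
    (hw1' : ∀ y' : fixedUnits Γ F₁', w1' y' = 0 ↔ IsU R₁' (((y' : F₁'ˣ) : F₁')))
    (hw2' : ∀ y' : fixedUnits Γ F₁', w2' y' = 0 ↔ IsU R₂' (((y' : F₁'ˣ) : F₁')))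
    (NL' : ∀ y', y' ∈ Us' → w1' y' = 0 → w2' y' = 0 →
      (p : ℤ) ∣ nodeOrd R₁' hun₁' Pl' (fixedUnits Γ F₁') y') :
    ∀ y, y ∈ Us → w1 y = 0 → w2 y = 0 → (p : ℤ) ∣ nodeOrd R₁ hun₁ Pl (fixedUnits Γ F₁) y :=
  nl_descent_sub upF hΓ h₁ hun₁ hun₁' hord hcop Us Us' hUs w1 w2 w1' w2'
    (fun y hy => (hw1' _).2 (by rw [coe_fixedUp]; exact h₁.isU ((hw1 y).1 hy)))
    (fun y hy => (hw2' _).2 (by rw [coe_fixedUp]; exact h₂.isU ((hw2 y).1 hy))) NL'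

/-- **the modular form**: `Us = Us K Γ J p` (`Node/UsGroup`) at both levels, `J' = upF J`. -/
theorem nl_descent_Us (upF : F₁ →ₐ[K] F₁')
    (hΓ : ∀ (ρ : Γ) (y : F₁), upF (ρ • y) = ρ • upF y) (hint : upF.toRingHom.IsIntegral)
    {j : Ft →+* Ft'} {j₂ : Ft₂ →+* Ft₂'}
    {R₁ : RedData K F₁ k Ft} {R₁' : RedData K F₁' k Ft'} (h₁ : RedUp upF j R₁ R₁')
    {R₂ : RedData K F₁ k Ft₂} {R₂' : RedData K F₁' k Ft₂'} (h₂ : RedUp upF j₂ R₂ R₂')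
    (hun₁ : Unram R₁) (hun₁' : Unram R₁') {Pl : Place k Ft} {Pl' : Place k Ft'} {e : ℤ}
    (hord : ∀ x : Ft, x ≠ 0 → Pl'.ord (j x) = e * Pl.ord x) {p : ℕ}
    (hcop : IsCoprime (p : ℤ) e) (J : F₁) {J' : F₁'} (hJ : upF J = J')
    (w1 w2 : fixedUnits Γ F₁ → ℤ) (w1' w2' : fixedUnits Γ F₁' → ℤ)
    (hw1 : ∀ y : fixedUnits Γ F₁, w1 y = 0 ↔ IsU R₁ (((y : F₁ˣ) : F₁)))
    (hw2 : ∀ y : fixedUnits Γ F₁, w2 y = 0 ↔ IsU R₂ (((y : F₁ˣ) : F₁)))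
    (hw1' : ∀ y' : fixedUnits Γ F₁', w1' y' = 0 ↔ IsU R₁' (((y' : F₁'ˣ) : F₁')))
    (hw2' : ∀ y' : fixedUnits Γ F₁', w2' y' = 0 ↔ IsU R₂' (((y' : F₁'ˣ) : F₁')))
    (NL' : ∀ y', y' ∈ Us K Γ J' p → w1' y' = 0 → w2' y' = 0 →
      (p : ℤ) ∣ nodeOrd R₁' hun₁' Pl' (fixedUnits Γ F₁') y') :
    ∀ y, y ∈ Us K Γ J p → w1 y = 0 → w2 y = 0 →
      (p : ℤ) ∣ nodeOrd R₁ hun₁ Pl (fixedUnits Γ F₁) y := by
  subst hJ
  exact nl_descent_sub_isU upF hΓ h₁ h₂ hun₁ hun₁' hord hcop (Us K Γ J p) (Us K Γ (upF J) p)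
    (fun y hy => fixedUp_mem_Us upF hΓ hint hy) w1 w2 w1' w2' hw1 hw2 hw1' hw2' NL'

end Fermat.Agent.GF.KCover.AuxLevel
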